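import Mathlib

set_option autoImplicit false

/-!
# A bound for finite subgroups of `GL₂` whose characteristic polynomials take few values

No classification of finite subgroups is used, only the class equation.
-/

noncomputable section

open Finset
open scoped Classical Pointwise

namespace FLTAgent.DeligneSerre

section Abstract

variable {G : Type*} [Group G]

private def centr (g : G) : Subgroup G := Subgroup.centralizer {g}

private lemma mem_centr {g h : G} : h ∈ centr g ↔ h * g = g * h := by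
  simp [centr, Subgroup.mem_centralizer_singleton_iff, eq_comm]

private lemma self_mem_centr (g : G) : g ∈ centr g := mem_centr.mpr rfl

private lemma centr_conj (x g : G) :
    centr (x * g * x⁻¹) = ConjAct.toConjAct x • centr g := by
  ext h
  rw [Subgroup.mem_pointwise_smul_iff_inv_smul_mem, ← map_inv, ConjAct.toConjAct_smul, inv_inv,
    mem_centr, mem_centr]
  constructor
  · intro e
    calc x⁻¹ * h * x * g = x⁻¹ * (h * (x * g * x⁻¹)) * x := by group
      _ = x⁻¹ * ((x * g * x⁻¹) * h) * x := by rw [e]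
      _ = g * (x⁻¹ * h * x) := by group
  · intro e
    calc h * (x * g * x⁻¹) = x * (x⁻¹ * h * x * g) * x⁻¹ := by group
      _ = x * (g * (x⁻¹ * h * x)) * x⁻¹ := by rw [e]
      _ = x * g * x⁻¹ * h := by group

/-- A central subgroup lies in every centraliser. -/
private lemma le_centr {Z : Subgroup G} (hZ : Z ≤ Subgroup.center G) (g : G) : Z ≤ centr g :=
  fun _ hz ↦ mem_centr.mpr ((Subgroup.mem_center_iff.mp (hZ hz) g).symm)

variable [Fintype G]

/-- The orbit of a subgroup under conjugation. -/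
private def conjOrbit (C : Subgroup G) : Finset (Subgroup G) :=
  univ.image fun x : G ↦ ConjAct.toConjAct x • C

/-- A subgroup lies in its orbit under conjugation. -/
private lemma self_mem_conjOrbit (C : Subgroup G) : C ∈ conjOrbit C :=
  mem_image.mpr ⟨1, mem_univ _, by simp⟩

/-- The orbit of a conjugate is the orbit. -/
private lemma conjOrbit_eq {C C' : Subgroup G} (h : C' ∈ conjOrbit C) :
    conjOrbit C' = conjOrbit C := by
  obtain ⟨x, -, rfl⟩ := mem_image.mp h
  ext D
  simp only [conjOrbit, mem_image, mem_univ, true_and, ← mul_smul, ← map_mul]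
  exact ⟨fun ⟨y, e⟩ ↦ ⟨y * x, e⟩, fun ⟨y, e⟩ ↦ ⟨y * x⁻¹, by simpa using e⟩⟩

/-- The elements outside `Z` whose centraliser lies in `O`. -/
private def orbitPart (Z : Subgroup G) (O : Finset (Subgroup G)) : Finset G :=
  {g : G | g ∉ Z ∧ centr g ∈ O}

/-- The centraliser of a non-central element is at least twice as large as `Z`. -/
private lemma two_mul_card_le_centr {Z : Subgroup G} (hZ : Z ≤ Subgroup.center G) {g : G}
    (hg : g ∉ Z) : 2 * Nat.card Z ≤ Nat.card (centr g) := by
  obtain ⟨c, hc⟩ := Subgroup.card_dvd_of_le (le_centr hZ g)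
  rcases c with _ | _ | c
  · exact absurd hc (by rw [mul_zero]; exact Nat.card_pos.ne')
  · rw [zero_add, mul_one] at hc
    exact absurd (self_mem_centr g) (Subgroup.eq_of_le_of_card_ge (le_centr hZ g) hc.le ▸ hg)
  · calc 2 * Nat.card Z ≤ (c + 1 + 1) * Nat.card Z := Nat.mul_le_mul_right _ (by omega)
      _ = Nat.card (centr g) := by rw [hc, mul_comm]

/-- The stabiliser of a centraliser is at most twice as large as it. -/
private lemma card_stabilizer_centr_le {β : Type*} {χ : G → β}
    (hconj : ∀ x g, χ (x * g * x⁻¹) = χ g) {g : G}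
    (hfib : #{h : G | h ∈ centr g ∧ χ h = χ g} ≤ 2) :
    Nat.card (MulAction.stabilizer (ConjAct G) (centr g)) ≤ 2 * Nat.card (centr g) := by
  set St : Subgroup (ConjAct G) := MulAction.stabilizer (ConjAct G) (centr g)
  have hmaps : ∀ x ∈ (univ.filter fun x : G ↦ ConjAct.toConjAct x ∈ St),
      x * g * x⁻¹ ∈ (univ.filter fun h : G ↦ h ∈ centr g ∧ χ h = χ g) := by
    intro x hx
    simp only [mem_filter, mem_univ, true_and] at hx ⊢
    refine ⟨?_, hconj x g⟩
    rw [← MulAction.mem_stabilizer_iff.mp hx, ← centr_conj]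
    exact self_mem_centr _
  have hfibre : ∀ y ∈ (univ.filter fun h : G ↦ h ∈ centr g ∧ χ h = χ g),
      #{x ∈ univ.filter (fun x : G ↦ ConjAct.toConjAct x ∈ St) | x * g * x⁻¹ = y} ≤
        Nat.card (centr g) := by
    intro y _
    rcases Finset.eq_empty_or_nonempty
      {x ∈ univ.filter (fun x : G ↦ ConjAct.toConjAct x ∈ St) | x * g * x⁻¹ = y}
      with he | ⟨x₀, hx₀⟩
    · simp [he]
    simp only [mem_filter, mem_univ, true_and] at hx₀
    rw [Nat.card_eq_fintype_card, Fintype.card_subtype]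
    refine card_le_card_of_injOn (fun x ↦ x₀⁻¹ * x) (fun x hx ↦ ?_)
      fun _ _ _ _ h ↦ mul_left_cancel h
    simp only [coe_filter, mem_filter, mem_univ, true_and, Set.mem_ofPred_eq] at hx ⊢
    rw [mem_centr]
    calc x₀⁻¹ * x * g = x₀⁻¹ * (x * g * x⁻¹) * x := by group
      _ = x₀⁻¹ * (x₀ * g * x₀⁻¹) * x := by rw [hx.2, hx₀.2]
      _ = g * (x₀⁻¹ * x) := by group
  have h := card_le_mul_card_image_of_maps_to hmaps _ hfibre
  have h' : Nat.card St = #(univ.filter fun x : G ↦ ConjAct.toConjAct x ∈ St) := by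
    rw [← Fintype.card_subtype, ← Nat.card_eq_fintype_card]
    exact Nat.card_congr (Equiv.subtypeEquiv ConjAct.ofConjAct.toEquiv fun x ↦ by simp)
  rw [h', mul_comm 2]
  exact h.trans (Nat.mul_le_mul_left _ hfib)

/-- The group order is the number of conjugates of a centraliser times one or two times its
order. -/
private lemma exists_card_conjOrbit {β : Type*} {χ : G → β}
    (hconj : ∀ x g, χ (x * g * x⁻¹) = χ g) {g : G}
    (hfib : #{h : G | h ∈ centr g ∧ χ h = χ g} ≤ 2) :
    ∃ e, 0 < e ∧ e ≤ 2 ∧ #(conjOrbit (centr g)) * (e * Nat.card (centr g)) = Fintype.card G := by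
  set St : Subgroup (ConjAct G) := MulAction.stabilizer (ConjAct G) (centr g)
  have hOcard : #(conjOrbit (centr g)) * Nat.card St = Fintype.card G := by
    have h1 := Nat.card_congr (MulAction.orbitProdStabilizerEquivGroup (ConjAct G) (centr g))
    rw [Nat.card_prod] at h1
    have h2 : #(conjOrbit (centr g)) = Nat.card (MulAction.orbit (ConjAct G) (centr g)) := by
      rw [← Nat.card_eq_finsetCard]
      refine Nat.card_congr (Equiv.subtypeEquivRight fun D ↦ ?_)
      simp only [conjOrbit, mem_image, mem_univ, true_and, MulAction.mem_orbit_iff]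
      exact ⟨fun ⟨x, e⟩ ↦ ⟨_, e⟩, fun ⟨x, e⟩ ↦ ⟨ConjAct.ofConjAct x, by simpa using e⟩⟩
    rw [h2, h1, ← Nat.card_eq_fintype_card]
    exact Nat.card_congr ConjAct.ofConjAct.toEquiv
  have hC'St : (centr g).map ConjAct.toConjAct.toMonoidHom ≤ St := by
    rintro _ ⟨c, hc, rfl⟩
    show ConjAct.toConjAct c ∈ St
    rw [MulAction.mem_stabilizer_iff, ← centr_conj, mem_centr.mp hc, mul_inv_cancel_right]
  obtain ⟨e, he⟩ := Subgroup.card_dvd_of_le hC'St
  rw [Subgroup.card_map_of_injective ConjAct.toConjAct.injective] at he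
  refine ⟨e, ?_, ?_, ((congrArg _ ((mul_comm _ _).trans he.symm)).trans hOcard)⟩
  · rcases Nat.eq_zero_or_pos e with rfl | h
    · simp at he
    · exact h
  · exact Nat.le_of_mul_le_mul_left
      (he ▸ (card_stabilizer_centr_le hconj hfib).trans (le_of_eq (mul_comm _ _))) Nat.card_pos

/-- The part of an orbit of centralisers has `#O * (a - #Z)` elements and meets every value of `χ`
at most `2 * #O` times. -/
private lemma orbitPart_spec {β : Type*} {Z : Subgroup G} {χ : G → β}
    (hZ : Z ≤ Subgroup.center G)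
    (hpart : ∀ g, g ∉ Z → ∀ h ∈ centr g, h ∉ Z → centr h = centr g)
    (hfib : ∀ g, g ∉ Z → ∀ b, #{h : G | h ∈ centr g ∧ χ h = b} ≤ 2) {g : G} (hg : g ∉ Z) :
    #(orbitPart Z (conjOrbit (centr g))) =
        #(conjOrbit (centr g)) * (Nat.card (centr g) - Nat.card Z) ∧
      ∀ b, #{y ∈ orbitPart Z (conjOrbit (centr g)) | χ y = b} ≤ 2 * #(conjOrbit (centr g)) := by
  have hmem : ∀ D ∈ conjOrbit (centr g), ∃ h, h ∉ Z ∧ centr h = D ∧
      Nat.card D = Nat.card (centr g) := by
    intro D hD
    obtain ⟨x, -, rfl⟩ := mem_image.mp hD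
    refine ⟨x * g * x⁻¹, fun h ↦ hg ?_, centr_conj x g,
      Nat.card_congr (Subgroup.equivSMul (ConjAct.toConjAct x) _).toEquiv.symm⟩
    have hc := Subgroup.mem_center_iff.mp (hZ h) x
    have h' : x * g * x⁻¹ = g := by
      calc x * g * x⁻¹ = x⁻¹ * (x * (x * g * x⁻¹)) := by group
        _ = x⁻¹ * ((x * g * x⁻¹) * x) := by rw [hc]
        _ = g := by group
    rwa [h'] at h
  refine ⟨?_, fun b ↦ ?_⟩
  · rw [card_eq_sum_card_fiberwise (f := centr) (s := orbitPart Z (conjOrbit (centr g)))
      (t := conjOrbit (centr g)) (fun y hy ↦ (mem_filter.mp hy).2.2), sum_const_nat]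
    intro D hD
    obtain ⟨h, hhZ, hhD, hDa⟩ := hmem D hD
    have : {y ∈ orbitPart Z (conjOrbit (centr g)) | centr y = D}
        = (univ.filter fun y : G ↦ y ∈ D) \ (univ.filter fun y : G ↦ y ∈ Z) := by
      ext y
      simp only [orbitPart, mem_filter, mem_univ, true_and, mem_sdiff]
      refine ⟨fun ⟨⟨h1, _⟩, h3⟩ ↦ ⟨h3 ▸ self_mem_centr y, h1⟩, fun ⟨h1, h2⟩ ↦ ?_⟩
      have := hpart h hhZ y (hhD ▸ h1) h2
      exact ⟨⟨h2, by rw [this, hhD]; exact hD⟩, this.trans hhD⟩
    rw [this, card_sdiff_of_subset, ← Fintype.card_subtype, ← Fintype.card_subtype]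
    · rw [← hDa, Nat.card_eq_fintype_card, Nat.card_eq_fintype_card]
    · intro y hy
      simp only [mem_filter, mem_univ, true_and] at hy ⊢
      exact hhD ▸ le_centr hZ h hy
  · refine card_le_mul_card_image_of_maps_to (f := centr)
      (fun y hy ↦ (mem_filter.mp (mem_filter.mp hy).1).2.2) 2 fun D hD ↦ ?_
    obtain ⟨h, hhZ, hhD, -⟩ := hmem D hD
    refine le_trans (card_le_card fun y hy ↦ ?_) (hfib h hhZ b)
    simp only [mem_filter, mem_univ, true_and] at hy ⊢
    exact ⟨hhD ▸ hy.2 ▸ self_mem_centr y, hy.1.2⟩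

/-- The orbits of centralisers partition the elements outside `Z`. -/
private lemma sum_card_orbitPart (Z : Subgroup G) :
    ∑ O ∈ ({g : G | g ∉ Z} : Finset G).image (fun g ↦ conjOrbit (centr g)), #(orbitPart Z O) +
      Nat.card Z = Fintype.card G := by
  rw [← card_biUnion, Nat.card_eq_fintype_card, Fintype.card_subtype, ← card_univ, add_comm]
  · convert card_filter_add_card_filter_not (p := (· ∈ Z)) using 3
    ext g
    simp only [orbitPart, mem_biUnion, mem_image, mem_filter, mem_univ, true_and]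
    exact ⟨fun ⟨_, _, h, _⟩ ↦ h, fun h ↦ ⟨_, ⟨g, h, rfl⟩, h, self_mem_conjOrbit _⟩⟩
  · intro O hO O' hO' hne
    rw [Function.onFun, disjoint_left]
    intro g h1 h2
    obtain ⟨x, -, rfl⟩ := mem_image.mp hO
    obtain ⟨y, -, rfl⟩ := mem_image.mp hO'
    exact hne ((conjOrbit_eq (mem_filter.mp h1).2.2).symm.trans
      (conjOrbit_eq (mem_filter.mp h2).2.2))

omit [Group G] [Fintype G] in
/-- The class equation with at most three classes of small size bounds the order of the group. -/
private lemma le_of_class_equation {ι : Type*} (Os : Finset ι) (s a e : ι → ℕ) {n z M : ℕ}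
    (hne : Os.Nonempty) (hz : 0 < z) (he0 : ∀ O ∈ Os, 0 < e O)
    (he2 : ∀ O ∈ Os, e O ≤ 2) (h2z : ∀ O ∈ Os, 2 * z ≤ a O)
    (hcn : ∀ O ∈ Os, s O * (e O * a O) = n) (hsum : ∑ O ∈ Os, s O * (a O - z) + z = n)
    (hsmall : ∀ O ∈ Os, a O ≤ 16 * M) : n ≤ 16 * M * (32 * M) ^ 3 := by
  have h3 : #Os ≤ 3 := by
    by_contra h
    push Not at h
    have := card_nsmul_le_sum Os (fun O ↦ 4 * (s O * (a O - z))) n fun O hO ↦ by
      rw [← hcn O hO]
      calc s O * (e O * a O) ≤ s O * (4 * (a O - z)) :=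
            Nat.mul_le_mul_left _ ((Nat.mul_le_mul_right _ (he2 O hO)).trans
              (by have := h2z O hO; omega))
        _ = _ := by ring
    rw [smul_eq_mul, ← mul_sum] at this
    nlinarith
  set D := ∏ O ∈ Os, e O * a O with hD
  set K := ∑ O ∈ Os, (a O - z) * ∏ O' ∈ Os.erase O, e O' * a O' with hK
  have hnK : D * ∑ O ∈ Os, s O * (a O - z) = n * K := by
    rw [mul_sum, hK, mul_sum]
    refine sum_congr rfl fun O hO ↦ ?_
    rw [hD, ← mul_prod_erase Os _ hO, ← hcn O hO]
    ring
  have hD0 : 0 < D := prod_pos fun O hO ↦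
    Nat.mul_pos (he0 O hO) (by have := h2z O hO; omega)
  have h8 : n * D = n * K + z * D := by rw [← hnK, mul_comm z D, ← mul_add, hsum, mul_comm]
  have hKD : K < D := by
    by_contra h
    push Not at h
    have h7 : n * D ≤ n * K := Nat.mul_le_mul_left _ h
    nlinarith [Nat.mul_pos hD0 hz]
  have hnD : n ≤ z * D := by
    obtain ⟨d, hd⟩ := Nat.exists_eq_add_of_lt hKD
    calc n = n * 1 := (mul_one n).symm
      _ ≤ n * (d + 1) := Nat.mul_le_mul_left _ (by omega)
      _ = z * D := by rw [hd, add_assoc, mul_add] at h8; rw [hd]; linarith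
  obtain ⟨O, hO⟩ := hne
  have := h2z O hO
  have := hsmall O hO
  refine hnD.trans (Nat.mul_le_mul (by omega) ?_)
  refine (prod_le_pow_card Os _ (32 * M) fun O hO ↦ ?_).trans
    (Nat.pow_le_pow_right (by omega) h3)
  calc e O * a O ≤ 2 * (16 * M) := Nat.mul_le_mul (he2 O hO) (hsmall O hO)
    _ = 32 * M := by ring

/-- The counting argument on a group with a "partition into centralisers" and a class function
which is at most two-to-one on each of them. -/
theorem card_le_of_centralizer_partition {β : Type*} (Z : Subgroup G) (χ : G → β) (M : ℕ)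
    (hZ : Z ≤ Subgroup.center G)
    (hpart : ∀ g, g ∉ Z → ∀ h ∈ Subgroup.centralizer {g}, h ∉ Z →
      Subgroup.centralizer {h} = Subgroup.centralizer {g})
    (hfib : ∀ g, g ∉ Z → ∀ b, #{h : G | h ∈ Subgroup.centralizer {g} ∧ χ h = b} ≤ 2)
    (hfibZ : Set.InjOn χ Z)
    (hconj : ∀ x g, χ (x * g * x⁻¹) = χ g)
    (H : Finset G) (hH : 8 * #(univ \ H) ≤ Fintype.card G)
    (S : Finset β) (hS : ∀ h ∈ H, χ h ∈ S) (hM : #S ≤ M) :
    Fintype.card G ≤ 16 * M * (32 * M) ^ 3 + 2 * M := by
  change ∀ g, g ∉ Z → ∀ h ∈ centr g, h ∉ Z → centr h = centr g at hpart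
  change ∀ g, g ∉ Z → ∀ b, #{h : G | h ∈ centr g ∧ χ h = b} ≤ 2 at hfib
  set n := Fintype.card G
  have hn0 : 0 < n := Fintype.card_pos
  by_cases hall : ∀ g : G, g ∈ Z
  · have h1 : #H ≤ M := le_trans
      (card_le_card_of_injOn χ (fun h hh ↦ hS h hh) fun a _ b _ e ↦ hfibZ (hall a) (hall b) e) hM
    have h2 := card_sdiff_add_card_eq_card (subset_univ H)
    rw [card_univ] at h2
    omega
  push Not at hall
  -- the classes: orbits of conjugation on the centralisers of the elements outside `Z`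
  set W : Finset G := {g : G | g ∉ Z}
  set Os := W.image fun g ↦ conjOrbit (centr g)
  have horbit : ∀ O ∈ Os, ∃ a e : ℕ, 0 < e ∧ e ≤ 2 ∧ 2 * Nat.card Z ≤ a ∧
      #O * (e * a) = n ∧ #(orbitPart Z O) = #O * (a - Nat.card Z) ∧
      ∀ b, #{y ∈ orbitPart Z O | χ y = b} ≤ 2 * #O := by
    intro O hO
    obtain ⟨g, hg, rfl⟩ := mem_image.mp hO
    have hgZ : g ∉ Z := (mem_filter.mp hg).2
    obtain ⟨e, he0, he2, he⟩ := exists_card_conjOrbit hconj (hfib g hgZ (χ g))
    exact ⟨_, e, he0, he2, two_mul_card_le_centr hZ hgZ, he, orbitPart_spec hZ hpart hfib hgZ⟩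
  choose! a e he0 he2 h2z hcn hp hfibO using horbit
  -- every centraliser is small
  have hsmall : ∀ O ∈ Os, a O ≤ 16 * M := by
    intro O hO
    have h1 : #(orbitPart Z O ∩ H) ≤ 2 * #O * M := by
      refine (card_le_mul_card_image_of_maps_to (f := χ) (t := S)
        (fun y hy ↦ hS y (mem_inter.mp hy).2) (2 * #O) fun b _ ↦ ?_).trans
        (Nat.mul_le_mul_left _ hM)
      exact le_trans (card_le_card (filter_subset_filter _ inter_subset_left)) (hfibO O hO b)
    have h4 : #(orbitPart Z O \ H) ≤ #(univ \ H) :=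
      card_le_card (sdiff_subset_sdiff (subset_univ _) subset_rfl)
    have h2 := card_sdiff_add_card_inter (orbitPart Z O) H
    have hOa : #O * a O ≤ n := hcn O hO ▸
      Nat.mul_le_mul_left _ (Nat.le_mul_of_pos_left _ (he0 O hO))
    have h5 : n ≤ 4 * #(orbitPart Z O) := by
      rw [hp O hO, ← hcn O hO]
      calc #O * (e O * a O) ≤ #O * (4 * (a O - Nat.card Z)) := Nat.mul_le_mul_left _
            ((Nat.mul_le_mul_right _ (he2 O hO)).trans (by have := h2z O hO; omega))
        _ = _ := by ring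
    have hOpos : 0 < #O := Nat.pos_of_ne_zero fun h0 ↦ by
      have := hcn O hO
      rw [h0, zero_mul] at this
      omega
    refine Nat.le_of_mul_le_mul_left ?_ hOpos
    calc #O * a O ≤ n := hOa
      _ ≤ 8 * (2 * #O * M) := by omega
      _ = #O * (16 * M) := by ring
  -- class equation
  refine (le_of_class_equation Os card a e ?_ Nat.card_pos he0 he2 h2z hcn ?_ hsmall).trans
    (Nat.le_add_right _ _)
  · obtain ⟨g, hg⟩ := hall
    exact ⟨_, mem_image_of_mem _ (mem_filter.mpr ⟨mem_univ g, hg⟩)⟩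
  · rw [← sum_congr rfl hp]
    exact sum_card_orbitPart Z

end Abstract

end FLTAgent.DeligneSerre
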