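import Mathlib
import Fermat.Agent.DeligneSerre.GroupBound

set_option autoImplicit false

/-!
# Finite subgroups of `GL₂` with few characteristic polynomials

`card_le_of_trDet`: a finite subgroup of `GL₂(k)` of order invertible in `k`, seven eighths of
which have trace and determinant in a set of `M` pairs, has order bounded in terms of `M`. The
counting is `card_le_of_centralizer_partition`.
-/

noncomputable section

open Finset Matrix
open scoped Classical MatrixGroups

namespace FLTAgent.DeligneSerre

variable {k : Type*} [Field k]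

/-- The pair (trace, determinant). -/
def trDet (g : GL (Fin 2) k) : k × k :=
  ((g : Matrix (Fin 2) (Fin 2) k).trace, (g : Matrix (Fin 2) (Fin 2) k).det)

/-- Membership in `k + k • g`. -/
private lemma exists_eq_of_commute {g h : Matrix (Fin 2) (Fin 2) k}
    (hg : ∀ c : k, g ≠ c • 1) (hc : h * g = g * h) : ∃ x y : k, h = x • 1 + y • g := by
  have e : ∀ i j, (h * g) i j = (g * h) i j := fun i j ↦ by rw [hc]
  have e00 := e 0 0; have e01 := e 0 1; have e10 := e 1 0; have e11 := e 1 1
  simp only [Matrix.mul_apply, Fin.sum_univ_two] at e00 e01 e10 e11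
  by_cases h01 : g 0 1 = 0
  · by_cases h10 : g 1 0 = 0
    · have hd : g 0 0 - g 1 1 ≠ 0 := by
        intro h0
        apply hg (g 0 0)
        ext i j
        fin_cases i <;> fin_cases j <;> simp [h01, h10, (sub_eq_zero.mp h0).symm]
      have a01 : h 0 1 = 0 := by
        have : (g 0 0 - g 1 1) * h 0 1 = 0 := by rw [h01] at e01; linear_combination -e01
        exact (mul_eq_zero.mp this).resolve_left hd
      have a10 : h 1 0 = 0 := by
        have : (g 0 0 - g 1 1) * h 1 0 = 0 := by rw [h10] at e10; linear_combination e10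
        exact (mul_eq_zero.mp this).resolve_left hd
      refine ⟨h 0 0 - (h 0 0 - h 1 1) / (g 0 0 - g 1 1) * g 0 0,
        (h 0 0 - h 1 1) / (g 0 0 - g 1 1), ?_⟩
      ext i j
      fin_cases i <;> fin_cases j <;> simp [h01, h10, a01, a10]
      field_simp
      ring
    · refine ⟨h 0 0 - h 1 0 / g 1 0 * g 0 0, h 1 0 / g 1 0, ?_⟩
      have a01 : h 0 1 = 0 := by
        have : h 0 1 * g 1 0 = 0 := by rw [h01] at e00; linear_combination e00
        exact (mul_eq_zero.mp this).resolve_right h10
      ext i j
      fin_cases i <;> fin_cases j <;> simp [h01, a01, h10]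
      field_simp
      linear_combination e10
  · refine ⟨h 0 0 - h 0 1 / g 0 1 * g 0 0, h 0 1 / g 0 1, ?_⟩
    ext i j
    fin_cases i <;> fin_cases j <;> simp <;> field_simp
    · linear_combination -e00
    · linear_combination -e01

private lemma natCast_mul_eq_zero_of_pow (a : k) (N : Matrix (Fin 2) (Fin 2) k) (hN : N * N = 0) :
    ∀ n : ℕ, (a • 1 + N) ^ n = a ^ n • 1 + ((n : k) * a ^ (n - 1)) • N := by
  intro n
  induction n with
  | zero => simp
  | succ n ih =>
    rw [pow_succ, ih]
    simp only [add_mul, mul_add, smul_mul_assoc, mul_smul_comm, one_mul, mul_one, hN, smul_zero,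
      add_zero, Nat.add_sub_cancel]
    rcases n with _ | n
    · simp
    · simp only [Nat.add_sub_cancel]
      push_cast
      module

/-- In a finite group of order invertible in `k`, a non-scalar element has non-zero
discriminant. -/
private lemma disc_ne_zero {g : Matrix (Fin 2) (Fin 2) k} (h2 : (2 : k) ≠ 0) {n : ℕ}
    (hn : (n : k) ≠ 0) (hpow : g ^ n = 1) (hg : ∀ c : k, g ≠ c • 1) :
    g.trace ^ 2 - 4 * g.det ≠ 0 := by
  intro hdisc
  set a := g.trace / 2 with ha
  set N := g - a • 1 with hN
  have hgN : g = a • 1 + N := by rw [hN]; abel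
  have hNN : N * N = 0 := by
    rw [Matrix.trace_fin_two, Matrix.det_fin_two] at hdisc
    ext i j
    fin_cases i <;> fin_cases j <;>
      simp [hN, ha, Matrix.mul_apply, Fin.sum_univ_two, Matrix.trace_fin_two] <;> field_simp
    · linear_combination hdisc
    · ring
    · ring
    · linear_combination hdisc
  have ha0 : a ≠ 0 := by
    intro h0
    rw [hgN, h0, zero_smul, zero_add] at hpow
    rcases n with _ | _ | n
    · simp at hn
    · rw [pow_one] at hpow
      rw [hpow, one_mul] at hNN
      exact one_ne_zero hNN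
    · rw [pow_succ, pow_succ, mul_assoc, hNN, mul_zero] at hpow
      exact zero_ne_one hpow
  rw [hgN, natCast_mul_eq_zero_of_pow a N hNN] at hpow
  have htr : N.trace = 0 := by
    rw [hN, ha]
    simp [Matrix.trace_fin_two]
    field_simp
    ring
  have h1 : a ^ n = 1 := by
    have := congrArg Matrix.trace hpow
    rw [Matrix.trace_add, Matrix.trace_smul, Matrix.trace_smul, htr, smul_zero, add_zero,
      Matrix.trace_one] at this
    simp at this
    exact mul_right_cancel₀ h2 (by rw [this, one_mul])
  rw [h1, one_smul, add_eq_left, smul_eq_zero] at hpow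
  rcases hpow with h | h
  · exact (mul_ne_zero hn (pow_ne_zero _ ha0)) h
  · exact hg a (by rw [hgN, h, add_zero])

/-- The semisimple case: order invertible in `k`. -/
theorem card_le_of_trDet {G : Type*} [Group G] [Fintype G] (ρ : G →* GL (Fin 2) k)
    (hρ : Function.Injective ρ) (hcard : (Fintype.card G : k) ≠ 0) (h2 : (2 : k) ≠ 0)
    (H : Finset G) (hH : 8 * #(univ \ H) ≤ Fintype.card G)
    (S : Finset (k × k)) (hS : ∀ h ∈ H, trDet (ρ h) ∈ S) (M : ℕ) (hM : #S ≤ M) :
    Fintype.card G ≤ 16 * M * (32 * M) ^ 3 + 2 * M := by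
  let m : G →* Matrix (Fin 2) (Fin 2) k := (Units.coeHom _).comp ρ
  have hm : Function.Injective m := Units.val_injective.comp hρ
  let Z : Subgroup G :=
  { carrier := {g | ∃ c : k, m g = c • 1}
    one_mem' := ⟨1, by simp⟩
    mul_mem' := fun {a b} ⟨c, hc⟩ ⟨d, hd⟩ ↦ ⟨c * d, by
      rw [map_mul, hc, hd, smul_mul_smul_comm, mul_one]⟩
    inv_mem' := fun {a} ⟨c, hc⟩ ↦ by
      have h : m a * m a⁻¹ = 1 := by rw [← map_mul, mul_inv_cancel, map_one]
      rw [hc, smul_mul_assoc, one_mul] at h
      have hc0 : c ≠ 0 := by rintro rfl; simp at h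
      exact ⟨c⁻¹, by rw [← h, inv_smul_smul₀ hc0]⟩ }
  have hnZ : ∀ g, g ∉ Z → ∀ c : k, m g ≠ c • 1 := fun g hg c hc ↦ hg ⟨c, hc⟩
  have hcent : ∀ g h : G, h ∈ Subgroup.centralizer {g} ↔ m h * m g = m g * m h := fun g h ↦ by
    rw [Subgroup.mem_centralizer_singleton_iff, ← map_mul, ← map_mul, hm.eq_iff]
  have hdisc : ∀ g, g ∉ Z → (m g).trace ^ 2 - 4 * (m g).det ≠ 0 := fun g hg ↦
    disc_ne_zero h2 hcard (by rw [← map_pow, pow_card_eq_one, map_one]) (hnZ g hg)
  refine card_le_of_centralizer_partition Z (fun g ↦ trDet (ρ g)) M ?_ ?_ ?_ ?_ ?_ H hH S hS hM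
  · rintro g ⟨c, hc⟩
    rw [Subgroup.mem_center_iff]
    exact fun h ↦ hm (by simp [hc])
  · intro g hg h hh hhZ
    obtain ⟨x, y, hxy⟩ := exists_eq_of_commute (hnZ g hg) ((hcent g h).mp hh)
    have hy : y ≠ 0 := by rintro rfl; exact hhZ ⟨x, by simpa using hxy⟩
    ext z
    rw [hcent, hcent, hxy]
    simp only [mul_add, add_mul, mul_smul_comm, smul_mul_assoc, mul_one, one_mul, add_right_inj]
    exact (smul_right_injective _ hy).eq_iff
  · intro g hg b
    rw [← not_lt]
    intro hlt
    obtain ⟨p, q, r, hp, hq, hr, hpq, hpr, hqr⟩ := two_lt_card_iff.mp hlt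
    simp only [mem_filter, mem_univ, true_and] at hp hq hr
    have key : ∀ z w : G, (z ∈ Subgroup.centralizer {g} ∧ trDet (ρ z) = b) →
        (w ∈ Subgroup.centralizer {g} ∧ trDet (ρ w) = b) → z ≠ w →
        ∃ x y : k, m z = x • 1 + y • m g ∧
          m w = (x + y * (m g).trace) • 1 + (-y) • m g := by
      intro z w hz hw hne
      obtain ⟨x, y, hxy⟩ := exists_eq_of_commute (hnZ g hg) ((hcent g z).mp hz.1)
      obtain ⟨x', y', hxy'⟩ := exists_eq_of_commute (hnZ g hg) ((hcent g w).mp hw.1)
      have ht : (m z).trace = (m w).trace := congrArg Prod.fst (hz.2.trans hw.2.symm)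
      have hd : (m z).det = (m w).det := congrArg Prod.snd (hz.2.trans hw.2.symm)
      rw [hxy, hxy'] at ht hd
      simp [Matrix.trace_fin_two, Matrix.det_fin_two] at ht hd
      have hs : (y - y') * (y + y') * ((m g).trace ^ 2 - 4 * (m g).det) = 0 := by
        rw [Matrix.trace_fin_two, Matrix.det_fin_two]
        linear_combination (x + x + y * (m g 0 0 + m g 1 1) + x' + x' + y' * (m g 0 0 + m g 1 1))
          * ht - 4 * hd
      rcases mul_eq_zero.mp hs with hs | hs
      · rcases mul_eq_zero.mp hs with h | h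
        · rw [sub_eq_zero] at h
          have : x = x' := mul_left_cancel₀ h2 (by subst h; linear_combination ht)
          exact absurd (hm (by rw [hxy, hxy', this, h])) hne
        · refine ⟨x, y, hxy, ?_⟩
          have hy' : y' = -y := by linear_combination h
          subst hy'
          have : x' = x + y * (m g).trace := mul_left_cancel₀ h2 (by
            rw [Matrix.trace_fin_two]; linear_combination -ht)
          rw [hxy', this]
      · exact absurd hs (hdisc g hg)
    obtain ⟨x, y, hz1, hw1⟩ := key p q hp hq hpq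
    obtain ⟨x', y', hz2, hw2⟩ := key p r hp hr hpr
    refine hqr (hm ?_)
    have e : x • (1 : Matrix (Fin 2) (Fin 2) k) + y • m g = x' • 1 + y' • m g := hz1.symm.trans hz2
    have hy : y = y' := by
      by_contra hne
      refine hnZ g hg ((x' - x) / (y - y')) ?_
      rw [eq_comm, ← (smul_right_injective _ (sub_ne_zero.mpr hne)).eq_iff]
      simp only [smul_smul, mul_div_cancel₀ _ (sub_ne_zero.mpr hne)]
      rw [sub_smul, sub_smul, sub_eq_sub_iff_add_eq_add]
      rw [add_comm (y • m g)]
      exact e.symm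
    subst hy
    rw [hw1, hw2, smul_left_injective k one_ne_zero (add_right_cancel e)]
  · rintro g ⟨c, hc⟩ h ⟨d, hd⟩ e
    have ht : (m g).trace = (m h).trace := congrArg Prod.fst e
    rw [hc, hd] at ht
    simp at ht
    exact hm (by rw [hc, hd, ht.resolve_right h2])
  · intro x g
    simp only [trDet, map_mul, map_inv, Units.val_mul, Matrix.det_units_conj,
      Matrix.trace_units_conj]

end FLTAgent.DeligneSerre
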