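import Mathlib
import Fermat.Agent.DeligneSerre.GroupMatrix

set_option autoImplicit false

/-!
# Irreducible subgroups of `GL₂` of order divisible by the characteristic

An irreducible subgroup of order divisible by `ℓ`, with traces in the prime field and few
characteristic polynomials, forces `ℓ` to be small (`char_le_of_irreducible`); so for large `ℓ` a
semisimple subgroup has bounded order prime to `ℓ` (`card_le_of_semisimple`).
-/

noncomputable section

open Finset Matrix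
open scoped Classical MatrixGroups

namespace FLTAgent.DeligneSerre

variable {k : Type*} [Field k]

/-- No common eigenvector. -/
def NoCommonEigenvector {G : Type*} [Group G] (ρ : G →* GL (Fin 2) k) : Prop :=
  ∀ v : Fin 2 → k, v ≠ 0 → ∃ g, ∀ c : k, (ρ g : Matrix (Fin 2) (Fin 2) k) *ᵥ v ≠ c • v

/-- Every element is diagonal. -/
def IsDiagonal {G : Type*} [Group G] (ρ : G →* GL (Fin 2) k) : Prop :=
  ∀ g, (ρ g : Matrix (Fin 2) (Fin 2) k) 0 1 = 0 ∧ (ρ g : Matrix (Fin 2) (Fin 2) k) 1 0 = 0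

theorem natCast_card_ne_zero_of_isDiagonal {ℓ : ℕ} [Fact ℓ.Prime] [CharP k ℓ] {G : Type*}
    [Group G] [Fintype G] (ρ : G →* GL (Fin 2) k) (hρ : Function.Injective ρ)
    (hd : IsDiagonal ρ) : (Fintype.card G : k) ≠ 0 := by
  rw [Ne, CharP.cast_eq_zero_iff k ℓ]
  intro hdvd
  obtain ⟨g, hg⟩ := exists_prime_orderOf_dvd_card ℓ hdvd
  refine (Fact.out : ℓ.Prime).one_lt.ne' (hg ▸ orderOf_eq_one_iff.mpr (hρ ?_))
  rw [map_one]
  refine Units.ext ?_
  have hpow : ((ρ g : Matrix (Fin 2) (Fin 2) k)) ^ ℓ = 1 := by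
    rw [← hg, ← Units.val_pow_eq_pow_val, ← map_pow, pow_orderOf_eq_one, map_one, Units.val_one]
  have hdg : (ρ g : Matrix (Fin 2) (Fin 2) k)
      = Matrix.diagonal (fun i ↦ (ρ g : Matrix (Fin 2) (Fin 2) k) i i) := by
    ext i j
    fin_cases i <;> fin_cases j <;> simp [(hd g).1, (hd g).2]
  rw [hdg, Matrix.diagonal_pow, ← Matrix.diagonal_one] at hpow
  rw [Units.val_one, hdg, ← Matrix.diagonal_one]
  refine congrArg _ (funext fun i ↦ ?_)
  have h := congrFun (Matrix.diagonal_injective hpow) i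
  simp only [Pi.pow_apply] at h
  have : frobenius k ℓ (((ρ g : Matrix (Fin 2) (Fin 2) k)) i i) = frobenius k ℓ 1 := by
    rw [map_one, frobenius_def]; exact h
  exact frobenius_inj k ℓ this

/-- A matrix with `ℓ`-th power `1` has determinant `1` and fixes a non-zero vector. -/
private lemma exists_fixed_of_pow_char_eq_one {ℓ : ℕ} [Fact ℓ.Prime] [CharP k ℓ]
    {A : Matrix (Fin 2) (Fin 2) k} (hA : A ^ ℓ = 1) : A.det = 1 ∧ ∃ v ≠ 0, A *ᵥ v = v := by
  refine ⟨frobenius_inj k ℓ ?_, ?_⟩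
  · simp only [frobenius_def, one_pow, ← Matrix.det_pow, hA, Matrix.det_one]
  · have h0 : (A - 1).det ^ ℓ = 0 := by
      rw [← Matrix.det_pow, sub_pow_char_of_commute ℓ (Commute.one_right _), hA, one_pow, sub_self,
        Matrix.det_zero]
    obtain ⟨v, hv, h⟩ := Matrix.exists_mulVec_eq_zero_iff.mpr (eq_zero_of_pow_eq_zero h0)
    exact ⟨v, hv, sub_eq_zero.mp (by rwa [Matrix.sub_mulVec, Matrix.one_mulVec] at h)⟩

/-- A non-zero vector and a vector which is not a multiple of it form a basis. -/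
private lemma det_ne_zero_of_ne_smul {v w : Fin 2 → k} (hv : v ≠ 0) (hw : ∀ c : k, w ≠ c • v) :
    (!![v 0, w 0; v 1, w 1] : Matrix (Fin 2) (Fin 2) k).det ≠ 0 := by
  intro h0
  simp [Matrix.det_fin_two] at h0
  by_cases hv0 : v 0 = 0
  · have hv1 : v 1 ≠ 0 := fun h ↦ hv (funext fun i ↦ by fin_cases i <;> simpa)
    refine hw (w 1 / v 1) (funext fun i ↦ ?_)
    fin_cases i <;> simp [hv0, hv1] at h0 ⊢
    exact h0
  · refine hw (w 0 / v 0) (funext fun i ↦ ?_)
    fin_cases i <;> simp [hv0]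
    field_simp
    linear_combination h0

/-- If `A` fixes the `j`-th column of `P`, then `P⁻¹ A P` fixes the `j`-th unit vector. -/
private lemma conj_apply_of_fixed (P : GL (Fin 2) k) (A : Matrix (Fin 2) (Fin 2) k) (j : Fin 2)
    (h : A *ᵥ (fun i ↦ P.val i j) = fun i ↦ P.val i j) (i : Fin 2) :
    (P⁻¹.val * A * P.val) i j = if i = j then 1 else 0 := by
  have h2 : (P⁻¹.val * A * P.val) i j = (P⁻¹.val * P.val) i j := by
    rw [mul_assoc, Matrix.mul_apply, Matrix.mul_apply]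
    exact sum_congr rfl fun a _ ↦ congrArg _ (congrFun h a)
  rw [h2, Units.inv_mul, Matrix.one_apply]

/-- An element of order `ℓ` of an irreducible group, and a conjugate of it, are upper and lower
unitriangular in a suitable basis. -/
private lemma exists_unipotent_pair {ℓ : ℕ} [Fact ℓ.Prime] [CharP k ℓ] {G : Type*} [Group G]
    (ρ : G →* GL (Fin 2) k) (hρ : Function.Injective ρ) (hirr : NoCommonEigenvector ρ) {g : G}
    (hg : orderOf g = ℓ) : ∃ (n : G →* Matrix (Fin 2) (Fin 2) k) (g' : G) (a b : k),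
      Function.Injective n ∧ (∀ y, ((n y).trace, (n y).det) = trDet (ρ y)) ∧ a ≠ 0 ∧ b ≠ 0 ∧
      n g = !![1, a; 0, 1] ∧ n g' = !![1, 0; b, 1] := by
  have hg1 : g ≠ 1 := fun h ↦ (Fact.out : ℓ.Prime).ne_one (by rw [← hg, h, orderOf_one])
  obtain ⟨hdet, v, hv, huv⟩ := exists_fixed_of_pow_char_eq_one (ℓ := ℓ) (A := (ρ g).val) (by
    rw [← hg, ← Units.val_pow_eq_pow_val, ← map_pow, pow_orderOf_eq_one, map_one, Units.val_one])
  obtain ⟨x, hx⟩ := hirr v hv
  set v' := (ρ x).val *ᵥ v with hv'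
  have hfix : (ρ (x * g * x⁻¹)).val *ᵥ v' = v' := by
    rw [hv', Matrix.mulVec_mulVec, ← Units.val_mul, ← map_mul, inv_mul_cancel_right, map_mul,
      Units.val_mul, ← Matrix.mulVec_mulVec, huv]
  let P : GL (Fin 2) k :=
    Matrix.GeneralLinearGroup.mkOfDetNeZero _ (det_ne_zero_of_ne_smul hv hx)
  let n : G →* Matrix (Fin 2) (Fin 2) k :=
    (Units.coeHom _).comp ((MulAut.conj P⁻¹).toMonoidHom.comp ρ)
  have hn : ∀ y, n y = P⁻¹.val * (ρ y).val * P.val := fun y ↦ by simp [n]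
  have hinj : Function.Injective n :=
    Units.val_injective.comp ((MulAut.conj P⁻¹).injective.comp hρ)
  have htd : ∀ y, ((n y).trace, (n y).det) = trDet (ρ y) := fun y ↦ by
    rw [hn, Matrix.trace_units_conj', Matrix.det_units_conj', trDet]
  have hone : ∀ {y : G}, n y = !![1, 0; 0, 1] → y = 1 := fun h ↦ hinj (by
    rw [h, map_one, Matrix.one_fin_two])
  have h0 := conj_apply_of_fixed P (ρ g).val 0 (by
    rw [show (fun i ↦ P.val i 0) = v from funext fun i ↦ by fin_cases i <;> rfl]; exact huv)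
  have h1 := conj_apply_of_fixed P (ρ (x * g * x⁻¹)).val 1 (by
    rw [show (fun i ↦ P.val i 1) = v' from funext fun i ↦ by fin_cases i <;> rfl]; exact hfix)
  simp only [← hn] at h0 h1
  have d0 : (n g).det = 1 := by rw [hn, Matrix.det_units_conj', hdet]
  have d1 : (n (x * g * x⁻¹)).det = 1 := by
    rw [hn, Matrix.det_units_conj', map_mul, map_mul, map_inv, Units.val_mul, Units.val_mul,
      Matrix.det_units_conj, hdet]
  have hU : n g = !![1, n g 0 1; 0, 1] := by
    rw [Matrix.det_fin_two, h0 0, h0 1] at d0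
    ext i j
    fin_cases i <;> fin_cases j <;> simp [h0] at d0 ⊢
    exact d0
  have hL : n (x * g * x⁻¹) = !![1, 0; n (x * g * x⁻¹) 1 0, 1] := by
    rw [Matrix.det_fin_two, h1 0, h1 1] at d1
    ext i j
    fin_cases i <;> fin_cases j <;> simp [h1] at d1 ⊢
    exact d1
  refine ⟨n, x * g * x⁻¹, _, _, hinj, htd, fun h ↦ hg1 (hone (by rw [hU, h])), fun h ↦ hg1 ?_,
    hU, hL⟩
  simpa using hone (y := x * g * x⁻¹) (by rw [hL, h])

/-- With traces in a subfield `K`, the entries lie in `K` up to the scaling by `a`. -/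
private lemma entries_mem {G : Type*} [Group G] (n : G →* Matrix (Fin 2) (Fin 2) k)
    (K : Subfield k) (htr : ∀ y, (n y).trace ∈ K) {g g' : G} {a b : k} (ha0 : a ≠ 0)
    (hb0 : b ≠ 0) (ha : n g = !![1, a; 0, 1]) (hb : n g' = !![1, 0; b, 1]) (y : G) :
    n y 0 0 ∈ K ∧ a * n y 1 0 ∈ K ∧ n y 0 1 / a ∈ K := by
  have hab : a * b ∈ K := by
    have := htr (g * g')
    rw [map_mul, ha, hb] at this
    have e : (!![1, a; 0, 1] * !![1, 0; b, 1] : Matrix (Fin 2) (Fin 2) k).trace = 2 + a * b := by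
      simp [Matrix.trace_fin_two]; ring
    rw [e] at this
    simpa using K.sub_mem this (natCast_mem K 2)
  have t0 := htr y
  have t1 := htr (y * g)
  have t2 := htr (y * g')
  have t3 := htr (y * g * g')
  simp only [map_mul, ha, hb] at t1 t2 t3
  simp [Matrix.trace_fin_two, Matrix.mul_apply, Fin.sum_univ_two] at t0 t1 t2 t3
  have c1 : a * n y 1 0 ∈ K := by convert K.sub_mem t1 t0 using 1; ring
  have c2 : b * n y 0 1 ∈ K := by convert K.sub_mem t2 t0 using 1; ring
  have c : a * b * n y 0 0 ∈ K := by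
    convert K.sub_mem (K.sub_mem (K.sub_mem t3 c1) c2) t0 using 1; ring
  refine ⟨?_, c1, ?_⟩
  · have := K.div_mem c hab
    rwa [mul_div_cancel_left₀ _ (mul_ne_zero ha0 hb0)] at this
  · convert K.div_mem c2 hab using 1; field_simp

/-- Powers of an upper unitriangular matrix. -/
private lemma upper_pow (a : k) (i : ℕ) :
    (!![1, a; 0, 1] : Matrix (Fin 2) (Fin 2) k) ^ i = !![1, (i : k) * a; 0, 1] := by
  induction i with
  | zero => simp [Matrix.one_fin_two]
  | succ i ih =>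
    rw [pow_succ, ih]
    ext i j
    fin_cases i <;> fin_cases j <;> simp [Matrix.mul_apply, Fin.sum_univ_two]
    ring

/-- Powers of a lower unitriangular matrix. -/
private lemma lower_pow (b : k) (i : ℕ) :
    (!![1, 0; b, 1] : Matrix (Fin 2) (Fin 2) k) ^ i = !![1, 0; (i : k) * b, 1] := by
  induction i with
  | zero => simp [Matrix.one_fin_two]
  | succ i ih =>
    rw [pow_succ, ih]
    ext i j
    fin_cases i <;> fin_cases j <;> simp [Matrix.mul_apply, Fin.sum_univ_two]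
    ring

/-- The words `g'ⁱ gʲ g'ˡ` with `i, l < ℓ` and `0 < j < ℓ` are distinct. -/
private lemma le_card_of_unipotent_pair {ℓ : ℕ} [Fact ℓ.Prime] [CharP k ℓ] {G : Type*} [Group G]
    [Fintype G] (n : G →* Matrix (Fin 2) (Fin 2) k) {g g' : G} {a b : k} (ha0 : a ≠ 0)
    (hb0 : b ≠ 0) (ha : n g = !![1, a; 0, 1]) (hb : n g' = !![1, 0; b, 1]) :
    ℓ * (ℓ - 1) * ℓ ≤ Fintype.card G := by
  have := card_le_card_of_injOn (s := range ℓ ×ˢ Finset.Ico 1 ℓ ×ˢ range ℓ)
      (t := (univ : Finset G))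
    (fun t : ℕ × ℕ × ℕ ↦ g' ^ t.1 * g ^ t.2.1 * g' ^ t.2.2) (fun _ _ ↦ mem_univ _) ?_
  · rw [card_product, card_product, card_range, Nat.card_Ico, card_univ, ← mul_assoc] at this
    exact this
  rintro ⟨i, j, l⟩ h1 ⟨i', j', l'⟩ h2 e
  simp only [coe_product, Set.mem_prod, coe_range, coe_Ico, Set.mem_Iio, Set.mem_Ico] at h1 h2
  have e := congrArg n e
  simp only [map_mul, map_pow, ha, hb, upper_pow, lower_pow] at e
  have e01 := congrArg (fun A ↦ A 0 1) e
  have e00 := congrArg (fun A ↦ A 0 0) e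
  have e11 := congrArg (fun A ↦ A 1 1) e
  simp [Matrix.mul_apply, Fin.sum_univ_two] at e01 e00 e11
  have hj : (j : k) = j' := e01.resolve_right ha0
  have hcast : ∀ {p q : ℕ}, p < ℓ → q < ℓ → (p : k) = q → p = q := fun hp hq h ↦
    CharP.natCast_injOn_Iio k ℓ hp hq h
  obtain rfl := hcast h1.2.1.2 h2.2.1.2 hj
  have hj0 : (j : k) ≠ 0 := fun h ↦ by
    have := hcast h1.2.1.2 (Fact.out : ℓ.Prime).pos (by simpa using h)
    omega
  have hil : (i : k) = i' := mul_right_cancel₀ hb0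
    (mul_right_cancel₀ (mul_ne_zero hj0 ha0) (by linear_combination e11))
  have hll : (l : k) = l' := mul_right_cancel₀ hb0
    (mul_right_cancel₀ (mul_ne_zero hj0 ha0) (by linear_combination e00))
  rw [hcast h1.1 h2.1 hil, hcast h1.2.2 h2.2.2 hll]

/-- At most `2ℓ²` elements share a trace and determinant, if their entries lie in `𝔽_ℓ` up to
scaling. -/
private lemma card_trDet_fibre_le {ℓ : ℕ} [Fact ℓ.Prime] [CharP k ℓ] {G : Type*}
    (n : G → Matrix (Fin 2) (Fin 2) k) (hn : Function.Injective n) {a : k} (ha0 : a ≠ 0)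
    (hent : let K := (ZMod.castHom dvd_rfl k : ZMod ℓ →+* k).fieldRange
      ∀ y, n y 0 0 ∈ K ∧ a * n y 1 0 ∈ K ∧ n y 0 1 / a ∈ K)
    (H : Finset G) (s : k × k) :
    #{y ∈ H | ((n y).trace, (n y).det) = s} ≤ 2 * ℓ * ℓ := by
  let F : Finset k := (univ : Finset (ZMod ℓ)).image (ZMod.castHom dvd_rfl k)
  have hF : ∀ z, z ∈ (ZMod.castHom dvd_rfl k : ZMod ℓ →+* k).fieldRange → z ∈ F := fun z hz ↦ by
    obtain ⟨c, rfl⟩ := hz
    exact mem_image.mpr ⟨c, mem_univ _, rfl⟩
  have hFc : #F ≤ ℓ := card_image_le.trans (by rw [card_univ, ZMod.card])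
  let φ : G → k × Bool × k := fun y ↦
    (n y 0 0, if n y 0 1 = 0 then (false, a * n y 1 0) else (true, n y 0 1 / a))
  refine (card_le_card_of_injOn φ (t := F ×ˢ (univ : Finset Bool) ×ˢ F) ?_ ?_).trans ?_
  · intro y _
    simp only [φ, coe_product, Set.mem_prod, mem_coe, coe_univ, Set.mem_univ, true_and]
    refine ⟨hF _ (hent y).1, ?_⟩
    split_ifs
    · exact hF _ (hent y).2.1
    · exact hF _ (hent y).2.2
  · intro y hy z hz e
    simp only [coe_filter, Set.mem_ofPred_eq] at hy hz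
    have et : (n y).trace = (n z).trace := congrArg Prod.fst (hy.2.trans hz.2.symm)
    have ed : (n y).det = (n z).det := congrArg Prod.snd (hy.2.trans hz.2.symm)
    simp only [φ, Prod.mk.injEq] at e
    obtain ⟨e0, e1⟩ := e
    rw [Matrix.trace_fin_two, Matrix.trace_fin_two, e0, add_right_inj] at et
    rw [Matrix.det_fin_two, Matrix.det_fin_two, e0, et, sub_right_inj] at ed
    apply hn
    split_ifs at e1 with hy0 hz0 hz0 <;> simp at e1
    · have e2 : n y 1 0 = n z 1 0 := e1.resolve_right ha0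
      ext i j
      fin_cases i <;> fin_cases j <;> simp [e0, et, hy0, hz0, e2]
    · have e2 : n y 0 1 = n z 0 1 := by field_simp at e1; exact e1
      rw [e2] at ed
      have e3 : n y 1 0 = n z 1 0 := mul_left_cancel₀ hz0 ed
      ext i j
      fin_cases i <;> fin_cases j <;> simp [e0, et, e2, e3]
  · rw [card_product, card_product, card_univ, Fintype.card_bool]
    calc #F * (2 * #F) ≤ ℓ * (2 * ℓ) := by gcongr
      _ = 2 * ℓ * ℓ := by ring

theorem char_le_of_irreducible {ℓ : ℕ} [Fact ℓ.Prime] [CharP k ℓ] {G : Type*} [Group G] [Fintype G]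
    (ρ : G →* GL (Fin 2) k) (hρ : Function.Injective ρ) (hirr : NoCommonEigenvector ρ)
    (htr : ∀ g, (ρ g : Matrix (Fin 2) (Fin 2) k).trace ∈
      (ZMod.castHom dvd_rfl k : ZMod ℓ →+* k).fieldRange)
    (hdvd : ℓ ∣ Fintype.card G)
    (H : Finset G) (hH : 8 * #(univ \ H) ≤ Fintype.card G)
    (S : Finset (k × k)) (hS : ∀ h ∈ H, trDet (ρ h) ∈ S) (M : ℕ) (hM : #S ≤ M) :
    ℓ ≤ 3 * M + 1 := by
  have hℓ : ℓ.Prime := Fact.out
  obtain ⟨g, hg⟩ := exists_prime_orderOf_dvd_card ℓ hdvd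
  obtain ⟨n, g', a, b, hn, htd, ha0, hb0, ha, hb⟩ := exists_unipotent_pair ρ hρ hirr hg
  -- the lower bound on the order
  have hlow : ℓ * (ℓ - 1) * ℓ ≤ Fintype.card G := le_card_of_unipotent_pair n ha0 hb0 ha hb
  -- the upper bound on the fibres
  have htrn : ∀ y, (n y).trace ∈ (ZMod.castHom dvd_rfl k : ZMod ℓ →+* k).fieldRange := fun y ↦ by
    rw [show (n y).trace = _ from congrArg Prod.fst (htd y)]
    exact htr y
  have hfib : ∀ s ∈ S, #{y ∈ H | trDet (ρ y) = s} ≤ 2 * ℓ * ℓ := fun s _ ↦ by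
    simp only [← htd]
    exact card_trDet_fibre_le n hn ha0 (entries_mem n _ htrn ha0 hb0 ha hb) H s
  have hcardH : #H ≤ 2 * ℓ * ℓ * M :=
    (card_le_mul_card_image_of_maps_to (fun y hy ↦ hS y hy) _ hfib).trans (Nat.mul_le_mul_left _ hM)
  have hsplit := card_sdiff_add_card_eq_card (subset_univ H)
  rw [card_univ] at hsplit
  have h7 : 7 * (ℓ * (ℓ - 1) * ℓ) ≤ 8 * (2 * ℓ * ℓ * M) := by omega
  have h8 : 7 * (ℓ - 1) ≤ 16 * M := by
    refine Nat.le_of_mul_le_mul_left ?_ (Nat.mul_pos hℓ.pos hℓ.pos)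
    calc ℓ * ℓ * (7 * (ℓ - 1)) = 7 * (ℓ * (ℓ - 1) * ℓ) := by ring
      _ ≤ _ := h7
      _ = ℓ * ℓ * (16 * M) := by ring
  omega

/-- The bound used in the proof of Deligne–Serre. -/
theorem card_le_of_semisimple {ℓ : ℕ} [Fact ℓ.Prime] [CharP k ℓ] {G : Type*} [Group G] [Fintype G]
    (ρ : G →* GL (Fin 2) k) (hρ : Function.Injective ρ)
    (hss : NoCommonEigenvector ρ ∨ IsDiagonal ρ)
    (htr : ∀ g, (ρ g : Matrix (Fin 2) (Fin 2) k).trace ∈
      (ZMod.castHom dvd_rfl k : ZMod ℓ →+* k).fieldRange)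
    (H : Finset G) (hH : 8 * #(univ \ H) ≤ Fintype.card G)
    (S : Finset (k × k)) (hS : ∀ h ∈ H, trDet (ρ h) ∈ S) (M : ℕ) (hM : #S ≤ M)
    (hℓ : 3 * M + 2 < ℓ) :
    (Fintype.card G : k) ≠ 0 ∧ Fintype.card G ≤ 16 * M * (32 * M) ^ 3 + 2 * M := by
  have hne : (Fintype.card G : k) ≠ 0 := by
    rcases hss with h | h
    · intro h0
      have := char_le_of_irreducible ρ hρ h htr ((CharP.cast_eq_zero_iff k ℓ _).mp h0) H hH S
          hS M hM
      omega
    · exact natCast_card_ne_zero_of_isDiagonal (ℓ := ℓ) ρ hρ h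
  have h2 : (2 : k) ≠ 0 := fun h ↦ by
    have := Nat.le_of_dvd two_pos ((CharP.cast_eq_zero_iff k ℓ 2).mp (by exact_mod_cast h))
    omega
  exact ⟨hne, card_le_of_trDet ρ hρ hne h2 H hH S hS M hM⟩

end FLTAgent.DeligneSerre
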