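import Mathlib
import Fermat.Agent.DeligneSerre.GroupModular

set_option autoImplicit false

/-!
# Preliminaries for lifting representations of finite groups from characteristic `ℓ`

Roots of unity of order prime to the residue characteristic lift uniquely
(`rootsOfUnity_residue_bijective`), so diagonal representations lift with their traces and
determinants (`exists_diagonal_lift`).
-/

noncomputable section

open Matrix Polynomial
open scoped Classical MatrixGroups

namespace FLTAgent.DeligneSerre

theorem eq_smul_of_det_eq_zero {k : Type*} [Field k] {v w : Fin 2 → k} (hv : v ≠ 0)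
    (h : v 0 * w 1 - w 0 * v 1 = 0) : ∃ c : k, w = c • v := by
  by_cases hv0 : v 0 = 0
  · have hv1 : v 1 ≠ 0 := fun h' ↦ hv (funext fun i ↦ by fin_cases i <;> simpa)
    refine ⟨w 1 / v 1, funext fun i ↦ ?_⟩
    fin_cases i <;> simp [hv0, hv1] at h ⊢
    exact h
  · refine ⟨w 0 / v 0, funext fun i ↦ ?_⟩
    fin_cases i <;> simp [hv0]
    field_simp
    linear_combination h

theorem idempotent_eq_zero_or_one {k : Type*} [Field k] {G : Type*} [Group G]
    {r : G →* GL (Fin 2) k} (hr : NoCommonEigenvector r) {E : Matrix (Fin 2) (Fin 2) k}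
    (hE : E * E = E) (hc : ∀ g, E * (r g : Matrix (Fin 2) (Fin 2) k) = r g * E) :
    E = 0 ∨ E = 1 := by
  by_cases hdet : E.det = 0
  · refine Or.inl ?_
    obtain ⟨v, hv, hv0⟩ := Matrix.exists_mulVec_eq_zero_iff.mpr hdet
    obtain ⟨g, hg⟩ := hr v hv
    set w := (r g : Matrix (Fin 2) (Fin 2) k) *ᵥ v with hw
    have hw0 : E *ᵥ w = 0 := by
      rw [hw, Matrix.mulVec_mulVec, hc, ← Matrix.mulVec_mulVec, hv0, Matrix.mulVec_zero]
    let P : Matrix (Fin 2) (Fin 2) k := !![v 0, w 0; v 1, w 1]
    have hP : IsUnit P.det := by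
      rw [isUnit_iff_ne_zero]
      intro h
      simp [P, Matrix.det_fin_two] at h
      obtain ⟨c, hcw⟩ := eq_smul_of_det_eq_zero hv
        (show v 0 * w 1 - w 0 * v 1 = 0 by linear_combination h)
      exact hg c hcw
    have hEP : E * P = 0 := by
      have a0 := congrFun hv0
      have a1 := congrFun hw0
      simp only [Matrix.mulVec, dotProduct, Fin.sum_univ_two, Pi.zero_apply] at a0 a1
      ext i j
      fin_cases j <;> simp [P, Matrix.mul_apply, Fin.sum_univ_two, a0, a1]
    calc E = E * P * P⁻¹ := by rw [mul_assoc, Matrix.mul_nonsing_inv P hP, mul_one]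
      _ = 0 := by rw [hEP, zero_mul]
  · refine Or.inr ?_
    have hu : IsUnit E := (Matrix.isUnit_iff_isUnit_det E).mpr (isUnit_iff_ne_zero.mpr hdet)
    exact hu.mul_left_cancel (by rw [hE, mul_one])

variable {C : Type*} [Field C] [IsAlgClosed C] [CharZero C] (A : ValuationSubring C)

local notation "κ" => IsLocalRing.ResidueField A

omit [IsAlgClosed C] in
theorem valuationSubring_mem_of_pow_eq_one {n : ℕ} (hn : 0 < n) {x : C} (hx : x ^ n = 1) :
    x ∈ A := by
  rcases A.mem_or_inv_mem x with h | h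
  · exact h
  · have : x = x⁻¹ ^ (n - 1) := by
      have hx0 : x ≠ 0 := fun h0 ↦ by simp [h0, zero_pow hn.ne'] at hx
      rw [inv_pow]
      exact eq_inv_of_mul_eq_one_left (by rw [← pow_succ', Nat.sub_add_cancel hn, hx])
    rw [this]
    exact pow_mem h _

/-- Roots of unity of order prime to the residue characteristic lift uniquely. -/
theorem rootsOfUnity_residue_bijective {n : ℕ} [NeZero n] (hn : (n : κ) ≠ 0) :
    Function.Bijective (restrictRootsOfUnity (IsLocalRing.residue A) n) := by
  have : NeZero (n : κ) := ⟨hn⟩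
  have : NeZero (n : C) := ⟨Nat.cast_ne_zero.mpr (NeZero.ne n)⟩
  set φ := restrictRootsOfUnity (IsLocalRing.residue A) n
  have hinj : Function.Injective φ := by
    intro x y h
    by_contra hne
    have hx : (((x : Aˣ) : A)) ^ n = 1 := by rw [← Units.val_pow_eq_pow_val, x.2, Units.val_one]
    have hy : (((y : Aˣ) : A)) ^ n = 1 := by rw [← Units.val_pow_eq_pow_val, y.2, Units.val_one]
    set a : A := ((x : Aˣ) : A)
    set b : A := ((y : Aˣ) : A)
    have hab : a ≠ b := fun e ↦ hne (Subtype.ext (Units.ext e))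
    have hres : IsLocalRing.residue A a = IsLocalRing.residue A b :=
      congrArg (fun z : rootsOfUnity n κ ↦ ((z : κˣ) : κ)) h
    -- `∑ a^i b^(n-1-i) = 0` reduces to `n a^(n-1) = 0`
    have h0 : (∑ i ∈ Finset.range n, a ^ i * b ^ (n - 1 - i)) = 0 := by
      have := geom_sum₂_mul a b n
      rw [hx, hy, sub_self] at this
      exact (mul_eq_zero.mp this).resolve_right (sub_ne_zero.mpr hab)
    have h1 := congrArg (IsLocalRing.residue A) h0
    rw [map_sum, map_zero] at h1
    simp only [map_mul, map_pow, ← hres] at h1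
    rw [Finset.sum_congr rfl (g := fun _ ↦ IsLocalRing.residue A a ^ (n - 1)) fun i hi ↦ by
      rw [← pow_add, show i + (n - 1 - i) = n - 1 by have := Finset.mem_range.mp hi; omega],
      Finset.sum_const, Finset.card_range, nsmul_eq_mul, mul_eq_zero] at h1
    refine h1.elim hn fun h2 ↦ ?_
    have := congrArg (IsLocalRing.residue A) hx
    rw [map_pow, map_one, ← Nat.sub_add_cancel (NeZero.one_le (n := n)), pow_succ, h2,
      zero_mul] at this
    exact zero_ne_one this
  have hcard : Nat.card (rootsOfUnity n A) = n := by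
    refine le_antisymm (card_rootsOfUnity A n) ?_
    refine (HasEnoughRootsOfUnity.natCard_rootsOfUnity C n).symm.trans_le ?_
    refine Nat.card_le_card_of_injective (fun z ↦ rootsOfUnity.mkOfPowEq
      (⟨((z : Cˣ) : C), valuationSubring_mem_of_pow_eq_one A (NeZero.pos n) (by
        rw [← Units.val_pow_eq_pow_val, z.2, Units.val_one])⟩ : A)
      (Subtype.ext (show ((z : Cˣ) : C) ^ n = 1 by
        rw [← Units.val_pow_eq_pow_val, z.2, Units.val_one]))) ?_
    intro z w h
    have := congrArg (fun u : rootsOfUnity n A ↦ (((u : Aˣ) : A) : C)) h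
    exact Subtype.ext (Units.ext (by simpa using this))
  refine (Nat.bijective_iff_injective_and_card φ).mpr ⟨hinj, ?_⟩
  refine le_antisymm (Nat.card_le_card_of_injective φ hinj) ?_
  rw [hcard]; exact card_rootsOfUnity κ n

theorem exists_diagonal_lift {G : Type*} [Group G] [Fintype G] (r : G →* GL (Fin 2) κ)
    (hd : IsDiagonal r) (hn : (Fintype.card G : κ) ≠ 0) :
    ∃ R : G →* GL (Fin 2) C, ∀ g, ∃ t d : A,
      ((R g : Matrix (Fin 2) (Fin 2) C).trace = t) ∧ ((R g : Matrix (Fin 2) (Fin 2) C).det = d) ∧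
      IsLocalRing.residue A t = (r g : Matrix (Fin 2) (Fin 2) κ).trace ∧
      IsLocalRing.residue A d = (r g : Matrix (Fin 2) (Fin 2) κ).det := by
  set n := Fintype.card G
  have : NeZero n := ⟨Fintype.card_ne_zero⟩
  let e := MulEquiv.ofBijective (restrictRootsOfUnity (IsLocalRing.residue A) n)
    (rootsOfUnity_residue_bijective A hn)
  let χ : Fin 2 → (G →* κ) := fun i ↦
    { toFun := fun g ↦ (r g : Matrix (Fin 2) (Fin 2) κ) i i
      map_one' := by simp
      map_mul' := fun g h ↦ by
        fin_cases i <;> simp [Matrix.mul_apply, Fin.sum_univ_two, (hd g).1, (hd g).2] }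
  let χ' : Fin 2 → (G →* rootsOfUnity n κ) := fun i ↦
    (χ i).toHomUnits.codRestrict _ fun g ↦ by
      show _ = _
      rw [← map_pow, pow_card_eq_one, map_one]
  let ψ : Fin 2 → (G →* Aˣ) := fun i ↦
    (rootsOfUnity n A).subtype.comp (e.symm.toMonoidHom.comp (χ' i))
  have hψ : ∀ i g, IsLocalRing.residue A (ψ i g : A) = χ i g := fun i g ↦ by
    have := congrArg (fun z : rootsOfUnity n κ ↦ ((z : κˣ) : κ)) (e.apply_symm_apply (χ' i g))
    exact this
  let R : G →* GL (Fin 2) C := MonoidHom.toHomUnits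
    { toFun := fun g ↦ Matrix.diagonal fun i ↦ ((ψ i g : A) : C)
      map_one' := by simp
      map_mul' := fun g h ↦ by simp [Matrix.diagonal_mul_diagonal] }
  refine ⟨R, fun g ↦ ⟨(ψ 0 g : A) + (ψ 1 g : A), (ψ 0 g : A) * (ψ 1 g : A), ?_, ?_, ?_, ?_⟩⟩
  · simp [R]
  · simp [R]
  · rw [map_add, hψ, hψ, Matrix.trace_fin_two]; rfl
  · rw [map_mul, hψ, hψ, Matrix.det_fin_two, (hd g).1, zero_mul, sub_zero]; rfl

end FLTAgent.DeligneSerre
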