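import Mathlib
import Fermat.Agent.DeligneSerre.LiftBasics

set_option autoImplicit false

/-!
# Lifting irreducible two-dimensional representations of order prime to the residue characteristic

An integral model of a representation of the group in characteristic zero reduces to the given
irreducible one (`exists_irreducible_lift`); `exists_lift` combines this with the diagonal case.
-/

noncomputable section

open Matrix
open scoped Classical MatrixGroups

namespace FLTAgent.DeligneSerre

theorem trace_mulLeft_pi_matrix {F : Type*} [Field F] {n : ℕ} (d : Fin n → ℕ)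
    (y : Π i, Matrix (Fin (d i)) (Fin (d i)) F) :
    LinearMap.trace F _ (LinearMap.mulLeft F y) = ∑ i, (d i : F) * (y i).trace := by
  let b := Pi.basis fun i ↦ Matrix.stdBasis F (Fin (d i)) (Fin (d i))
  rw [LinearMap.trace_eq_matrix_trace F b, Matrix.trace, Fintype.sum_sigma]
  refine Finset.sum_congr rfl fun i _ ↦ ?_
  rw [Fintype.sum_prod_type, Matrix.trace, Finset.mul_sum]
  refine Finset.sum_congr rfl fun a _ ↦ ?_
  have : ∀ c : Fin (d i), (LinearMap.toMatrix b b (LinearMap.mulLeft F y)).diag ⟨i, a, c⟩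
      = y i a a := by
    intro c
    rw [Matrix.diag_apply, LinearMap.toMatrix_apply, LinearMap.mulLeft_apply, Pi.basis_repr,
      Pi.basis_apply, Pi.mul_apply, Pi.single_eq_same, Matrix.stdBasis_eq_single]
    simp [Matrix.stdBasis]
  rw [Finset.sum_congr rfl fun c _ ↦ this c, Finset.sum_const, Finset.card_univ, Fintype.card_fin,
    nsmul_eq_mul]
  rfl

theorem trace_mulLeft_monoidAlgebra {F : Type*} [Field F] {G : Type*} [Group G] [Fintype G]
    (z : MonoidAlgebra F G) :
    LinearMap.trace F _ (LinearMap.mulLeft F z) = (Fintype.card G : F) * z.coeff 1 := by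
  let b : Module.Basis G F (MonoidAlgebra F G) := ⟨MonoidAlgebra.coeffLinearEquiv F⟩
  rw [LinearMap.trace_eq_matrix_trace F b, Matrix.trace]
  have : ∀ h : G, (LinearMap.toMatrix b b (LinearMap.mulLeft F z)).diag h = z.coeff 1 := by
    intro h
    rw [Matrix.diag_apply, LinearMap.toMatrix_apply, LinearMap.mulLeft_apply]
    rw [show b h = MonoidAlgebra.single h 1 from rfl]
    exact (MonoidAlgebra.coeff_mul_single_eq_coeff_mul 1 (fun m' _ ↦ by simp)).trans (mul_one _)
  rw [Finset.sum_congr rfl fun h _ ↦ this h, Finset.sum_const, Finset.card_univ, nsmul_eq_mul]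

variable {C : Type*} [Field C] [IsAlgClosed C] [CharZero C] (A : ValuationSubring C)

local notation "κ" => IsLocalRing.ResidueField A

omit [IsAlgClosed C] [CharZero C] in
/-- A representation over `C` of a finite group is conjugate to one with entries in `A`. -/
theorem exists_integral_conj {G : Type*} [Group G] [Fintype G] {d : ℕ}
    (φ : G →* Matrix (Fin d) (Fin d) C) :
    ∃ e : Matrix (Fin d) (Fin d) C ≃ₐ[C] Matrix (Fin d) (Fin d) C,
      ∀ g i j, e (φ g) i j ∈ A := by
  let L : Submodule A (Fin d → C) :=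
    Submodule.span A (Set.range fun p : G × Fin d ↦ φ p.1 *ᵥ Pi.single p.2 1)
  have : Module.Finite A L := Module.Finite.span_of_finite A (Set.finite_range _)
  have hstab : ∀ g, ∀ v ∈ L, φ g *ᵥ v ∈ L := by
    intro g v hv
    induction hv using Submodule.span_induction with
    | mem x hx =>
      obtain ⟨⟨h, j⟩, rfl⟩ := hx
      simp only [Matrix.mulVec_mulVec, ← map_mul]
      exact Submodule.subset_span ⟨(g * h, j), rfl⟩
    | zero => simp
    | add x y _ _ hx hy => rw [Matrix.mulVec_add]; exact L.add_mem hx hy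
    | smul a x _ hx => rw [Matrix.mulVec_smul]; exact L.smul_mem a hx
  have : Module.Flat A L := by
    rw [Module.Flat.flat_iff_torsion_eq_bot_of_isBezout,
      ← Submodule.isTorsionFree_iff_torsion_eq_bot]
    infer_instance
  have : Module.Free A L := Module.free_of_flat_of_isLocalRing
  let b₀ := Module.Free.chooseBasis A L
  let v : Module.Free.ChooseBasisIndex A L → (Fin d → C) := fun i ↦ (b₀ i : Fin d → C)
  have hli : LinearIndependent C v := by
    rw [← LinearIndependent.iff_fractionRing A C]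
    exact b₀.linearIndependent.map' L.subtype (Submodule.ker_subtype _)
  have hrep : ∀ x : L, (x : Fin d → C) = ∑ i, ((b₀.repr x i : A) : C) • v i := fun x ↦ by
    conv_lhs => rw [← b₀.sum_repr x]
    simp only [AddSubmonoidClass.coe_finsetSum, Submodule.coe_smul, v]
    rfl
  have hspan : ⊤ ≤ Submodule.span C (Set.range v) := by
    rw [← (Pi.basisFun C (Fin d)).span_eq, Submodule.span_le]
    rintro _ ⟨j, rfl⟩
    have hj : (Pi.single j 1 : Fin d → C) ∈ L := by
      refine Submodule.subset_span ⟨(1, j), ?_⟩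
      show φ 1 *ᵥ Pi.single j 1 = _
      rw [map_one, Matrix.one_mulVec]
    rw [Pi.basisFun_apply, SetLike.mem_coe,
      show Pi.single j (1 : C) = ((⟨_, hj⟩ : L) : Fin d → C) from rfl,
      hrep]
    exact Submodule.sum_mem _ fun i _ ↦ Submodule.smul_mem _ _ (Submodule.subset_span ⟨i, rfl⟩)
  let B₀ := Module.Basis.mk hli hspan
  have hcard : Fintype.card (Module.Free.ChooseBasisIndex A L) = d := by
    rw [← Module.finrank_eq_card_basis B₀, Module.finrank_fin_fun]
  let ε := Fintype.equivFinOfCardEq hcard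
  let B := B₀.reindex ε
  refine ⟨Matrix.toLinAlgEquiv'.trans (LinearMap.toMatrixAlgEquiv B), fun g i j ↦ ?_⟩
  have hm : φ g *ᵥ v (ε.symm j) ∈ L := hstab g _ (b₀ (ε.symm j)).2
  have hB : B₀.repr (φ g *ᵥ v (ε.symm j)) (ε.symm i) = ((b₀.repr ⟨_, hm⟩ (ε.symm i) : A) : C) := by
    have hv : ∀ i, v i = B₀ i := fun i ↦ (Module.Basis.mk_apply hli hspan i).symm
    have h := congrArg B₀.repr ((hrep ⟨_, hm⟩).trans (Finset.sum_congr rfl fun i _ ↦
        congrArg (((b₀.repr ⟨_, hm⟩ i : A) : C) • ·) (hv i)))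
    exact (DFunLike.congr_fun h (ε.symm i)).trans (congrFun (B₀.repr_sum_self _) _)
  simp only [AlgEquiv.trans_apply, LinearMap.toMatrixAlgEquiv_apply, Matrix.toLinAlgEquiv'_apply,
    B, Module.Basis.reindex_apply, Module.Basis.repr_reindex_apply, B₀, Module.Basis.mk_apply]
  rw [hB]
  exact Subtype.coe_prop _

/-- Matrix units inside `M₂` over a field force size at most two. -/
theorem matrixUnits_two {k : Type*} [Field k] {d : ℕ} [NeZero d]
    (u : Fin d → Fin d → Matrix (Fin 2) (Fin 2) k)
    (hu : ∀ a b c e, u a b * u c e = if b = c then u a e else 0)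
    (hsum : ∑ a, u a a = 1) :
    d = 1 ∨ ∃ (h : d = 2) (P : GL (Fin 2) k), ∀ a b, u a b
      = (P : Matrix (Fin 2) (Fin 2) k) * Matrix.single (Fin.cast h a) (Fin.cast h b) 1 *
        ((P⁻¹ : GL (Fin 2) k) : Matrix (Fin 2) (Fin 2) k) := by
  obtain ⟨a₀, h00⟩ : ∃ a, u a a ≠ 0 := by
    by_contra h
    push Not at h
    rw [Finset.sum_eq_zero fun a _ ↦ h a] at hsum
    exact zero_ne_one hsum
  obtain ⟨w, hw⟩ : ∃ w, u a₀ a₀ *ᵥ w ≠ 0 := by
    by_contra h
    push Not at h
    exact h00 (Matrix.ext_iff_mulVec.mpr fun v ↦ by rw [h, Matrix.zero_mulVec])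
  let v : Fin d → (Fin 2 → k) := fun a ↦ u a a₀ *ᵥ w
  have hv : ∀ a b c, u a b *ᵥ v c = if b = c then v a else 0 := by
    intro a b c
    simp only [v, Matrix.mulVec_mulVec, hu]
    split_ifs <;> simp
  have hli : LinearIndependent k v := by
    rw [Fintype.linearIndependent_iff]
    intro g hg a
    have := congrArg (u a₀ a *ᵥ ·) hg
    simp only [Matrix.mulVec_sum, Matrix.mulVec_smul, hv, smul_ite, smul_zero, Finset.sum_ite_eq,
      Finset.mem_univ, if_true, Matrix.mulVec_zero] at this
    exact (smul_eq_zero.mp this).resolve_right hw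
  have hle : d ≤ 2 := by
    have := hli.fintype_card_le_finrank
    simpa using this
  have hd0 := NeZero.pos d
  rcases (show d = 1 ∨ d = 2 by omega) with h1 | h2
  · exact Or.inl h1
  refine Or.inr ⟨h2, ?_⟩
  subst h2
  let P : Matrix (Fin 2) (Fin 2) k := Matrix.of fun i a ↦ v a i
  have hP : IsUnit P := by
    rw [← Matrix.linearIndependent_cols_iff_isUnit]
    exact hli
  refine ⟨hP.unit, fun a b ↦ ?_⟩
  rw [Units.eq_mul_inv_iff_mul_eq, IsUnit.unit_spec]
  ext i c
  have h := congrFun (hv a b c) i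
  simp only [Matrix.mulVec, dotProduct] at h
  rw [Matrix.mul_apply, Matrix.mul_apply]
  simp only [P, Matrix.of_apply, h, Fin.cast_eq_self, Matrix.single_apply]
  by_cases hbc : b = c <;> simp [hbc]

/-- The coefficient at `1` of an element of the group algebra in terms of its traces in the
factors. -/
private theorem sum_mul_trace_eq {F : Type*} [Field F] {G : Type*} [Group G] [Fintype G] {n : ℕ}
    {d : Fin n → ℕ} (e : MonoidAlgebra F G ≃ₐ[F] Π i, Matrix (Fin (d i)) (Fin (d i)) F)
    (z : MonoidAlgebra F G) :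
    ∑ i, (d i : F) * (e z i).trace = Fintype.card G * z.coeff 1 := by
  rw [← trace_mulLeft_pi_matrix d, ← trace_mulLeft_monoidAlgebra z,
    ← LinearMap.trace_conj' (LinearMap.mulLeft F z) e.toLinearEquiv]
  congr 1
  ext y
  simp [LinearEquiv.conj_apply]

omit [IsAlgClosed C] [CharZero C] in
/-- A Wedderburn decomposition over `C` with integral values on the group is one over `A` if the
order of the group is a unit. -/
private theorem bijective_lift_of_integral {G : Type*} [Group G] [Fintype G] {n : ℕ}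
    {d : Fin n → ℕ} (hn : (Fintype.card G : κ) ≠ 0)
    (e : MonoidAlgebra C G ≃ₐ[C] Π i, Matrix (Fin (d i)) (Fin (d i)) C)
    (φ : G →* Π i, Matrix (Fin (d i)) (Fin (d i)) A)
    (hφ : ∀ g i a b, ((φ g i a b : A) : C) = e (MonoidAlgebra.of C G g) i a b) :
    Function.Bijective (MonoidAlgebra.lift A _ G φ) := by
  set Ψ := MonoidAlgebra.lift A _ G φ
  let ι : MonoidAlgebra A G →+* MonoidAlgebra C G := MonoidAlgebra.mapRingHom G A.subtype
  let ιM : (Π i, Matrix (Fin (d i)) (Fin (d i)) A) →+* Π i, Matrix (Fin (d i)) (Fin (d i)) C :=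
    RingHom.pi fun i ↦ (A.subtype.mapMatrix).comp (Pi.evalRingHom _ i)
  have hcomp : ∀ x, ιM (Ψ x) = e (ι x) := by
    intro x
    induction x using MonoidAlgebra.induction_linear with
    | zero => simp
    | add x y hx hy => rw [map_add, map_add, map_add, map_add, hx, hy]
    | single g a =>
      have e1 : ι (MonoidAlgebra.single g a) = (a : C) • MonoidAlgebra.of C G g := by
        simp [ι]
      rw [e1, map_smul]
      funext i
      ext p q
      simp only [Pi.smul_apply, Matrix.smul_apply, smul_eq_mul, ← hφ]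
      simp [Ψ, ιM]
  have hι_inj : Function.Injective ι := by
    intro x y h
    ext g
    simpa [ι] using congrArg (fun t : MonoidAlgebra C G ↦ t.coeff g) h
  refine ⟨fun x y h ↦ hι_inj (e.injective (by rw [← hcomp, ← hcomp, h])), fun y ↦ ?_⟩
  set z := e.symm (ιM y) with hz
  have hAcard : IsUnit ((Fintype.card G : A)) := by
    rw [← IsLocalRing.residue_ne_zero_iff_isUnit, map_natCast]; exact hn
  obtain ⟨u, hu⟩ := hAcard
  have hzA : ∀ g, ∃ a : A, (a : C) = z.coeff g := by
    intro g
    have h := sum_mul_trace_eq e (z * MonoidAlgebra.single g⁻¹ 1)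
    rw [MonoidAlgebra.coeff_mul_single_eq_coeff_mul g (fun m' _ ↦ mul_inv_eq_one), mul_one] at h
    refine ⟨(u⁻¹ : Aˣ) * ∑ i, (d i : A) * (y i * φ g⁻¹ i).trace, ?_⟩
    have hterm : ∀ i, (((d i : A) * (y i * φ g⁻¹ i).trace : A) : C)
        = (d i : C) * (e (z * MonoidAlgebra.single g⁻¹ 1) i).trace := fun i ↦ by
      rw [map_mul, hz, AlgEquiv.apply_symm_apply, MulMemClass.coe_mul, Pi.mul_apply]
      congr 1
      simp only [Matrix.trace, Matrix.diag, Matrix.mul_apply, ← MonoidAlgebra.of_apply, ← hφ]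
      push_cast
      rfl
    rw [MulMemClass.coe_mul, AddSubmonoidClass.coe_finsetSum, Finset.sum_congr rfl fun i _ ↦
      hterm i, h, ← mul_assoc,
      show ((Fintype.card G : C)) = ((u : A) : C) by rw [hu]; rfl, ← MulMemClass.coe_mul,
      Units.inv_mul, OneMemClass.coe_one, one_mul]
  choose a ha using hzA
  refine ⟨MonoidAlgebra.ofCoeff (Finsupp.equivFunOnFinite.symm a), ?_⟩
  have hinj : Function.Injective ιM := fun p q h ↦ funext fun i ↦
    Matrix.map_injective Subtype.val_injective (congrFun h i)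
  apply hinj
  rw [hcomp, ← e.apply_symm_apply (ιM y)]
  congr 1
  ext g
  simpa [ι] using ha g

/-- The group algebra over `A` of a group of unit order is a product of matrix algebras. -/
private theorem exists_integral_algEquiv {G : Type*} [Group G] [Fintype G]
    (hn : (Fintype.card G : κ) ≠ 0) :
    ∃ (n : ℕ) (d : Fin n → ℕ), (∀ i, NeZero (d i)) ∧
      Nonempty (MonoidAlgebra A G ≃ₐ[A] Π i, Matrix (Fin (d i)) (Fin (d i)) A) := by
  have : NeZero (Nat.card G : C) := ⟨Nat.cast_ne_zero.mpr Nat.card_pos.ne'⟩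
  obtain ⟨n, d, hd, ⟨e₀⟩⟩ :=
    IsSemisimpleRing.exists_algEquiv_pi_matrix_of_isAlgClosed (F := C) (R := MonoidAlgebra C G)
  choose c hc using fun i ↦ exists_integral_conj A
    ((Pi.evalAlgHom C (fun i ↦ Matrix (Fin (d i)) (Fin (d i)) C) i).toMonoidHom.comp
      ((e₀ : MonoidAlgebra C G →* _).comp (MonoidAlgebra.of C G)))
  let e : MonoidAlgebra C G ≃ₐ[C] Π i, Matrix (Fin (d i)) (Fin (d i)) C :=
    e₀.trans (AlgEquiv.piCongrRight c)
  have hint : ∀ g i a b, e (MonoidAlgebra.of C G g) i a b ∈ A := fun g i a b ↦ hc i g a b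
  let φ : G →* Π i, Matrix (Fin (d i)) (Fin (d i)) A :=
    { toFun := fun g i ↦ Matrix.of fun a b ↦ ⟨_, hint g i a b⟩
      map_one' := funext fun i ↦ Matrix.map_injective (Subtype.val_injective)
        (by
          ext a b
          simp only [Matrix.map_apply, Matrix.of_apply, map_one, Pi.one_apply, Matrix.one_apply]
          split_ifs <;> rfl)
      map_mul' := fun g h ↦ funext fun i ↦ Matrix.map_injective (Subtype.val_injective)
        (by
          ext a b
          simp only [Matrix.map_apply, Matrix.of_apply, map_mul, Pi.mul_apply, Matrix.mul_apply]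
          push_cast
          rfl) }
  exact ⟨n, d, hd, ⟨AlgEquiv.ofBijective (MonoidAlgebra.lift A _ G φ)
    (bijective_lift_of_integral A hn e φ fun _ _ _ _ ↦ rfl)⟩⟩

omit [IsAlgClosed C] [CharZero C] in
/-- An irreducible representation factors through one of the matrix factors of the group algebra:
it is expressed by matrix units there. -/
private theorem exists_matrixUnits {G : Type*} [Group G] {n : ℕ} {d : Fin n → ℕ}
    (Φ : MonoidAlgebra A G ≃ₐ[A] Π i, Matrix (Fin (d i)) (Fin (d i)) A)
    {r : G →* GL (Fin 2) κ} (hr : NoCommonEigenvector r) :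
    ∃ (i₀ : Fin n) (u : Fin (d i₀) → Fin (d i₀) → Matrix (Fin 2) (Fin 2) κ),
      (∀ a b a' b', u a b * u a' b' = if b = a' then u a b' else 0) ∧ ∑ a, u a a = 1 ∧
      ∀ g, (r g : Matrix (Fin 2) (Fin 2) κ) =
        ∑ a, ∑ b, IsLocalRing.residue A (Φ (MonoidAlgebra.of A G g) i₀ a b) • u a b := by
  let m : G →* Matrix (Fin 2) (Fin 2) κ := (Units.coeHom _).comp r
  let θ : (Π i, Matrix (Fin (d i)) (Fin (d i)) A) →ₐ[A] Matrix (Fin 2) (Fin 2) κ :=
    (MonoidAlgebra.lift A _ G m).comp Φ.symm.toAlgHom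
  have hθ : ∀ g, θ (Φ (MonoidAlgebra.of A G g)) = m g := fun g ↦ by
    simp only [θ, AlgHom.comp_apply, AlgEquiv.coe_toAlgHom, AlgEquiv.symm_apply_apply,
      MonoidAlgebra.lift_of]
  let ε : Fin n → Π i, Matrix (Fin (d i)) (Fin (d i)) A := fun i ↦ Pi.single i 1
  have hε : ∀ i, θ (ε i) = 0 ∨ θ (ε i) = 1 := by
    intro i
    refine idempotent_eq_zero_or_one hr ?_ fun g ↦ ?_
    · rw [← map_mul, ← Pi.single_mul, one_mul]
    · show θ (ε i) * m g = m g * θ (ε i)
      rw [← hθ, ← map_mul, ← map_mul]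
      congr 1
      funext j
      by_cases hij : j = i
      · subst hij; simp [ε]
      · simp [ε, hij]
  obtain ⟨i₀, hi₀⟩ : ∃ i, θ (ε i) = 1 := by
    by_contra h
    push Not at h
    have h1 : θ (∑ i, ε i) = 0 := by
      rw [map_sum]; exact Finset.sum_eq_zero fun i _ ↦ (hε i).resolve_right (h i)
    rw [Finset.univ_sum_single (fun _ ↦ (1 : Matrix _ _ A)),
      show (fun i : Fin n ↦ (1 : Matrix (Fin (d i)) (Fin (d i)) A)) = 1 from rfl, map_one] at h1
    exact one_ne_zero h1
  let u : Fin (d i₀) → Fin (d i₀) → Matrix (Fin 2) (Fin 2) κ :=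
    fun a b ↦ θ (Pi.single i₀ (Matrix.single a b 1))
  have hfac : ∀ y, θ y = ∑ a, ∑ b, IsLocalRing.residue A (y i₀ a b) • u a b := by
    intro y
    calc θ y = θ (ε i₀ * y) := by rw [map_mul, hi₀, one_mul]
      _ = θ (Pi.single i₀ (y i₀)) := by
        congr 1
        funext j
        by_cases hij : j = i₀
        · subst hij; simp [ε]
        · simp [ε, hij]
      _ = _ := by
        conv_lhs => rw [Matrix.matrix_eq_sum_single (y i₀)]
        rw [← LinearMap.coe_single A _ i₀, map_sum, map_sum]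
        refine Finset.sum_congr rfl fun a _ ↦ ?_
        rw [map_sum, map_sum]
        refine Finset.sum_congr rfl fun b _ ↦ ?_
        have hs : (Matrix.single a b (y i₀ a b) : Matrix (Fin (d i₀)) (Fin (d i₀)) A)
            = (y i₀ a b) • Matrix.single a b 1 := by rw [Matrix.smul_single, smul_eq_mul, mul_one]
        rw [hs, map_smul, map_smul]
        exact (IsScalarTower.algebraMap_smul κ (y i₀ a b) (u a b)).symm
  refine ⟨i₀, u, fun a b a' b' ↦ ?_, ?_, fun g ↦ (hθ g).symm.trans (hfac _)⟩
  · simp only [u, ← map_mul, ← Pi.single_mul]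
    split_ifs with h
    · subst h; rw [Matrix.single_mul_single_same, mul_one]
    · rw [Matrix.single_mul_single_of_ne _ _ _ _ h, Pi.single_zero, map_zero]
  · rw [← hi₀, hfac (ε i₀)]
    refine Finset.sum_congr rfl fun a _ ↦ ?_
    rw [Finset.sum_eq_single a]
    · simp [ε]
    · intro b _ hb; simp [ε, Matrix.one_apply_ne' hb]
    · simp

theorem exists_irreducible_lift {G : Type*} [Group G] [Fintype G] (r : G →* GL (Fin 2) κ)
    (hr : NoCommonEigenvector r) (hn : (Fintype.card G : κ) ≠ 0) :
    ∃ R : G →* GL (Fin 2) C, ∀ g, ∃ t d : A,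
      ((R g : Matrix (Fin 2) (Fin 2) C).trace = t) ∧ ((R g : Matrix (Fin 2) (Fin 2) C).det = d) ∧
      IsLocalRing.residue A t = (r g : Matrix (Fin 2) (Fin 2) κ).trace ∧
      IsLocalRing.residue A d = (r g : Matrix (Fin 2) (Fin 2) κ).det := by
  obtain ⟨n, d, hd, ⟨Φ⟩⟩ := exists_integral_algEquiv A (G := G) hn
  obtain ⟨i₀, u, hu, husum, hfac⟩ := exists_matrixUnits A Φ hr
  have := hd i₀
  rcases matrixUnits_two u hu husum with h1 | ⟨h2, P, hP⟩
  · exfalso
    -- all images are scalar
    obtain ⟨g, hg⟩ := hr (Pi.single 0 1) (by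
      intro h; simpa using congrFun h 0)
    have : Subsingleton (Fin (d i₀)) := Fin.subsingleton_iff_le_one.mpr h1.le
    have huone : ∀ a b, u a b = 1 := by
      intro a b
      have e1 : a = b := Subsingleton.elim _ _
      subst e1
      rw [← husum, Finset.sum_eq_single a (fun b _ hb ↦
        absurd (Subsingleton.elim b a) hb) (by simp)]
    refine hg (∑ a, ∑ b, IsLocalRing.residue A (Φ (MonoidAlgebra.of A G g) i₀ a b)) ?_
    rw [hfac]
    simp only [huone, ← Finset.sum_smul, Matrix.smul_mulVec, Matrix.one_mulVec]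
  -- the lift
  let σ : G →* Matrix (Fin 2) (Fin 2) A :=
    (Matrix.reindexAlgEquiv A A (finCongr h2)).toMonoidHom.comp
      ((Pi.evalMonoidHom _ i₀).comp (Φ.toMonoidHom.comp (MonoidAlgebra.of A G)))
  let R : G →* GL (Fin 2) C :=
    MonoidHom.toHomUnits ((A.subtype.mapMatrix : Matrix (Fin 2) (Fin 2) A →+*
      Matrix (Fin 2) (Fin 2) C).toMonoidHom.comp σ)
  have hσ : ∀ g, (r g : Matrix (Fin 2) (Fin 2) κ) = (P : Matrix (Fin 2) (Fin 2) κ)
      * (σ g).map (IsLocalRing.residue A) * ((P⁻¹ : GL (Fin 2) κ) : Matrix (Fin 2) (Fin 2) κ) := by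
    intro g
    conv_rhs => rw [Matrix.matrix_eq_sum_single ((σ g).map _), Finset.mul_sum, Finset.sum_mul]
    rw [hfac]
    refine Fintype.sum_equiv (finCongr h2) _ _ fun a ↦ ?_
    rw [Finset.mul_sum, Finset.sum_mul]
    refine Fintype.sum_equiv (finCongr h2) _ _ fun b ↦ ?_
    rw [hP, ← smul_mul_assoc, ← mul_smul_comm, Matrix.smul_single, smul_eq_mul, mul_one]
    simp [σ]
  refine ⟨R, fun g ↦ ⟨(σ g).trace, (σ g).det, ?_, ?_, ?_, ?_⟩⟩
  · simp [R, Matrix.trace_fin_two]
  · simp [R, Matrix.det_fin_two]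
  · rw [hσ, Matrix.trace_units_conj]
    exact AddMonoidHom.map_trace (IsLocalRing.residue A).toAddMonoidHom _
  · rw [hσ, Matrix.det_units_conj, RingHom.map_det]
    rfl

/-- Lifting of two-dimensional semisimple representations of order prime to the residue
characteristic. -/
theorem exists_lift {G : Type*} [Group G] [Fintype G] (r : G →* GL (Fin 2) κ)
    (hr : NoCommonEigenvector r ∨ IsDiagonal r) (hn : (Fintype.card G : κ) ≠ 0) :
    ∃ R : G →* GL (Fin 2) C, ∀ g, ∃ t d : A,
      ((R g : Matrix (Fin 2) (Fin 2) C).trace = t) ∧ ((R g : Matrix (Fin 2) (Fin 2) C).det = d) ∧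
      IsLocalRing.residue A t = (r g : Matrix (Fin 2) (Fin 2) κ).trace ∧
      IsLocalRing.residue A d = (r g : Matrix (Fin 2) (Fin 2) κ).det :=
  hr.elim (fun h ↦ exists_irreducible_lift A r h hn) (fun h ↦ exists_diagonal_lift A r h hn)

end FLTAgent.DeligneSerre
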