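import Mathlib
import Fermat.Prelude.Def_FLTPrelim_Modularity

set_option autoImplicit false

/-!
# Quadratic mean bound for coefficients of weight one cusp forms, and its consequences

Boundedness of `|f|² im τ` gives `∑_{n ≤ X} |aₙ|² = O(X)` (`sum_sq_qCoeff_le`); partial summation
then bounds an Euler product of a multiplicative function with such partial sums
(`prod_one_add_le`). Used for the prime sums of Deligne and Serre.
-/

noncomputable section

open UpperHalfPlane MeasureTheory Real Finset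
open scoped Interval Manifold

namespace FLTAgent.DeligneSerre

theorem sum_sq_qCoeff_le {f : ℍ → ℂ} (hper : Function.Periodic (f ∘ ofComplex) 1)
    (hhol : MDiff f) (hbdd : IsBoundedAtImInfty f) {C : ℝ}
    (hC : ∀ τ : ℍ, ‖f τ‖ ^ 2 * τ.im ≤ C) {X : ℕ} (hX : 0 < X) :
    ∑ n ∈ range (X + 1), ‖ModularFormClass.qCoeff f n‖ ^ 2 ≤ Real.exp (4 * π) * C * X := by
  have hXr : (0 : ℝ) < X := by exact_mod_cast hX
  set y : ℝ := 1 / X with hy
  have hy0 : 0 < y := by positivity
  let g : ℝ → ℂ := fun x ↦ f ⟨(x : ℂ) + y * Complex.I, by simpa using hy0⟩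
  have hg : Continuous g := by
    refine hhol.continuous.comp ?_
    rw [UpperHalfPlane.isEmbedding_coe.continuous_iff]
    fun_prop
  have hgC : ∀ x, ‖g x‖ ^ 2 ≤ C * X := fun x ↦ by
    have h := hC ⟨(x : ℂ) + y * Complex.I, by simpa using hy0⟩
    have him : UpperHalfPlane.im ⟨(x : ℂ) + y * Complex.I, by simpa using hy0⟩ = y := by
      simp [UpperHalfPlane.im]
    rw [him] at h
    have hyX : y * (X : ℝ) = 1 := by rw [hy]; field_simp
    calc ‖g x‖ ^ 2 = ‖g x‖ ^ 2 * y * X := by rw [mul_assoc, hyX, mul_one]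
      _ ≤ C * X := mul_le_mul_of_nonneg_right h hXr.le
  have hL2 : MemLp g 2 (volume.restrict (Set.Ioc (0 : ℝ) 1)) := by
    refine MemLp.of_bound hg.aestronglyMeasurable (Real.sqrt (C * X)) ?_
    refine Filter.Eventually.of_forall fun x ↦ ?_
    exact Real.le_sqrt_of_sq_le (hgC x)
  have hsum := hasSum_sq_fourierCoeffOn (zero_lt_one' ℝ) hL2
  have hcoeff : ∀ n : ℕ, ‖fourierCoeffOn (zero_lt_one' ℝ) g n‖
      = ‖ModularFormClass.qCoeff f n‖ * Real.exp (-(2 * π * n * y)) := by
    intro n
    have hq : ModularFormClass.qCoeff f n = (Real.exp (2 * π * n * y) : ℂ) *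
        fourierCoeffOn (zero_lt_one' ℝ) g n := by
      rw [ModularFormClass.qCoeff, UpperHalfPlane.qExpansion_coeff_eq_intervalIntegral one_pos
        (by exact_mod_cast hper) hhol hbdd n hy0, fourierCoeffOn_eq_integral]
      simp only [sub_zero, div_one, one_smul, Complex.ofReal_one, one_mul]
      rw [← intervalIntegral.integral_const_mul]
      refine intervalIntegral.integral_congr fun u _ ↦ ?_
      simp only [smul_eq_mul, fourier_coe_apply, g, ← mul_assoc]
      congr 1
      rw [Complex.ofReal_exp, one_div, Function.Periodic.qParam, ← Complex.exp_nat_mul,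
        ← Complex.exp_neg, ← Complex.exp_add]
      congr 1
      push_cast
      ring_nf
      rw [Complex.I_sq]
      ring
    rw [hq, norm_mul, Complex.norm_real, Real.norm_of_nonneg (Real.exp_pos _).le, mul_right_comm,
      ← Real.exp_add, add_neg_cancel, Real.exp_zero, one_mul]
  have hint : ∫ x in (0 : ℝ)..1, ‖g x‖ ^ 2 ≤ C * X := by
    refine (intervalIntegral.integral_mono zero_le_one
      ((hg.norm.pow 2).intervalIntegrable _ _) intervalIntegrable_const hgC).trans ?_
    simp
  have hpart : ∑ n ∈ range (X + 1), ‖fourierCoeffOn (zero_lt_one' ℝ) g (n : ℕ)‖ ^ 2 ≤ C * X := by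
    have h := sum_le_hasSum ((range (X + 1)).map Nat.castEmbedding) (fun i _ ↦ sq_nonneg _) hsum
    rw [Finset.sum_map] at h
    simp only [sub_zero, inv_one, one_smul] at h
    exact h.trans hint
  calc ∑ n ∈ range (X + 1), ‖ModularFormClass.qCoeff f n‖ ^ 2
      ≤ ∑ n ∈ range (X + 1),
          Real.exp (4 * π) * ‖fourierCoeffOn (zero_lt_one' ℝ) g (n : ℕ)‖ ^ 2 := by
        refine sum_le_sum fun n hn ↦ ?_
        rw [hcoeff, mul_pow, ← Real.exp_nat_mul]
        rw [mul_left_comm, ← Real.exp_add]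
        refine le_mul_of_one_le_right (sq_nonneg _) (Real.one_le_exp ?_)
        have hny : (n : ℝ) * y ≤ 1 := by
          rw [hy, mul_one_div, div_le_one hXr]
          exact_mod_cast Nat.lt_succ_iff.mp (Finset.mem_range.mp hn)
        have := Real.pi_pos
        push_cast
        nlinarith
    _ ≤ Real.exp (4 * π) * (C * X) := by
        rw [← mul_sum]
        exact mul_le_mul_of_nonneg_left hpart (Real.exp_pos _).le
    _ = _ := by ring

theorem weightOne_cuspForm_bound {Γ : Subgroup (GL (Fin 2) ℝ)} [Γ.IsArithmetic]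
    {F : Type*} [FunLike F ℍ ℂ] [CuspFormClass F Γ 1] (f : F) :
    ∃ C : ℝ, 0 ≤ C ∧ ∀ τ : ℍ, ‖f τ‖ ^ 2 * τ.im ≤ C := by
  obtain ⟨C, hC⟩ := CuspFormClass.petersson_bounded_left 1 Γ f f
  refine ⟨C, (norm_nonneg _).trans (hC UpperHalfPlane.I), fun τ ↦ ?_⟩
  have h := hC τ
  simp only [petersson, zpow_one, norm_mul, Complex.norm_conj, Complex.norm_real,
    Real.norm_of_nonneg τ.im_pos.le] at h
  nlinarith [h]

/-- Summation by parts with a non-negative antitone weight. -/
theorem sum_mul_le_of_partial_sums_le (b w : ℕ → ℝ) (A : ℝ) (hw : ∀ n, 0 ≤ w n)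
    (hanti : ∀ n, w (n + 1) ≤ w n) (hb : ∀ k, ∑ n ∈ range k, b n ≤ A * k) (K : ℕ) :
    ∑ n ∈ range K, b n * w n ≤ A * ∑ n ∈ range K, w n := by
  suffices h : ∀ K, ∑ n ∈ range K, b n * w n +
      (A * K - ∑ n ∈ range K, b n) * w K ≤ A * ∑ n ∈ range K, w n by
    have := h K
    nlinarith [mul_nonneg (sub_nonneg.mpr (hb K)) (hw K)]
  intro K
  induction K with
  | zero => simp
  | succ K ih =>
    rw [sum_range_succ, sum_range_succ (f := b), sum_range_succ (f := w)]
    have h1 := sub_nonneg.mpr (hb (K + 1))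
    rw [sum_range_succ] at h1
    push_cast at h1 ⊢
    nlinarith [mul_le_mul_of_nonneg_left (hanti K) h1]

/-- `∑_{1 ≤ n ≤ K} n^{-s} ≤ 1 + 1/(s-1)`. -/
theorem sum_rpow_neg_le {s : ℝ} (hs : 1 < s) (K : ℕ) :
    ∑ n ∈ range K, ((n : ℝ) + 1) ^ (-s) ≤ 1 + 1 / (s - 1) := by
  have key : ∀ K : ℕ, ∑ n ∈ range (K + 1), ((n : ℝ) + 1) ^ (-s)
      ≤ 1 + (1 - ((K : ℝ) + 1) ^ (1 - s)) / (s - 1) := by
    intro K
    induction K with
    | zero => simp
    | succ K ih =>
      rw [sum_range_succ]
      push_cast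
      set a : ℝ := (K : ℝ) + 1 with ha
      have ha0 : 0 < a := by positivity
      have hstep : (a + 1) ^ (-s) ≤ (a ^ (1 - s) - (a + 1) ^ (1 - s)) / (s - 1) := by
        rw [le_div_iff₀ (by linarith)]
        -- Bernoulli's inequality
        have h1 : 1 + (s - 1) * (1 / (a + 1)) ≤ ((a + 1) / a) ^ (s - 1) := by
          have hr : (a / (a + 1)) ^ (s - 1) * ((a + 1) / a) ^ (s - 1) = 1 := by
            rw [← Real.mul_rpow (by positivity) (by positivity)]
            field_simp
            simp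
          have hlog : 1 / (a + 1) ≤ Real.log ((a + 1) / a) := by
            have := Real.one_sub_inv_le_log_of_pos (show 0 < (a + 1) / a by positivity)
            rw [inv_div] at this
            refine le_trans (le_of_eq ?_) this
            field_simp
            ring
          rw [Real.rpow_def_of_pos (by positivity)]
          refine le_trans ?_ (Real.add_one_le_exp _)
          nlinarith [mul_le_mul_of_nonneg_left hlog (by linarith : (0:ℝ) ≤ s - 1)]
        have e1 : (a + 1) ^ (1 - s) = (a + 1) ^ (-s) * (a + 1) := by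
          rw [show 1 - s = -s + 1 by ring, Real.rpow_add (by positivity), Real.rpow_one]
        have e2 : a ^ (1 - s) = (a + 1) ^ (1 - s) * ((a + 1) / a) ^ (s - 1) := by
          rw [Real.div_rpow (by positivity) ha0.le, show 1 - s = -(s - 1) by ring,
            Real.rpow_neg ha0.le, Real.rpow_neg (by positivity : (0:ℝ) ≤ a + 1)]
          field_simp
        rw [e2]
        have hp : 0 ≤ (a + 1) ^ (-s) := by positivity
        have hp' : 0 ≤ (a + 1) ^ (1 - s) := by positivity
        have := mul_le_mul_of_nonneg_left h1 hp'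
        have e3 : (a + 1) ^ (1 - s) * (1 + (s - 1) * (1 / (a + 1)))
            = (a + 1) ^ (1 - s) + (a + 1) ^ (-s) * (s - 1) := by
          rw [e1]; field_simp
        linarith
      have := add_le_add ih hstep
      refine this.trans (le_of_eq ?_)
      ring
  rcases K with _ | K
  · simp
    have : 0 ≤ (s - 1)⁻¹ := inv_nonneg.mpr (by linarith)
    linarith
  · refine (key K).trans ?_
    have h0 : 0 ≤ ((K : ℝ) + 1) ^ (1 - s) := by positivity
    gcongr
    linarith

/-- Distinct finite sets of primes have distinct products. -/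
theorem prod_primes_injOn {P : Finset ℕ} (hP : ∀ p ∈ P, p.Prime) :
    Set.InjOn (fun T : Finset ℕ ↦ ∏ p ∈ T, p) P.powerset := by
  intro T hT U hU h
  simp only [mem_coe, mem_powerset] at hT hU
  have hT' := Nat.primeFactors_prod (s := T) fun p hp ↦ hP p (hT hp)
  have hU' := Nat.primeFactors_prod (s := U) fun p hp ↦ hP p (hU hp)
  simp only at h
  rw [← hT', ← hU', h]

/-- An Euler product is bounded by the Dirichlet series of a non-negative multiplicative
function with linearly bounded partial sums. -/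
theorem prod_one_add_le (b : ℕ → ℝ) (A : ℝ) (hb0 : ∀ n, 0 ≤ b n)
    (hb : ∀ k, ∑ n ∈ range k, b (n + 1) ≤ A * k) {P : Finset ℕ} (hP : ∀ p ∈ P, p.Prime)
    (h1 : b 1 = 1) (hmul : ∀ T ⊆ P, ∀ p ∈ P, p ∉ T → b (p * ∏ q ∈ T, q) = b p * b (∏ q ∈ T, q))
    {s : ℝ} (hs : 1 < s) :
    ∏ p ∈ P, (1 + b p * (p : ℝ) ^ (-s)) ≤ A * (1 + 1 / (s - 1)) := by
  have hA : 0 ≤ A := by
    have := hb 1
    simp [h1] at this
    linarith
  have hprod : ∀ T ⊆ P, ∏ p ∈ T, (b p * (p : ℝ) ^ (-s))
      = b (∏ p ∈ T, p) * ((∏ p ∈ T, p : ℕ) : ℝ) ^ (-s) := by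
    intro T
    induction T using Finset.induction_on with
    | empty => intro _; simp [h1]
    | insert p T hp ih =>
      intro hT
      obtain ⟨hpP, hTP⟩ := insert_subset_iff.mp hT
      rw [prod_insert hp, prod_insert hp, ih hTP, hmul T hTP p hpP hp, Nat.cast_mul,
        Real.mul_rpow (by positivity) (by positivity)]
      ring
  rw [prod_one_add, sum_congr rfl fun T hT ↦ hprod T (mem_powerset.mp hT),
    ← sum_image (f := fun n : ℕ ↦ b n * (n : ℝ) ^ (-s)) (prod_primes_injOn hP)]
  set S := P.powerset.image fun T : Finset ℕ ↦ ∏ p ∈ T, p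
  set K := S.sup id
  have hsub : S ⊆ (range K).map ⟨fun n ↦ n + 1, add_left_injective 1⟩ := by
    intro n hn
    simp only [S, mem_image, mem_powerset] at hn
    obtain ⟨T, hT, rfl⟩ := hn
    have hpos : 0 < ∏ p ∈ T, p := prod_pos fun p hp ↦ (hP p (hT hp)).pos
    have hle : (∏ p ∈ T, p) ≤ K := le_sup (f := id) (mem_image.mpr ⟨T, mem_powerset.mpr hT, rfl⟩)
    simp only [mem_map, mem_range, Function.Embedding.coeFn_mk]
    exact ⟨(∏ p ∈ T, p) - 1, by omega, by omega⟩
  refine (sum_le_sum_of_subset_of_nonneg hsub fun n _ _ ↦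
    mul_nonneg (hb0 n) (by positivity)).trans ?_
  rw [sum_map]
  simp only [Function.Embedding.coeFn_mk, Nat.cast_add, Nat.cast_one]
  refine (sum_mul_le_of_partial_sums_le (fun n ↦ b (n + 1)) (fun n : ℕ ↦ ((n : ℝ) + 1) ^ (-s)) A
    (fun n ↦ by positivity) (fun n ↦ ?_) hb K).trans ?_
  · push_cast
    exact Real.rpow_le_rpow_of_nonpos (by positivity) (by linarith) (by linarith)
  · exact mul_le_mul_of_nonneg_left (sum_rpow_neg_le hs K) hA

end FLTAgent.DeligneSerre
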