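import Mathlib
import Fermat.Agent.DeligneSerre.CoeffBound

set_option autoImplicit false

/-!
# Prime sums deduced from the Euler product bound

From a bound on an Euler product: primes with a large coefficient have small density
(`sum_rpow_le_of_large`), and bounded coefficients give a logarithmic bound for the weighted sum
(`sum_mul_rpow_le_log_add`).
-/

noncomputable section

open Real Finset

namespace FLTAgent.DeligneSerre

theorem sum_log_one_add_le {P : Finset ℕ} {x : ℕ → ℝ} (hx : ∀ p ∈ P, 0 ≤ x p) {B : ℝ}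
    (h : ∏ p ∈ P, (1 + x p) ≤ B) : ∑ p ∈ P, Real.log (1 + x p) ≤ Real.log B := by
  rw [← Real.log_prod fun p hp ↦ by linarith [hx p hp]]
  exact Real.log_le_log (prod_pos fun p hp ↦ by linarith [hx p hp]) h

theorem half_le_log_one_add {t : ℝ} (h0 : 0 ≤ t) (h1 : t ≤ 1) : t / 2 ≤ Real.log (1 + t) := by
  refine le_trans ?_ (Real.one_sub_inv_le_log_of_pos (by linarith))
  have : (1 + t)⁻¹ * (1 + t) = 1 := inv_mul_cancel₀ (by linarith)
  nlinarith [inv_nonneg.mpr (by linarith : (0:ℝ) ≤ 1 + t)]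

/-- Primes with a large coefficient contribute little. -/
theorem sum_rpow_le_of_large {P : Finset ℕ} (hP : ∀ p ∈ P, p.Prime) {c : ℕ → ℝ} {M : ℝ} (hM : 0 < M)
    {s : ℝ} (hs : 1 < s) (hc : ∀ p ∈ P, M ≤ c p) (hMp : ∀ p ∈ P, M ≤ p) {B : ℝ}
    (h : ∏ p ∈ P, (1 + c p * (p : ℝ) ^ (-s)) ≤ B) :
    ∑ p ∈ P, (p : ℝ) ^ (-s) ≤ 2 / M * Real.log B := by
  have key : ∀ p ∈ P, M * (p : ℝ) ^ (-s) / 2 ≤ Real.log (1 + c p * (p : ℝ) ^ (-s)) := by
    intro p hp
    have hp1 : (1 : ℝ) ≤ p := by exact_mod_cast (hP p hp).one_le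
    have hnn : 0 ≤ (p : ℝ) ^ (-s) := by positivity
    refine (half_le_log_one_add (by positivity) ?_).trans ?_
    · calc M * (p : ℝ) ^ (-s) ≤ p * (p : ℝ) ^ (-s) := mul_le_mul_of_nonneg_right (hMp p hp) hnn
        _ = (p : ℝ) ^ (1 - s) := by
            rw [sub_eq_add_neg, Real.rpow_add (by linarith), Real.rpow_one]
        _ ≤ 1 := Real.rpow_le_one_of_one_le_of_nonpos hp1 (by linarith)
    · exact Real.log_le_log (by positivity)
        (by linarith [mul_le_mul_of_nonneg_right (hc p hp) hnn])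
  have h2 := (sum_le_sum key).trans (sum_log_one_add_le (fun p hp ↦
    mul_nonneg (hM.le.trans (hc p hp)) (by positivity)) h)
  rw [← Finset.sum_div, ← mul_sum] at h2
  rw [div_mul_eq_mul_div, le_div_iff₀ hM]
  linarith

/-- When the coefficients are bounded, the weighted prime sum is bounded by the logarithm. -/
theorem sum_mul_rpow_le_log_add {P : Finset ℕ} (hP : ∀ p ∈ P, p.Prime) {c : ℕ → ℝ} {D : ℝ}
    (hc0 : ∀ p ∈ P, 0 ≤ c p) (hcD : ∀ p ∈ P, c p ≤ D) {s : ℝ} (hs : 1 < s) {B : ℝ}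
    (h : ∏ p ∈ P, (1 + c p * (p : ℝ) ^ (-s)) ≤ B) :
    ∑ p ∈ P, c p * (p : ℝ) ^ (-s) ≤ Real.log B + 2 * D ^ 2 := by
  have key : ∀ p ∈ P, c p * (p : ℝ) ^ (-s) ≤
      Real.log (1 + c p * (p : ℝ) ^ (-s)) + D ^ 2 * (p : ℝ) ^ (-(2 : ℝ)) := by
    intro p hp
    set t := c p * (p : ℝ) ^ (-s) with ht
    have hp1 : (1 : ℝ) ≤ p := by exact_mod_cast (hP p hp).one_le
    have ht0 : 0 ≤ t := mul_nonneg (hc0 p hp) (by positivity)
    have hl := Real.one_sub_inv_le_log_of_pos (show 0 < 1 + t by linarith)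
    have hsq : t ^ 2 ≤ D ^ 2 * (p : ℝ) ^ (-(2 : ℝ)) := by
      have h1 : (p : ℝ) ^ (-s) ≤ (p : ℝ) ^ (-(1:ℝ)) :=
        Real.rpow_le_rpow_of_exponent_le hp1 (by linarith)
      have h2 : t ≤ D * (p : ℝ) ^ (-(1:ℝ)) := mul_le_mul (hcD p hp) h1 (by positivity)
        ((hc0 p hp).trans (hcD p hp))
      refine (pow_le_pow_left₀ ht0 h2 2).trans (le_of_eq ?_)
      rw [mul_pow, ← Real.rpow_mul_natCast (by positivity)]
      norm_num
    have : t - t ^ 2 ≤ 1 - (1 + t)⁻¹ := by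
      have hinv : (1 + t)⁻¹ * (1 + t) = 1 := inv_mul_cancel₀ (by linarith)
      nlinarith [inv_nonneg.mpr (by linarith : (0:ℝ) ≤ 1 + t), pow_nonneg ht0 3]
    linarith
  refine (sum_le_sum key).trans ?_
  rw [sum_add_distrib, ← mul_sum, mul_comm 2 (D ^ 2)]
  refine add_le_add (sum_log_one_add_le (fun p hp ↦ mul_nonneg (hc0 p hp) (by positivity)) h)
    (mul_le_mul_of_nonneg_left ?_ (sq_nonneg D))
  have hsub : P ⊆ (range (P.sup id)).map ⟨fun n ↦ n + 1, add_left_injective 1⟩ := by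
    intro p hp
    have := (hP p hp).pos
    have hle : p ≤ P.sup id := le_sup (f := id) hp
    simp only [mem_map, mem_range, Function.Embedding.coeFn_mk]
    exact ⟨p - 1, by omega, by omega⟩
  refine (sum_le_sum_of_subset_of_nonneg hsub fun _ _ _ ↦ by positivity).trans ?_
  rw [sum_map]
  simp only [Function.Embedding.coeFn_mk, Nat.cast_add, Nat.cast_one]
  exact (sum_rpow_neg_le (by norm_num : (1:ℝ) < 2) _).trans (by norm_num)

end FLTAgent.DeligneSerre
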