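import Mathlib
import Fermat.Agent.MFIntegral.AutC

set_option autoImplicit false

/-!
# Complex numbers with a finite orbit under the automorphisms of `ℂ`

Such numbers are algebraic, bounded algebraic integers of bounded degree are finite in number,
and a family of algebraic integers with a finite joint orbit has a common generator
(`exists_generator`).
-/

noncomputable section

open Polynomial

namespace FLTAgent.DeligneSerre

/-- A polynomial fixed by all automorphisms of `ℂ` has rational coefficients. -/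
theorem exists_ratPoly_of_fixed {P : ℂ[X]} (h : ∀ σ : ℂ ≃+* ℂ, P.map (σ : ℂ →+* ℂ) = P) :
    ∃ Q : ℚ[X], Q.map (algebraMap ℚ ℂ) = P := by
  rw [← Polynomial.mem_lifts, Polynomial.lifts_iff_coeff_lifts]
  intro n
  obtain ⟨r, hr⟩ := FLTAgent.MFIntegral.rat_of_forall_aut_fixed (P.coeff n) fun σ ↦ by
    conv_rhs => rw [← h σ]
    simp
  exact ⟨r, by rw [hr]; simp⟩

/-- A polynomial with algebraic integer coefficients fixed by all automorphisms has integer
coefficients. -/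
theorem exists_intPoly_of_fixed {P : ℂ[X]} (h : ∀ σ : ℂ ≃+* ℂ, P.map (σ : ℂ →+* ℂ) = P)
    (hint : ∀ n, IsIntegral ℤ (P.coeff n)) : ∃ Q : ℤ[X], Q.map (Int.castRingHom ℂ) = P := by
  obtain ⟨Q, hQ⟩ := exists_ratPoly_of_fixed h
  rw [← Polynomial.mem_lifts, Polynomial.lifts_iff_coeff_lifts]
  intro n
  have hn : algebraMap ℚ ℂ (Q.coeff n) = P.coeff n := by rw [← hQ, coeff_map]
  have hq : IsIntegral ℤ (Q.coeff n) := by
    refine (isIntegral_algHom_iff (Algebra.ofId ℚ ℂ |>.restrictScalars ℤ)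
      (algebraMap ℚ ℂ).injective).mp ?_
    simpa [← hn] using hint n
  obtain ⟨z, hz⟩ := IsIntegrallyClosed.isIntegral_iff.mp hq
  exact ⟨z, by rw [← hn, ← hz]; simp⟩

section Orbit

variable {x : ℂ}

/-- The orbit of a complex number. -/
def autOrbit (x : ℂ) : Set ℂ := Set.range fun σ : ℂ ≃+* ℂ ↦ σ x

theorem self_mem_autOrbit (x : ℂ) : x ∈ autOrbit x := ⟨RingEquiv.refl ℂ, rfl⟩

/-- The polynomial with simple roots at the orbit. -/
def orbitPoly (hx : (autOrbit x).Finite) : ℂ[X] := ∏ y ∈ hx.toFinset, (X - C y)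

theorem orbitPoly_monic (hx : (autOrbit x).Finite) : (orbitPoly hx).Monic :=
  monic_prod_of_monic _ _ fun y _ ↦ monic_X_sub_C y

theorem orbitPoly_fixed (hx : (autOrbit x).Finite) (σ : ℂ ≃+* ℂ) :
    (orbitPoly hx).map (σ : ℂ →+* ℂ) = orbitPoly hx := by
  classical
  rw [orbitPoly, Polynomial.map_prod]
  have himg : hx.toFinset.image σ = hx.toFinset := by
    ext y
    simp only [Finset.mem_image, Set.Finite.mem_toFinset, autOrbit, Set.mem_range]
    constructor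
    · rintro ⟨z, ⟨τ, rfl⟩, rfl⟩
      exact ⟨τ.trans σ, rfl⟩
    · rintro ⟨τ, rfl⟩
      exact ⟨σ.symm (τ x), ⟨τ.trans σ.symm, rfl⟩, σ.apply_symm_apply _⟩
  conv_rhs => rw [← himg, Finset.prod_image fun a _ b _ h ↦ σ.injective h]
  simp

theorem isRoot_orbitPoly_iff (hx : (autOrbit x).Finite) {y : ℂ} :
    (orbitPoly hx).IsRoot y ↔ y ∈ autOrbit x := by
  rw [orbitPoly, IsRoot.def, eval_prod, Finset.prod_eq_zero_iff]
  simp [sub_eq_zero]

theorem isAlgebraic_of_finite_orbit (hx : (autOrbit x).Finite) : IsAlgebraic ℚ x := by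
  obtain ⟨Q, hQ⟩ := exists_ratPoly_of_fixed (orbitPoly_fixed hx)
  refine ⟨Q, fun h ↦ (orbitPoly_monic hx).ne_zero (by rw [← hQ, h, Polynomial.map_zero]), ?_⟩
  rw [aeval_def, eval₂_eq_eval_map, hQ]
  exact (isRoot_orbitPoly_iff hx).mpr (self_mem_autOrbit x)

theorem isIntegral_of_mem_autOrbit (hint : IsIntegral ℤ x) {y : ℂ} (hy : y ∈ autOrbit x) :
    IsIntegral ℤ y := by
  obtain ⟨σ, rfl⟩ := hy
  exact hint.map (σ : ℂ →+* ℂ).toIntAlgHom

theorem exists_intPoly_orbit (hx : (autOrbit x).Finite) (hint : IsIntegral ℤ x) :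
    ∃ Q : ℤ[X], Q.map (Int.castRingHom ℂ) = orbitPoly hx := by
  refine exists_intPoly_of_fixed (orbitPoly_fixed hx) fun n ↦ ?_
  have : orbitPoly hx ∈ lifts (integralClosure ℤ ℂ).toSubring.subtype := by
    refine Subsemiring.prod_mem _ fun y hy ↦ ?_
    refine ⟨X - C ⟨y, isIntegral_of_mem_autOrbit hint (hx.mem_toFinset.mp hy)⟩, ?_⟩
    simp
    rfl
  obtain ⟨z, hz⟩ := (lifts_iff_coeff_lifts _).mp this n
  rw [← hz]
  exact z.2

end Orbit

/-- Algebraic integers of bounded degree and size. -/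
theorem finite_setOf_bounded_integral (r : ℕ) (B : ℝ) :
    {x : ℂ | IsIntegral ℤ x ∧ ∃ hx : (autOrbit x).Finite, hx.toFinset.card ≤ r ∧
      ∀ y ∈ autOrbit x, ‖y‖ ≤ B}.Finite := by
  classical
  let C₀ : ℕ := ⌈max B 1 ^ r * (r.choose (r / 2) : ℝ)⌉₊
  let box : Finset (Fin (r + 1) → ℤ) := Fintype.piFinset fun _ ↦ Finset.Icc (-(C₀ : ℤ)) C₀
  let S : Finset ℤ[X] := (box.image fun c ↦ ∑ i : Fin (r + 1), C (c i) * X ^ (i : ℕ)).filter (· ≠ 0)
  refine (S.biUnion fun Q ↦ (Q.map (Int.castRingHom ℂ)).roots.toFinset).finite_toSet.subset ?_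
  rintro x ⟨hint, hx, hcard, hB⟩
  obtain ⟨Q, hQ⟩ := exists_intPoly_orbit hx hint
  have hmonic := orbitPoly_monic hx
  have hdeg : (orbitPoly hx).natDegree ≤ r := by
    rw [orbitPoly, natDegree_finsetProd_X_sub_C_eq_card]
    exact hcard
  have hdegQ : Q.natDegree ≤ r := by
    rwa [← natDegree_map_eq_of_injective (Int.castRingHom ℂ).injective_int, hQ]
  have hco : ∀ i, |Q.coeff i| ≤ (C₀ : ℤ) := by
    intro i
    have h := coeff_bdd_of_roots_le (d := r) (B := B) (RingHom.id ℂ) hmonic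
      (IsAlgClosed.splits _) hdeg (fun z hz ↦ hB z ?_) i
    · rw [Polynomial.map_id, ← hQ, coeff_map] at h
      have : ((|Q.coeff i| : ℤ) : ℝ) ≤ C₀ := by
        rw [Int.cast_abs]
        refine le_trans ?_ (Nat.le_ceil _)
        simpa [Complex.norm_intCast] using h
      exact_mod_cast this
    · rw [Polynomial.map_id, mem_roots hmonic.ne_zero] at hz
      exact (isRoot_orbitPoly_iff hx).mp hz
  have hne : Q ≠ 0 := fun h ↦ hmonic.ne_zero (by rw [← hQ, h, Polynomial.map_zero])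
  have hQS : Q ∈ S := by
    refine Finset.mem_filter.mpr ⟨Finset.mem_image.mpr ⟨fun i ↦ Q.coeff i, ?_, ?_⟩, hne⟩
    · exact Fintype.mem_piFinset.mpr fun i ↦ Finset.mem_Icc.mpr (abs_le.mp (hco i))
    · conv_rhs => rw [Q.as_sum_range' (r + 1) (Nat.lt_succ_of_le hdegQ)]
      rw [Fin.sum_univ_eq_sum_range fun i ↦ C (Q.coeff i) * X ^ i]
      exact Finset.sum_congr rfl fun i _ ↦ C_mul_X_pow_eq_monomial
  refine Finset.mem_coe.mpr (Finset.mem_biUnion.mpr ⟨Q, hQS, Multiset.mem_toFinset.mpr ?_⟩)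
  rw [hQ, mem_roots hmonic.ne_zero]
  exact (isRoot_orbitPoly_iff hx).mpr (self_mem_autOrbit x)

/-- A common generator of a family of algebraic integers with a finite joint orbit. -/
theorem exists_generator {ι : Type*} (x : ι → ℂ)
    (hfin : (Set.range fun σ : ℂ ≃+* ℂ ↦ fun i ↦ σ (x i)).Finite)
    (hint : ∀ i, IsIntegral ℤ (x i)) :
    ∃ (θ : ℂ) (P : ℤ[X]) (Q : ι → ℤ[X]), P.Monic ∧ aeval θ P = 0 ∧
      aeval θ (derivative P) ≠ 0 ∧ IsIntegral ℤ θ ∧
      (∀ y : ℂ, aeval y P = 0 → ∃ σ : ℂ ≃+* ℂ, σ θ = y) ∧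
      ∀ i, aeval θ (Q i) = x i * aeval θ (derivative P) := by
  classical
  set J := hfin.toFinset with hJ
  have hsep : ∀ j : ι → ℂ, ∀ j' : ι → ℂ, j ≠ j' → ∃ i, j i ≠ j' i := fun j j' h ↦
    Function.ne_iff.mp h
  let pairs : Finset ((ι → ℂ) × (ι → ℂ)) := (J ×ˢ J).filter fun z ↦ z.1 ≠ z.2
  have hmem : ∀ z ∈ pairs, z.1 ≠ z.2 := fun z hz ↦ (Finset.mem_filter.mp hz).2
  choose pick hpick using hsep
  let s : Finset ι := pairs.attach.image fun z ↦ pick z.1.1 z.1.2 (hmem z.1 z.2)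
  let e : s ≃ Fin s.card := s.equivFin
  let R : (ι → ℂ) × (ι → ℂ) → ℂ[X] := fun z ↦
    ∑ i : s, C (z.1 i - z.2 i) * X ^ ((e i : Fin s.card) : ℕ)
  have hR : ∀ z ∈ pairs, R z ≠ 0 := by
    intro z hz h0
    have hzne := hmem z hz
    have hi : pick z.1 z.2 hzne ∈ s :=
      Finset.mem_image.mpr ⟨⟨z, hz⟩, Finset.mem_attach _ _, rfl⟩
    have := congrArg (fun F : ℂ[X] ↦ F.coeff ((e ⟨_, hi⟩ : Fin s.card) : ℕ)) h0
    simp only [R, finsetSum_coeff, coeff_C_mul, coeff_X_pow, coeff_zero] at this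
    rw [Finset.sum_eq_single ⟨_, hi⟩ (fun b _ hb ↦ by
      rw [if_neg, mul_zero]
      exact fun h ↦ hb (e.injective (Fin.ext h)).symm)
        (fun h ↦ absurd (Finset.mem_univ _) h)] at this
    rw [if_pos rfl, mul_one, sub_eq_zero] at this
    exact hpick _ _ hzne this
  obtain ⟨T, hT⟩ : ∃ T : ℕ, ∀ z ∈ pairs, (R z).eval (T : ℂ) ≠ 0 := by
    have hprod : (∏ z ∈ pairs, R z) ≠ 0 := Finset.prod_ne_zero_iff.mpr hR
    obtain ⟨T, hT⟩ := (Set.infinite_range_of_injective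
      (Nat.cast_injective (R := ℂ))).exists_notMem_finset
      (∏ z ∈ pairs, R z).roots.toFinset
    obtain ⟨⟨T, rfl⟩, hT⟩ := hT
    refine ⟨T, fun z hz h0 ↦ hT ?_⟩
    rw [Multiset.mem_toFinset, mem_roots hprod, IsRoot.def, eval_prod]
    exact Finset.prod_eq_zero hz h0
  let c : s → ℤ := fun i ↦ (T : ℤ) ^ ((e i : Fin s.card) : ℕ)
  let val : (ι → ℂ) → ℂ := fun j ↦ ∑ i : s, (c i : ℂ) * j i
  have hinj : Set.InjOn val J := by
    intro j hj j' hj' h
    by_contra hne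
    refine hT (j, j') (Finset.mem_filter.mpr ⟨Finset.mem_product.mpr ⟨hj, hj'⟩, hne⟩) ?_
    simp only [R, eval_finsetSum, eval_mul, eval_C, eval_pow, eval_X]
    rw [← sub_eq_zero.mpr h, ← Finset.sum_sub_distrib]
    exact Finset.sum_congr rfl fun i _ ↦ by simp [c]; ring
  have hxJ : x ∈ J := hfin.mem_toFinset.mpr ⟨RingEquiv.refl ℂ, rfl⟩
  have hintJ : ∀ j ∈ J, ∀ i, IsIntegral ℤ (j i) := by
    intro j hj i
    obtain ⟨σ, rfl⟩ := hfin.mem_toFinset.mp hj
    exact isIntegral_of_mem_autOrbit (hint i) ⟨σ, rfl⟩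
  have hintval : ∀ j ∈ J, IsIntegral ℤ (val j) := fun j hj ↦
    IsIntegral.sum _ fun i _ ↦ (isIntegral_algebraMap (x := c i)).mul (hintJ j hj i)
  -- the action of an automorphism on the finite set
  have hact : ∀ σ : ℂ ≃+* ℂ, Function.Injective (fun j : ι → ℂ ↦ fun i ↦ σ (j i)) :=
    fun σ a b h ↦ funext fun i ↦ σ.injective (congrFun h i)
  have hperm : ∀ σ : ℂ ≃+* ℂ, J.image (fun j ↦ fun i ↦ σ (j i)) = J := by
    intro σ
    ext j
    simp only [Finset.mem_image, J, Set.Finite.mem_toFinset, Set.mem_range]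
    constructor
    · rintro ⟨j', ⟨τ, rfl⟩, rfl⟩
      exact ⟨τ.trans σ, rfl⟩
    · rintro ⟨τ, rfl⟩
      exact ⟨_, ⟨τ.trans σ.symm, rfl⟩, funext fun i ↦ σ.apply_symm_apply _⟩
  have hsum : ∀ (σ : ℂ ≃+* ℂ) (F : (ι → ℂ) → ℂ[X]),
      (∀ j, (F j).map (σ : ℂ →+* ℂ) = F fun i ↦ σ (j i)) →
      (∑ j ∈ J, F j).map (σ : ℂ →+* ℂ) = ∑ j ∈ J, F j := by
    intro σ F hF
    conv_rhs => rw [← hperm σ, Finset.sum_image (hact σ).injOn]
    rw [Polynomial.map_sum]
    exact Finset.sum_congr rfl fun j _ ↦ hF j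
  have hval : ∀ (σ : ℂ ≃+* ℂ) j, σ (val j) = val fun i ↦ σ (j i) := fun σ j ↦ by
    simp [val, map_sum]
  have hliftX : ∀ j ∈ J, (X - C (val j)) ∈ lifts (integralClosure ℤ ℂ).toSubring.subtype :=
    fun j hj ↦ ⟨X - C ⟨val j, hintval j hj⟩, by simp; rfl⟩
  have hcoeff : ∀ F : ℂ[X], F ∈ lifts (integralClosure ℤ ℂ).toSubring.subtype →
      ∀ n, IsIntegral ℤ (F.coeff n) := by
    intro F hF n
    obtain ⟨z, hz⟩ := (lifts_iff_coeff_lifts _).mp hF n
    rw [← hz]
    exact z.2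
  set Pc : ℂ[X] := ∏ j ∈ J, (X - C (val j)) with hPc
  have hPfix : ∀ σ : ℂ ≃+* ℂ, Pc.map (σ : ℂ →+* ℂ) = Pc := by
    intro σ
    conv_rhs => rw [hPc, ← hperm σ, Finset.prod_image (hact σ).injOn]
    rw [hPc, Polynomial.map_prod]
    exact Finset.prod_congr rfl fun j _ ↦ by simp [hval]
  obtain ⟨P, hP⟩ := exists_intPoly_of_fixed hPfix
    (hcoeff _ (Subsemiring.prod_mem _ hliftX))
  let Qc : ι → ℂ[X] := fun i ↦ ∑ j ∈ J, C (j i) * ∏ j' ∈ J.erase j, (X - C (val j'))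
  have hQfix : ∀ i (σ : ℂ ≃+* ℂ), (Qc i).map (σ : ℂ →+* ℂ) = Qc i := by
    intro i σ
    refine hsum σ _ fun j ↦ ?_
    rw [Polynomial.map_mul, Polynomial.map_prod, map_C]
    congr 1
    have : J.erase (fun i ↦ σ (j i)) = (J.erase j).image (fun j ↦ fun i ↦ σ (j i)) := by
      rw [Finset.image_erase (hact σ), hperm σ]
    rw [this, Finset.prod_image (hact σ).injOn]
    exact Finset.prod_congr rfl fun j' _ ↦ by simp [hval]
  choose Q hQ using fun i ↦ exists_intPoly_of_fixed (hQfix i) (hcoeff _ (sum_mem fun j hj ↦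
    mul_mem ⟨C ⟨j i, hintJ j hj i⟩, by simp; rfl⟩
      (Subsemiring.prod_mem _ fun j' hj' ↦ hliftX j' (Finset.mem_of_mem_erase hj'))))
  have haev : ∀ (y : ℂ) (F : ℤ[X]), aeval y F = (F.map (Int.castRingHom ℂ)).eval y := fun y F ↦ by
    rw [aeval_def, eval₂_eq_eval_map]; rfl
  have hderiv : aeval (val x) (derivative P) = ∏ j' ∈ J.erase x, (val x - val j') := by
    rw [haev, ← derivative_map, hP, hPc, derivative_prod_finset, eval_finsetSum,
      Finset.sum_eq_single x]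
    · simp [eval_prod]
    · intro b _ hb
      rw [eval_mul, eval_prod,
        Finset.prod_eq_zero (Finset.mem_erase.mpr ⟨Ne.symm hb, hxJ⟩) (by simp),
        zero_mul]
    · exact fun h ↦ absurd hxJ h
  refine ⟨val x, P, Q, ?_, ?_, ?_, hintval x hxJ, fun y hy ↦ ?_, fun i ↦ ?_⟩
  · exact monic_of_injective (Int.castRingHom ℂ).injective_int
      (hP ▸ monic_prod_of_monic _ _ fun j _ ↦ monic_X_sub_C _)
  · rw [haev, hP, hPc, eval_prod]
    exact Finset.prod_eq_zero hxJ (by simp)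
  · rw [hderiv, Finset.prod_ne_zero_iff]
    intro j' hj'
    obtain ⟨hne, hjJ⟩ := Finset.mem_erase.mp hj'
    exact sub_ne_zero.mpr fun h ↦ hne (hinj hjJ hxJ h.symm)
  · rw [haev, hP, hPc, eval_prod, Finset.prod_eq_zero_iff] at hy
    obtain ⟨j, hj, h⟩ := hy
    obtain ⟨σ, rfl⟩ := hfin.mem_toFinset.mp hj
    rw [eval_sub, eval_X, eval_C, sub_eq_zero] at h
    exact ⟨σ, by rw [hval, h]⟩
  · rw [haev, hQ, hderiv, eval_finsetSum, Finset.sum_eq_single x]
    · simp [eval_prod]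
    · intro b _ hb
      rw [eval_mul, eval_prod,
        Finset.prod_eq_zero (Finset.mem_erase.mpr ⟨Ne.symm hb, hxJ⟩) (by simp),
        mul_zero]
    · exact fun h ↦ absurd hxJ h

/-- An algebraic number all of whose powers have a common denominator is an algebraic integer. -/
theorem isIntegral_of_forall_pow {x : ℂ} (hx : IsAlgebraic ℚ x) {D : ℤ} (hD : D ≠ 0)
    (h : ∀ j : ℕ, IsIntegral ℤ ((D : ℂ) * x ^ j)) : IsIntegral ℤ x := by
  let K := IntermediateField.adjoin ℚ ({x} : Set ℂ)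
  have : FiniteDimensional ℚ K := IntermediateField.adjoin.finiteDimensional hx.isIntegral
  have : NumberField K := { to_charZero := inferInstance, to_finiteDimensional := inferInstance }
  have hDC : (D : ℂ) ≠ 0 := Int.cast_ne_zero.mpr hD
  let m : NumberField.RingOfIntegers K →ₗ[ℤ] ℂ :=
    { toFun := fun z ↦ (D : ℂ)⁻¹ * ((z : K) : ℂ)
      map_add' := fun a b ↦ by simp [mul_add]
      map_smul' := fun c a ↦ by simp [mul_left_comm] }
  have hfg : (LinearMap.range m).FG := by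
    rw [← Submodule.map_top]
    exact Submodule.FG.map m Module.Finite.fg_top
  have hle : Subalgebra.toSubmodule (Algebra.adjoin ℤ ({x} : Set ℂ)) ≤ LinearMap.range m := by
    rw [Algebra.adjoin_eq_span, Submodule.span_le]
    intro y hy
    obtain ⟨j, rfl⟩ := Submonoid.mem_closure_singleton.mp hy
    let w : K := (D : K) * ⟨x, IntermediateField.mem_adjoin_simple_self ℚ x⟩ ^ j
    have hw : (w : ℂ) = (D : ℂ) * x ^ j := by simp [w]
    have hwint : IsIntegral ℤ w :=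
      (isIntegral_algHom_iff (K.val.restrictScalars ℤ) Subtype.val_injective).mp (by
        simpa [hw] using h j)
    refine ⟨⟨w, hwint⟩, ?_⟩
    show (D : ℂ)⁻¹ * (w : ℂ) = x ^ j
    rw [hw, inv_mul_cancel_left₀ hDC]
  exact IsIntegral.of_mem_of_fg (Algebra.adjoin ℤ {x}) (hfg.of_le hle) x
    (Algebra.subset_adjoin rfl)

end FLTAgent.DeligneSerre
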