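import Mathlib

set_option autoImplicit false

/-!
# Hecke's weight one division values

For `(u,v) ∈ ℤ²` not both divisible by `N`, the value at `z = (uτ+v)/N` of the Weierstrass zeta
function, corrected by the linear term, is a weight one modular form; it is written here as the
limit of symmetric sums of cotangents.
-/

noncomputable section

open UpperHalfPlane Filter Matrix.SpecialLinearGroup Complex Real
open SummationFilter
open scoped Topology MatrixGroups ModularForm Manifold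

namespace FLTAgent.DeligneSerre

/-- The lattice point attached to `x`. -/
def latticePt (τ : ℍ) (x : Fin 2 → ℤ) : ℂ := x 0 * (τ : ℂ) + x 1

/-- The summand of the Weierstrass zeta function. -/
def zetaTerm (τ : ℍ) (z : ℂ) (x : Fin 2 → ℤ) : ℂ :=
  (z - latticePt τ x)⁻¹ + (latticePt τ x)⁻¹ + z * ((latticePt τ x) ^ 2)⁻¹

/-- The Weierstrass zeta function. -/
def weierZeta (τ : ℍ) (z : ℂ) : ℂ := ∑' x, zetaTerm τ z x

theorem summable_zetaTerm (τ : ℍ) (z : ℂ) : Summable (zetaTerm τ z) := by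
  have hr : 0 < EisensteinSeries.r τ := EisensteinSeries.r_pos τ
  have hmain : ∀ x : Fin 2 → ℤ, x ≠ 0 → EisensteinSeries.r τ * ‖x‖ ≤ ‖latticePt τ x‖ :=
    fun x hx ↦ EisensteinSeries.r_mul_max_le τ hx
  have hcof : ∀ᶠ x : Fin 2 → ℤ in cofinite, 2 * ‖z‖ < EisensteinSeries.r τ * ‖x‖ := by
    have : {x : Fin 2 → ℤ | EisensteinSeries.r τ * ‖x‖ ≤ 2 * ‖z‖}.Finite := by
      refine (isCompact_closedBall (0 : Fin 2 → ℤ) (2 * ‖z‖ / EisensteinSeries.r τ)).finite
        ⟨by infer_instance⟩ |>.subset fun x hx ↦ ?_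
      rw [mem_closedBall_zero_iff, le_div_iff₀ hr, mul_comm]
      exact hx
    filter_upwards [this.compl_mem_cofinite] with x hx
    simpa using hx
  refine .of_norm_bounded_eventually (g := fun x : Fin 2 → ℤ ↦
    2 * ‖z‖ ^ 2 / EisensteinSeries.r τ ^ 3 * ‖x‖ ^ (-3 : ℝ))
    ((EisensteinSeries.summable_one_div_norm_rpow (by norm_num)).mul_left _) ?_
  filter_upwards [hcof] with x hx
  have hx0 : x ≠ 0 := by
    rintro rfl
    simp at hx
    linarith [norm_nonneg z]
  set w := latticePt τ x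
  have hw := hmain x hx0
  have hwpos : 0 < ‖w‖ := lt_of_lt_of_le (by linarith [norm_nonneg z]) hw
  have hzw : ‖w‖ / 2 ≤ ‖z - w‖ := by
    have := norm_sub_norm_le w z
    rw [norm_sub_rev] at this
    linarith
  have hw0 : w ≠ 0 := norm_pos_iff.mp hwpos
  have hzw0 : z - w ≠ 0 := norm_pos_iff.mp (by linarith)
  have e : zetaTerm τ z x = z ^ 2 / (w ^ 2 * (z - w)) := by
    change (z - w)⁻¹ + w⁻¹ + z * (w ^ 2)⁻¹ = _
    field_simp
    ring
  rw [e, norm_div, norm_pow, norm_mul, norm_pow, Real.rpow_neg (norm_nonneg _)]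
  have hx3 : ‖x‖ ^ (3 : ℝ) = ‖x‖ ^ 3 := by norm_num
  rw [hx3]
  calc ‖z‖ ^ 2 / (‖w‖ ^ 2 * ‖z - w‖) ≤ ‖z‖ ^ 2 / ((EisensteinSeries.r τ * ‖x‖) ^ 3 / 2) := by
        have hxr : 0 < EisensteinSeries.r τ * ‖x‖ := by linarith [norm_nonneg z]
        gcongr
        nlinarith [mul_le_mul_of_nonneg_left hzw (sq_nonneg ‖w‖), pow_le_pow_left₀ hxr.le hw 3]
    _ = _ := by rw [mul_pow]; ring

theorem coe_smul_mul_denom (γ : SL(2, ℤ)) (τ : ℍ) :
    ((γ • τ : ℍ) : ℂ) * denom γ τ = (γ 0 0 : ℂ) * τ + γ 0 1 := by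
  have hj : denom γ τ ≠ 0 := denom_ne_zero γ τ
  rw [UpperHalfPlane.coe_specialLinearGroup_apply]
  rw [ModularGroup.denom_apply] at hj ⊢
  simp
  exact div_mul_cancel₀ _ hj

theorem weierZeta_moeb (γ : SL(2, ℤ)) (τ : ℍ) (z : ℂ) :
    weierZeta (γ • τ) (z / denom γ τ) = denom γ τ * weierZeta τ z := by
  have hj : denom γ τ ≠ 0 := denom_ne_zero γ τ
  let e : (Fin 2 → ℤ) ≃ (Fin 2 → ℤ) :=
    { toFun := fun x ↦ Matrix.vecMul x (γ : Matrix (Fin 2) (Fin 2) ℤ)
      invFun := fun x ↦ Matrix.vecMul x ((γ⁻¹ : SL(2, ℤ)) : Matrix (Fin 2) (Fin 2) ℤ)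
      left_inv := fun x ↦ by
        show Matrix.vecMul (Matrix.vecMul x _) _ = x
        rw [Matrix.vecMul_vecMul, ← Matrix.SpecialLinearGroup.coe_mul, mul_inv_cancel,
          Matrix.SpecialLinearGroup.coe_one, Matrix.vecMul_one]
      right_inv := fun x ↦ by
        show Matrix.vecMul (Matrix.vecMul x _) _ = x
        rw [Matrix.vecMul_vecMul, ← Matrix.SpecialLinearGroup.coe_mul, inv_mul_cancel,
          Matrix.SpecialLinearGroup.coe_one, Matrix.vecMul_one] }
  rw [weierZeta, weierZeta, ← tsum_mul_left, ← e.tsum_eq fun x ↦ denom γ τ * zetaTerm τ z x]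
  refine tsum_congr fun x ↦ ?_
  have hw : latticePt (γ • τ) x = latticePt τ (e x) / denom γ τ := by
    have hm := coe_smul_mul_denom γ τ
    rw [eq_div_iff hj, latticePt, latticePt]
    simp only [e, Equiv.coe_fn_mk, Matrix.vecMul, dotProduct, Fin.sum_univ_two]
    rw [ModularGroup.denom_apply] at hm ⊢
    push_cast
    linear_combination (x 0 : ℂ) * hm
  simp only [zetaTerm, hw, ← sub_div, inv_div, div_pow]
  field_simp

/-- A complex number is outside the lattice `ℤτ + ℤ`. -/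
def NotInLattice (τ : ℍ) (z : ℂ) : Prop := ∀ x, z ≠ latticePt τ x

theorem notMem_int_add {τ : ℍ} {z : ℂ} (hz : NotInLattice τ z) (m : ℤ) :
    z + m * (τ : ℂ) ∈ Complex.integerComplement := by
  rintro ⟨n, hn⟩
  refine hz ![-m, n] ?_
  simp [latticePt]
  linear_combination -hn

theorem cot_neg' (x : ℂ) : cot (-x) = -cot x := by
  simp [Complex.cot_eq_cos_div_sin, div_neg]

/-- The partial sums of the cotangent series. -/
def cotSum (τ : ℍ) (z : ℂ) (K : ℕ) : ℂ :=
  ∑ m ∈ Finset.Icc (-(K : ℤ)) K, (π : ℂ) * cot (π * (z + m * τ))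

theorem tendsto_sum_Icc_inv_sub {x : ℂ} (hx : x ∈ Complex.integerComplement ∨ x = 0) :
    Tendsto (fun K : ℕ ↦ ∑ n ∈ Finset.Icc (-(K : ℤ)) K, (x - n)⁻¹) atTop
      (𝓝 ((π : ℂ) * cot (π * x))) := by
  rcases hx with hx | rfl
  · have key : ∀ K : ℕ, ∑ n ∈ Finset.Icc (-(K : ℤ)) K, (x - n)⁻¹
        = ∑ j ∈ Finset.range K, cotTerm x j + 1 / x := by
      intro K
      induction K with
      | zero => simp
      | succ K ih =>
        rw [Finset.sum_range_succ, add_right_comm, ← ih, Nat.cast_succ,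
          Finset.sum_Icc_succ_eq_add_endpoints, cotTerm]
        push_cast
        ring
    simp only [key]
    simpa using (tendsto_logDeriv_euler_cot_sub hx).add_const (1 / x)
  · have key : ∀ K : ℕ, ∑ n ∈ Finset.Icc (-(K : ℤ)) K, ((0 : ℂ) - n)⁻¹ = 0 := by
      intro K
      induction K with
      | zero => simp
      | succ K ih =>
        rw [Nat.cast_succ, Finset.sum_Icc_succ_eq_add_endpoints, ih]
        push_cast
        rw [zero_sub, zero_sub, neg_neg, inv_neg]
        ring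
    simp only [key]
    simp [Complex.cot_eq_cos_div_sin]

theorem latticePt_pair (τ : ℍ) (m n : ℤ) : latticePt τ ![m, n] = m * (τ : ℂ) + n := by
  simp [latticePt]

theorem zetaRow {τ : ℍ} {z : ℂ} (hz : NotInLattice τ z) (m : ℤ) :
    ∑' n, zetaTerm τ z ![m, n] = (π : ℂ) * cot (π * (z - m * τ)) + (π : ℂ) * cot (π * (m * τ))
      + z * EisensteinSeries.e2Summand m τ := by
  have hs : Summable fun n ↦ zetaTerm τ z ![m, n] :=
    ((finTwoArrowEquiv ℤ).symm.summable_iff.mpr (summable_zetaTerm τ z)).comp_injective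
      (i := fun n : ℤ ↦ (m, n)) fun a b h ↦ (Prod.mk.inj h).2
  have he : Summable fun n ↦ z * EisensteinSeries.eisSummand 2 ![m, n] τ :=
    (EisensteinSeries.e2Summand_summable m τ).mul_left z
  have hd : Summable fun n : ℤ ↦ zetaTerm τ z ![m, n] - z *
      EisensteinSeries.eisSummand 2 ![m, n] τ :=
    hs.sub he
  have hsplit := hs.tsum_sub he
  rw [tsum_mul_left] at hsplit
  change _ = _ - z * EisensteinSeries.e2Summand m τ at hsplit
  rw [← sub_eq_iff_eq_add, ← hsplit]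
  refine tendsto_nhds_unique
    (hd.hasSum.comp (Finset.tendsto_Icc_neg (R := ℤ))) ?_
  have hterm : ∀ n : ℤ, zetaTerm τ z ![m, n] - z * EisensteinSeries.eisSummand 2 ![m, n] τ
      = ((z - m * τ) - n)⁻¹ + (m * (τ : ℂ) + n)⁻¹ := by
    intro n
    simp only [zetaTerm, latticePt_pair, EisensteinSeries.eisSummand, Matrix.cons_val_zero,
      Matrix.cons_val_one, zpow_neg, zpow_ofNat]
    ring_nf
  simp only [Function.comp_def, hterm, Finset.sum_add_distrib]
  refine Tendsto.add (tendsto_sum_Icc_inv_sub (Or.inl ?_)) ?_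
  · simpa [sub_eq_add_neg] using notMem_int_add hz (-m)
  · have hy : -((m : ℂ) * τ) ∈ Complex.integerComplement ∨ -((m : ℂ) * τ) = 0 := by
      rcases eq_or_ne m 0 with rfl | hm
      · simp
      · refine Or.inl ?_
        rintro ⟨n, hn⟩
        have := congrArg Complex.im hn
        simp at this
        rcases this with h | h
        · exact hm (by exact_mod_cast h)
        · exact τ.im_ne_zero h
    have h := (tendsto_sum_Icc_inv_sub hy).neg
    rw [mul_neg, cot_neg', mul_neg, neg_neg] at h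
    refine h.congr fun K ↦ ?_
    rw [← Finset.sum_neg_distrib]
    refine Finset.sum_congr rfl fun n _ ↦ ?_
    rw [← inv_neg, neg_sub, sub_neg_eq_add, add_comm]

theorem tendsto_cotSum {τ : ℍ} {z : ℂ} (hz : NotInLattice τ z) :
    Tendsto (cotSum τ z) atTop (𝓝 (weierZeta τ z - z * EisensteinSeries.G2 τ)) := by
  have hs : Summable fun p : ℤ × ℤ ↦ zetaTerm τ z ![p.1, p.2] :=
    (finTwoArrowEquiv ℤ).symm.summable_iff.mpr (summable_zetaTerm τ z)
  have htot : HasSum (fun m ↦ ∑' n, zetaTerm τ z ![m, n]) (weierZeta τ z) := by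
    have : weierZeta τ z = ∑' p : ℤ × ℤ, zetaTerm τ z ![p.1, p.2] :=
      ((finTwoArrowEquiv ℤ).symm.tsum_eq _).symm
    rw [this, hs.tsum_prod' fun m ↦ hs.prod_factor m]
    exact hs.prod.hasSum
  have h1 := htot.comp (Finset.tendsto_Icc_neg (R := ℤ))
  have h2 : Tendsto (fun K : ℕ ↦ ∑ m ∈ Finset.Icc (-(K : ℤ)) K, EisensteinSeries.e2Summand m τ)
      atTop (𝓝 (EisensteinSeries.G2 τ)) := by
    have := (EisensteinSeries.summable_e2Summand_symmetricIcc τ).hasSum
    simpa [HasSum, symmetricIcc_eq_map_Icc_nat, -symmetricIcc_filter, Function.comp_def,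
      EisensteinSeries.G2] using this
  refine ((h1.sub (h2.const_mul z))).congr fun K ↦ ?_
  simp only [Function.comp_def, zetaRow hz]
  rw [Finset.sum_add_distrib, Finset.sum_add_distrib, ← Finset.mul_sum (a := z),
    add_sub_cancel_right]
  have hneg : ∀ F : ℤ → ℂ, ∑ m ∈ Finset.Icc (-(K : ℤ)) K, F (-m)
      = ∑ m ∈ Finset.Icc (-(K : ℤ)) K, F m := fun F ↦
    Finset.sum_nbij' (fun m ↦ -m) (fun m ↦ -m) (fun m hm ↦ by simp at hm ⊢; omega)
      (fun m hm ↦ by simp at hm ⊢; omega) (by simp) (by simp) (by simp)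
  have hzero : ∑ m ∈ Finset.Icc (-(K : ℤ)) K, (π : ℂ) * cot (π * (m * τ)) = 0 := by
    have h := hneg fun m : ℤ ↦ (π : ℂ) * cot (π * (m * τ))
    simp only [Int.cast_neg, neg_mul, mul_neg, cot_neg', Finset.sum_neg_distrib] at h
    linear_combination (-1 / 2 : ℂ) * h
  rw [hzero, add_zero, cotSum, ← hneg]
  refine Finset.sum_congr rfl fun m _ ↦ ?_
  push_cast
  ring_nf

/-- `(uτ+v)/N`. -/
def divPoint (N : ℕ) (u v : ℤ) (τ : ℍ) : ℂ := (u * (τ : ℂ) + v) / N

/-- Hecke's weight one division value. -/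
def divValue (N : ℕ) (u v : ℤ) (τ : ℍ) : ℂ :=
  weierZeta τ (divPoint N u v τ) - divPoint N u v τ * EisensteinSeries.G2 τ + 2 * π *
    Complex.I * u / N

theorem divValue_moeb (N : ℕ) (u v : ℤ) (γ : SL(2, ℤ)) (τ : ℍ) :
    divValue N u v (γ • τ)
      = denom γ τ * divValue N (u * γ 0 0 + v * γ 1 0) (u * γ 0 1 + v * γ 1 1) τ := by
  have hj : denom γ τ ≠ 0 := denom_ne_zero γ τ
  have hdet : (γ 0 0 : ℂ) * γ 1 1 - γ 0 1 * γ 1 0 = 1 := by
    exact_mod_cast (Matrix.det_fin_two γ.1).symm.trans γ.2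
  set u' := u * γ 0 0 + v * γ 1 0
  set v' := u * γ 0 1 + v * γ 1 1
  have hz : divPoint N u v (γ • τ) = divPoint N u' v' τ / denom γ τ := by
    have hm := coe_smul_mul_denom γ τ
    rw [divPoint, divPoint, eq_div_iff hj]
    rw [ModularGroup.denom_apply] at hm ⊢
    simp only [u', v']
    push_cast
    linear_combination (u : ℂ) / N * hm
  have hG : EisensteinSeries.G2 (γ • τ)
      = (denom γ τ) ^ 2 * (EisensteinSeries.G2 τ - EisensteinSeries.D2 γ τ) := by
    have h := congrFun (EisensteinSeries.G2_slash_action γ) τ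
    rw [ModularForm.SL_slash_apply, Pi.sub_apply] at h
    rw [← h, zpow_neg, zpow_ofNat]
    field_simp
  rw [divValue, divValue, hG, hz, weierZeta_moeb, EisensteinSeries.D2]
  rcases eq_or_ne N 0 with rfl | hN
  · simp [divPoint]
  have hN' : (N : ℂ) ≠ 0 := Nat.cast_ne_zero.mpr hN
  simp only [divPoint, u', v']
  rw [ModularGroup.denom_apply] at hj ⊢
  push_cast
  field_simp
  linear_combination -(2 * (π : ℂ) * Complex.I * u) * hdet

end FLTAgent.DeligneSerre
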