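import Mathlib
import Fermat.Agent.DeligneSerre.DivisionValue

set_option autoImplicit false

/-!
# Series expansion of the weight one division values

`divValue_eq` expands a division value as a constant plus a double series in powers of `q^{1/N}`;
hence it is holomorphic (`mdiff_divValue`), has a limit at infinity (`tendsto_divValue`) and only
depends on `(u, v)` modulo `N` (`divValue_congr`).
-/

noncomputable section

open UpperHalfPlane Filter Complex Real
open scoped Topology MatrixGroups Manifold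

namespace FLTAgent.DeligneSerre

/-- `exp(2πi x)`. -/
def expTau (x : ℂ) : ℂ := Complex.exp (2 * π * Complex.I * x)

/-- `w/(1-w)`. -/
def geo (w : ℂ) : ℂ := w / (1 - w)

theorem norm_expTau (x : ℂ) : ‖expTau x‖ = Real.exp (-(2 * π * x.im)) := by
  simp [expTau, Complex.norm_exp, mul_assoc]

theorem expTau_add (x y : ℂ) : expTau (x + y) = expTau x * expTau y := by
  simp only [expTau, mul_add, Complex.exp_add]

theorem expTau_neg (x : ℂ) : expTau (-x) = (expTau x)⁻¹ := by
  simp only [expTau, mul_neg, Complex.exp_neg]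

theorem expTau_eq_one_iff {x : ℂ} : expTau x = 1 ↔ ∃ n : ℤ, x = n := by
  rw [expTau, Complex.exp_eq_one_iff]
  refine exists_congr fun n ↦ ?_
  rw [show (n : ℂ) * (2 * π * Complex.I) = 2 * π * Complex.I * n by ring]
  exact mul_right_inj' (by simp [Real.pi_ne_zero, Complex.I_ne_zero])

theorem pi_cot_eq_geo {x : ℂ} (hx : expTau x ≠ 1) :
    (π : ℂ) * cot (π * x) = -(π * Complex.I) - 2 * π * Complex.I * geo (expTau x) := by
  have h : (1 : ℂ) - expTau x ≠ 0 := sub_ne_zero.mpr (Ne.symm hx)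
  have hI := Complex.I_ne_zero
  rw [Complex.cot_pi_eq_exp_ratio]
  change (π : ℂ) * ((expTau x + 1) / (Complex.I * (1 - expTau x))) = _
  rw [geo]
  field_simp
  linear_combination (expTau x + 1) * Complex.I_sq

theorem pi_cot_eq_geo_neg {x : ℂ} (hx : expTau x ≠ 1) :
    (π : ℂ) * cot (π * x) = π * Complex.I + 2 * π * Complex.I * geo (expTau (-x)) := by
  have := pi_cot_eq_geo (x := -x) (by simp [expTau_neg, hx])
  rw [mul_neg, cot_neg', mul_neg] at this
  linear_combination -this

theorem notInLattice_divPoint {N : ℕ} [NeZero N] {u v : ℤ} (h : ¬ ((N : ℤ) ∣ u ∧ (N : ℤ) ∣ v))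
    (τ : ℍ) : NotInLattice τ (divPoint N u v τ) := by
  intro x hx
  have hN : (N : ℂ) ≠ 0 := Nat.cast_ne_zero.mpr (NeZero.ne N)
  rw [latticePt, divPoint, div_eq_iff hN] at hx
  have him := congrArg Complex.im hx
  simp at him
  have hu : u = x 0 * N := by
    have h' : (u : ℝ) = x 0 * N := mul_right_cancel₀ τ.im_ne_zero (by linarith)
    exact_mod_cast h'
  have hre := hx
  rw [hu] at hre
  push_cast at hre
  have hv : (v : ℂ) = x 1 * N := by linear_combination hre
  exact h ⟨⟨x 0, by rw [hu]; ring⟩, ⟨x 1, by rw [show v = x 1 * N by exact_mod_cast hv]; ring⟩⟩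

theorem expTau_ne_one {N : ℕ} [NeZero N] {u v : ℤ} (h : ¬ ((N : ℤ) ∣ u ∧ (N : ℤ) ∣ v))
    (τ : ℍ) (m : ℤ) : expTau (divPoint N u v τ + m * τ) ≠ 1 := by
  intro he
  obtain ⟨n, hn⟩ := expTau_eq_one_iff.mp he
  exact notMem_int_add (notInLattice_divPoint h τ) m ⟨n, hn.symm⟩

theorem cotSum_succ (τ : ℍ) (z : ℂ) (K : ℕ) :
    cotSum τ z (K + 1) = cotSum τ z K + ((π : ℂ) * cot (π * (z + (K + 1 : ℂ) * τ))
      + (π : ℂ) * cot (π * (z - (K + 1 : ℂ) * τ))) := by
  rw [cotSum, cotSum, Nat.cast_succ, Finset.sum_Icc_succ_eq_add_endpoints]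
  push_cast
  ring_nf

/-- The tail term indexed by `(m,k)`. -/
def tailTerm (N : ℕ) (u v : ℤ) (τ : ℍ) (p : ℕ × ℕ) : ℂ :=
  expTau (divPoint N u v τ + (p.1 + 1 : ℂ) * τ) ^ (p.2 + 1)
    - expTau ((p.1 + 1 : ℂ) * τ - divPoint N u v τ) ^ (p.2 + 1)

/-- The part tending to `0` at infinity. -/
def divTail (N : ℕ) (u v : ℤ) (τ : ℍ) : ℂ :=
  (if u = 0 then 0 else geo (expTau (divPoint N u v τ))) + ∑' p, tailTerm N u v τ p

/-- The value at infinity. -/
def divConst (N : ℕ) (u v : ℤ) : ℂ :=
  1 / 2 - (u : ℂ) / N + if u = 0 then geo (expTau ((v : ℂ) / N)) else 0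

/-- `|q^{1/N}|`. -/
def qAbs (N : ℕ) (τ : ℍ) : ℝ := Real.exp (-(2 * π * τ.im / N))

variable {N : ℕ} [NeZero N] {u v : ℤ}

omit [NeZero N] in
theorem qAbs_pos (τ : ℍ) : 0 < qAbs N τ := Real.exp_pos _

theorem qAbs_lt_one (τ : ℍ) : qAbs N τ < 1 := by
  rw [qAbs, Real.exp_lt_one_iff, neg_lt_zero]
  have := NeZero.pos N
  have := τ.im_pos
  positivity

theorem norm_pow_le (hu : 0 ≤ u) (huN : u < N) (τ : ℍ) (m k : ℕ) :
    ‖expTau (divPoint N u v τ + (m + 1 : ℂ) * τ) ^ (k + 1)‖ ≤
      qAbs N τ * (qAbs N τ ^ m * qAbs N τ ^ k)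
    ∧ ‖expTau ((m + 1 : ℂ) * τ - divPoint N u v τ) ^ (k + 1)‖
        ≤ qAbs N τ * (qAbs N τ ^ m * qAbs N τ ^ k) := by
  obtain ⟨a, rfl⟩ := Int.eq_ofNat_of_zero_le hu
  have haN : a < N := by exact_mod_cast huN
  have hN : (N : ℝ) ≠ 0 := Nat.cast_ne_zero.mpr (NeZero.ne N)
  have hle : ∀ e : ℕ, 1 + m + k ≤ e → qAbs N τ ^ e ≤ qAbs N τ * (qAbs N τ ^ m * qAbs N τ ^ k) :=
    fun e he ↦ by
      rw [← pow_add, ← pow_succ', show m + k + 1 = 1 + m + k by ring]
      exact pow_le_pow_of_le_one (qAbs_pos τ).le (qAbs_lt_one τ).le he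
  constructor
  · have e : ‖expTau (divPoint N a v τ + (m + 1 : ℂ) * τ) ^ (k + 1)‖
        = qAbs N τ ^ ((a + (m + 1) * N) * (k + 1)) := by
      rw [norm_pow, norm_expTau, pow_mul]
      congr 1
      rw [qAbs, ← Real.exp_nat_mul]
      congr 1
      simp [divPoint, Complex.div_natCast_im]
      field_simp
    rw [e]
    refine hle _ (le_trans ?_ (Nat.mul_le_mul_right (k + 1) (show m + 1 ≤ a + (m + 1) * N from
      le_add_left (Nat.le_mul_of_pos_right _ (NeZero.pos N)))))
    nlinarith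
  · have e : ‖expTau ((m + 1 : ℂ) * τ - divPoint N a v τ) ^ (k + 1)‖
        = qAbs N τ ^ ((m * N + (N - a)) * (k + 1)) := by
      rw [norm_pow, norm_expTau, pow_mul]
      congr 1
      rw [qAbs, ← Real.exp_nat_mul]
      congr 1
      rw [Nat.cast_add, Nat.cast_mul, Nat.cast_sub haN.le]
      simp [divPoint, Complex.div_natCast_im]
      field_simp
      ring
    rw [e]
    refine hle _ (le_trans ?_ (Nat.mul_le_mul_right (k + 1) (show m + 1 ≤ m * N + (N - a) from
      add_le_add (Nat.le_mul_of_pos_right _ (NeZero.pos N)) (by omega))))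
    nlinarith

theorem norm_tailTerm_le (hu : 0 ≤ u) (huN : u < N) (τ : ℍ) (p : ℕ × ℕ) :
    ‖tailTerm N u v τ p‖ ≤ 2 * (qAbs N τ * (qAbs N τ ^ p.1 * qAbs N τ ^ p.2)) := by
  obtain ⟨h1, h2⟩ := norm_pow_le (v := v) hu huN τ p.1 p.2
  exact (norm_sub_le _ _).trans (by linarith)

theorem summable_bound {r : ℝ} (h0 : 0 ≤ r) (h1 : r < 1) :
    Summable fun p : ℕ × ℕ ↦ 2 * (r * (r ^ p.1 * r ^ p.2)) :=
  ((((summable_geometric_of_lt_one h0 h1).mul_of_nonneg (summable_geometric_of_lt_one h0 h1)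
    (fun _ ↦ by positivity) (fun _ ↦ by positivity))).mul_left r).mul_left 2

theorem summable_tailTerm (hu : 0 ≤ u) (huN : u < N) (τ : ℍ) : Summable (tailTerm N u v τ) :=
  .of_norm_bounded (summable_bound (qAbs_pos τ).le (qAbs_lt_one τ)) (norm_tailTerm_le hu huN τ)

theorem norm_expTau_lt_one_of_im_pos {x : ℂ} (h : 0 < x.im) : ‖expTau x‖ < 1 := by
  rw [norm_expTau, Real.exp_lt_one_iff]
  have := Real.pi_pos
  nlinarith

/-- The series of a division value. -/
theorem divValue_eq (hu : 0 ≤ u) (huN : u < N) (h : ¬ ((N : ℤ) ∣ u ∧ (N : ℤ) ∣ v)) (τ : ℍ) :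
    divValue N u v τ = -(2 * π * Complex.I) * (divConst N u v + divTail N u v τ) := by
  set z := divPoint N u v τ with hz
  have hlim := tendsto_cotSum (notInLattice_divPoint h τ)
  let F : ℕ → ℂ := fun m ↦ geo (expTau (z + (m + 1 : ℂ) * τ)) - geo (expTau ((m + 1 : ℂ) * τ - z))
  have hkey : ∀ K, cotSum τ z K = -(π * Complex.I) - 2 * π * Complex.I * geo (expTau z)
      - 2 * π * Complex.I * ∑ m ∈ Finset.range K, F m := by
    intro K
    induction K with
    | zero =>
      simp only [cotSum, Nat.cast_zero, neg_zero, Finset.Icc_self, Finset.sum_singleton,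
        Finset.range_zero, Finset.sum_empty, mul_zero, sub_zero, Int.cast_zero, zero_mul, add_zero]
      exact pi_cot_eq_geo (by simpa using expTau_ne_one h τ 0)
    | succ K ih =>
      rw [cotSum_succ, ih, Finset.sum_range_succ,
        pi_cot_eq_geo (by exact_mod_cast expTau_ne_one h τ (K + 1)),
        pi_cot_eq_geo_neg (x := z - (K + 1 : ℂ) * τ) (by
          have := expTau_ne_one h τ (-(K + 1))
          push_cast at this
          rwa [sub_eq_add_neg, ← neg_mul]), neg_sub]
      simp only [F]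
      ring
  have hF : HasSum F (∑' p, tailTerm N u v τ p) := by
    refine (summable_tailTerm (v := v) hu huN τ).hasSum.prod_fiberwise fun m ↦ ?_
    have hgeo : ∀ {w : ℂ}, ‖w‖ < 1 → HasSum (fun k : ℕ ↦ w ^ (k + 1)) (geo w) := fun {w} hw ↦ by
      simpa [pow_succ', geo, div_eq_mul_inv] using (hasSum_geometric_of_norm_lt_one hw).mul_left w
    have hb := norm_pow_le (v := v) hu huN τ m 0
    have hlt : qAbs N τ * (qAbs N τ ^ m * qAbs N τ ^ 0) < 1 := by
      rw [pow_zero, mul_one, ← pow_succ']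
      exact pow_lt_one₀ (qAbs_pos τ).le (qAbs_lt_one τ) (Nat.succ_ne_zero m)
    rw [zero_add, pow_one, pow_one] at hb
    have h3 := (hgeo (hb.1.trans_lt hlt)).sub (hgeo (hb.2.trans_lt hlt))
    simp only [tailTerm, F, hz]
    exact h3
  have h2 : Tendsto (cotSum τ z) atTop (𝓝 (-(π * Complex.I) - 2 * π * Complex.I * geo (expTau z)
      - 2 * π * Complex.I * ∑' p, tailTerm N u v τ p)) := by
    simp only [funext hkey]
    exact (hF.tendsto_sum_nat.const_mul _).const_sub _
  rw [divValue, tendsto_nhds_unique hlim h2, divConst, divTail, ← hz]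
  split_ifs with h0
  · subst h0
    have : z = (v : ℂ) / N := by simp [hz, divPoint]
    rw [this]
    push_cast
    ring
  · ring

theorem tendsto_divTail (hu : 0 ≤ u) (huN : u < N) :
    Tendsto (divTail N u v) atImInfty (𝓝 0) := by
  have hr : Tendsto (qAbs N) atImInfty (𝓝 0) := by
    refine Real.tendsto_exp_atBot.comp (tendsto_neg_atTop_atBot.comp ?_)
    refine Tendsto.atTop_div_const (by exact_mod_cast NeZero.pos N) ?_
    exact tendsto_comap.const_mul_atTop (by positivity)
  have hB : Tendsto (fun τ ↦ qAbs N τ / (1 - qAbs N τ)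
      + 2 * (qAbs N τ * ((1 - qAbs N τ)⁻¹ * (1 - qAbs N τ)⁻¹))) atImInfty (𝓝 0) := by
    have hd : Tendsto (fun τ ↦ (1 - qAbs N τ)⁻¹) atImInfty (𝓝 ((1 - 0 : ℝ)⁻¹)) :=
      (hr.const_sub 1).inv₀ (by norm_num)
    have := (hr.mul hd).add ((hr.mul (hd.mul hd)).const_mul 2)
    simpa [div_eq_mul_inv] using this
  refine squeeze_zero_norm (fun τ ↦ (norm_add_le _ _).trans (add_le_add ?_ ?_)) hB
  · split_ifs with h0
    · rw [norm_zero]
      exact div_nonneg (qAbs_pos τ).le (by linarith [qAbs_lt_one (N := N) τ])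
    · obtain ⟨a, rfl⟩ := Int.eq_ofNat_of_zero_le hu
      have e : ‖expTau (divPoint N a v τ)‖ ≤ qAbs N τ := by
        have h1 : ‖expTau (divPoint N a v τ)‖ = qAbs N τ ^ a := by
          rw [norm_expTau, qAbs, ← Real.exp_nat_mul]
          congr 1
          simp [divPoint, Complex.div_natCast_im]
          ring
        rw [h1]
        exact pow_le_of_le_one (qAbs_pos τ).le (qAbs_lt_one τ).le (by simpa using h0)
      rw [geo, norm_div]
      refine div_le_div₀ (qAbs_pos τ).le e (by linarith [qAbs_lt_one (N := N) τ]) ?_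
      have := norm_sub_norm_le (1 : ℂ) (expTau (divPoint N a v τ))
      rw [norm_one] at this
      linarith
  · refine tsum_of_norm_bounded ?_ (norm_tailTerm_le hu huN τ)
    have hg := hasSum_geometric_of_lt_one (qAbs_pos (N := N) τ).le (qAbs_lt_one τ)
    exact ((hg.mul hg ((hg.summable.mul_of_nonneg hg.summable
      (fun _ ↦ pow_nonneg (qAbs_pos τ).le _)
        (fun _ ↦ pow_nonneg (qAbs_pos τ).le _)))).mul_left _).mul_left _

theorem tendsto_divValue (hu : 0 ≤ u) (huN : u < N) (h : ¬ ((N : ℤ) ∣ u ∧ (N : ℤ) ∣ v)) :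
    Tendsto (divValue N u v) atImInfty (𝓝 (-(2 * π * Complex.I) * divConst N u v)) := by
  simp only [funext (divValue_eq hu huN h)]
  simpa using ((tendsto_divTail (v := v) hu huN).const_add (divConst N u v)).const_mul _

theorem mdiff_divValue (hu : 0 ≤ u) (huN : u < N) (h : ¬ ((N : ℤ) ∣ u ∧ (N : ℤ) ∣ v)) :
    MDifferentiable (modelWithCornersSelf ℂ ℂ) (modelWithCornersSelf ℂ ℂ) (divValue N u v) := by
  rw [UpperHalfPlane.mdifferentiable_iff]
  let P : ℂ → ℂ := fun z ↦ ((u : ℂ) * z + v) / N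
  let G : ℕ × ℕ → ℂ → ℂ := fun p z ↦ expTau (P z + (p.1 + 1 : ℂ) * z) ^ (p.2 + 1)
    - expTau ((p.1 + 1 : ℂ) * z - P z) ^ (p.2 + 1)
  have hP : Differentiable ℂ P := ((differentiable_id.const_mul _).add_const _).div_const _
  have hexp : Differentiable ℂ expTau := by
    unfold expTau
    fun_prop
  have htail : DifferentiableOn ℂ (fun z ↦ ∑' p, G p z) upperHalfPlaneSet := by
    intro z hz
    have hz' : 0 < z.im := hz
    let δ := z.im / 2
    let r := Real.exp (-(2 * π * δ / N))
    have hr1 : r < 1 := by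
      rw [Real.exp_lt_one_iff, neg_lt_zero]
      have := NeZero.pos N
      positivity
    have hopen : IsOpen {w : ℂ | δ < w.im} := isOpen_lt continuous_const Complex.continuous_im
    refine DifferentiableAt.differentiableWithinAt ?_
    refine (differentiableOn_tsum_of_summable_norm (summable_bound (Real.exp_pos _).le hr1)
      (fun p ↦ ?_) hopen fun p w hw ↦ ?_).differentiableAt
      (hopen.mem_nhds (show δ < z.im from half_lt_self hz'))
    · simp only [G]
      have hc : Differentiable ℂ fun w : ℂ ↦ (p.1 + 1 : ℂ) * w := differentiable_id.const_mul _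
      exact (((hexp.comp (hP.add hc)).pow _).sub ((hexp.comp (hc.sub hP)).pow _)).differentiableOn
    · have hδ : 0 < δ := half_pos hz'
      let τ : ℍ := ⟨w, hδ.trans hw⟩
      refine (norm_tailTerm_le (v := v) hu huN τ p).trans ?_
      have hq : qAbs N τ ≤ r := by
        rw [qAbs]
        refine Real.exp_le_exp.mpr (neg_le_neg ?_)
        gcongr
        exact hw.le
      have := (qAbs_pos (N := N) τ).le
      gcongr
  have hhead : DifferentiableOn ℂ (fun z ↦ if u = 0 then 0 else geo (expTau (P z)))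
      upperHalfPlaneSet := by
    split_ifs with h0
    · exact differentiableOn_const _
    · intro z hz
      refine DifferentiableAt.differentiableWithinAt ?_
      have h1 : expTau (P z) ≠ 1 := by
        have := expTau_ne_one h ⟨z, hz⟩ 0
        simpa [P, divPoint] using this
      exact ((hexp.comp hP) z).div (((hexp.comp hP) z).const_sub 1) (sub_ne_zero.mpr (Ne.symm h1))
  refine ((((hhead.add htail).const_add (divConst N u v)).const_mul
    (-(2 * π * Complex.I)))).congr fun z hz ↦ ?_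
  simp only [Function.comp_apply, UpperHalfPlane.ofComplex_apply_of_im_pos hz, divValue_eq hu huN h]
  rfl

theorem pi_cot_add_one (x : ℂ) : (π : ℂ) * cot (π * (x + 1)) = π * cot (π * x) := by
  rw [Complex.cot_pi_eq_exp_ratio, Complex.cot_pi_eq_exp_ratio, mul_add, Complex.exp_add, mul_one,
    Complex.exp_two_pi_mul_I, mul_one]

theorem divValue_add_right (h : ¬ ((N : ℤ) ∣ u ∧ (N : ℤ) ∣ v)) (τ : ℍ) :
    divValue N u (v + N) τ = divValue N u v τ := by
  have hN : (N : ℂ) ≠ 0 := Nat.cast_ne_zero.mpr (NeZero.ne N)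
  have e : divPoint N u (v + N) τ = divPoint N u v τ + 1 := by
    rw [divPoint, divPoint]; push_cast; field_simp; ring
  have h' : ¬ ((N : ℤ) ∣ u ∧ (N : ℤ) ∣ v + N) := by simpa using h
  have h1 := tendsto_cotSum (notInLattice_divPoint h τ)
  have h2 := tendsto_cotSum (notInLattice_divPoint h' τ)
  have : cotSum τ (divPoint N u (v + N) τ) = cotSum τ (divPoint N u v τ) := by
    funext K
    refine Finset.sum_congr rfl fun m _ ↦ ?_
    rw [e, add_right_comm, pi_cot_add_one]
  rw [this] at h2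
  rw [divValue, divValue, tendsto_nhds_unique h2 h1]

theorem tendsto_pi_cot_atTop (τ : ℍ) {z : ℂ} :
    Tendsto (fun K : ℕ ↦ (π : ℂ) * cot (π * (z + (K : ℂ) * τ))) atTop (𝓝 (-(π * Complex.I))) := by
  have he : Tendsto (fun K : ℕ ↦ expTau (z + (K : ℂ) * τ)) atTop (𝓝 0) := by
    have h1 : ∀ K : ℕ, expTau (z + (K : ℂ) * τ) = expTau z * expTau τ ^ K := by
      intro K
      induction K with
      | zero => simp
      | succ K ih =>
        rw [pow_succ, ← mul_assoc, ← ih, ← expTau_add]
        congr 1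
        push_cast
        ring
    simp only [h1]
    simpa using (tendsto_pow_atTop_nhds_zero_of_norm_lt_one
      (norm_expTau_lt_one_of_im_pos (x := (τ : ℂ)) τ.im_pos)).const_mul (expTau z)
  have hlim : Tendsto (fun K : ℕ ↦ -(π * Complex.I)
      - 2 * π * Complex.I * geo (expTau (z + (K : ℂ) * τ))) atTop (𝓝 (-(π * Complex.I))) := by
    have hg : Tendsto geo (𝓝 0) (𝓝 0) := by
      have : ContinuousAt geo 0 :=
        continuousAt_id.div (continuousAt_const.sub continuousAt_id) (by simp)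
      have h' : Tendsto geo (𝓝 0) (𝓝 (geo 0)) := this
      simpa [geo] using h'
    simpa using ((hg.comp he).const_mul (2 * π * Complex.I)).const_sub (-(π * Complex.I))
  refine hlim.congr' ?_
  filter_upwards [he.eventually_ne (zero_ne_one' ℂ)] with K hK
  exact (pi_cot_eq_geo hK).symm

theorem divValue_add_left (h : ¬ ((N : ℤ) ∣ u ∧ (N : ℤ) ∣ v)) (τ : ℍ) :
    divValue N (u + N) v τ = divValue N u v τ := by
  have hN : (N : ℂ) ≠ 0 := Nat.cast_ne_zero.mpr (NeZero.ne N)
  set z := divPoint N u v τ with hz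
  have e : divPoint N (u + N) v τ = z + τ := by
    rw [hz, divPoint, divPoint]; push_cast; field_simp; ring
  have h' : ¬ ((N : ℤ) ∣ u + N ∧ (N : ℤ) ∣ v) := by simpa using h
  have h1 := tendsto_cotSum (notInLattice_divPoint h τ)
  have h2 := tendsto_cotSum (notInLattice_divPoint h' τ)
  rw [e] at h2
  have htel : ∀ K : ℕ, cotSum τ (z + τ) K - cotSum τ z K
      = (π : ℂ) * cot (π * (z + τ + (K : ℂ) * τ)) - (π : ℂ) * cot (π * (z + -((K : ℂ) * τ))) := by
    intro K
    induction K with
    | zero => simp [cotSum]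
    | succ K ih =>
      rw [cotSum_succ, cotSum_succ]
      push_cast
      have e1 : z + τ - (K + 1 : ℂ) * τ = z + -((K : ℂ) * τ) := by ring
      have e2 : z + (K + 1 : ℂ) * τ = z + τ + (K : ℂ) * τ := by ring
      rw [e1, e2, sub_eq_add_neg z ((K + 1 : ℂ) * τ)]
      linear_combination ih
  have ha : Tendsto (fun K : ℕ ↦ (π : ℂ) * cot (π * (z + -((K : ℂ) * τ)))) atTop
      (𝓝 (π * Complex.I)) := by
    have := (tendsto_pi_cot_atTop τ (z := -z)).neg
    rw [neg_neg] at this
    refine this.congr fun K ↦ ?_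
    rw [← mul_neg, ← cot_neg', ← mul_neg]
    ring_nf
  have hd := tendsto_nhds_unique (h2.sub h1)
    (((tendsto_pi_cot_atTop τ (z := z + τ)).sub ha).congr fun K ↦ (htel K).symm)
  rw [divValue, divValue, e, ← hz]
  push_cast
  field_simp
  linear_combination (N : ℂ) * hd

theorem divValue_congr (h : ¬ ((N : ℤ) ∣ u ∧ (N : ℤ) ∣ v)) {u' v' : ℤ} (hu : (N : ℤ) ∣ u' - u)
    (hv : (N : ℤ) ∣ v' - v) (τ : ℍ) : divValue N u' v' τ = divValue N u v τ := by
  obtain ⟨a, ha⟩ := hu
  obtain ⟨b, hb⟩ := hv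
  obtain rfl : u' = u + a * N := by linarith
  obtain rfl : v' = v + b * N := by linarith
  have hR : ∀ b : ℤ, divValue N u (v + b * N) τ = divValue N u v τ := by
    intro b
    induction b with
    | zero => simp
    | succ i ih =>
      rw [← ih, show v + ((i : ℤ) + 1) * N = (v + i * N) + N by ring]
      exact divValue_add_right (by simpa [Int.dvd_add_left] using h) τ
    | pred i ih =>
      rw [← ih, show v + -(i : ℤ) * N = (v + (-(i : ℤ) - 1) * N) + N by ring]
      exact (divValue_add_right (by simpa [Int.dvd_add_left] using h) τ).symm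
  have hL : ∀ a : ℤ, divValue N (u + a * N) (v + b * N) τ = divValue N u (v + b * N) τ := by
    intro a
    induction a with
    | zero => simp
    | succ i ih =>
      rw [← ih, show u + ((i : ℤ) + 1) * N = (u + i * N) + N by ring]
      exact divValue_add_left (by simpa [Int.dvd_add_left] using h) τ
    | pred i ih =>
      rw [← ih, show u + -(i : ℤ) * N = (u + (-(i : ℤ) - 1) * N) + N by ring]
      exact (divValue_add_left (by simpa [Int.dvd_add_left] using h) τ).symm
  rw [hL, hR]

end FLTAgent.DeligneSerre
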