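import Mathlib
import Fermat.Agent.DeligneSerre.DivisionSeries
import Fermat.Agent.MFIntegral.IntegralStructure

set_option autoImplicit false

/-!
# Weight one Eisenstein series on `Γ₁(N)` with rational expansion at infinity

`divForm N a`, the division value at `(a, 0)` evaluated at `Nτ`, is a modular form on `Γ₁(N)`
(`divForm_isMF`) whose coefficients count the divisors congruent to `a` minus those congruent to
`-a` (`hasSum_divForm`).
-/

noncomputable section

open UpperHalfPlane Filter Complex Real CongruenceSubgroup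
open scoped Topology MatrixGroups Manifold ModularForm

namespace FLTAgent.DeligneSerre

open FLTAgent.MFIntegral

/-- `τ ↦ Nτ`. -/
def scaleH (N : ℕ) [NeZero N] (τ : ℍ) : ℍ :=
  ⟨(N : ℂ) * τ, by
    simp only [Complex.mul_im, Complex.natCast_re, Complex.natCast_im, zero_mul, add_zero]
    have : 0 < (N : ℝ) := Nat.cast_pos.mpr (NeZero.pos N)
    exact mul_pos this τ.im_pos⟩

/-- The form `τ ↦ divValue N a 0 (Nτ)/(-2πi)`. -/
def divForm (N : ℕ) [NeZero N] (a : ℤ) (τ : ℍ) : ℂ :=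
  divValue N a 0 (scaleH N τ) / (-(2 * π * Complex.I))

variable {N : ℕ} [NeZero N] {a : ℤ}

theorem neg_two_pi_I_ne_zero : -(2 * (π : ℂ) * Complex.I) ≠ 0 := by
  simp [Real.pi_ne_zero, Complex.I_ne_zero]

theorem tendsto_scaleH : Tendsto (scaleH N) atImInfty atImInfty := by
  rw [atImInfty, tendsto_comap_iff]
  have : ∀ τ, (scaleH N τ).im = N * τ.im := fun τ ↦ by simp [scaleH, ← UpperHalfPlane.coe_im]
  simp only [Function.comp_def, this]
  exact tendsto_comap.const_mul_atTop (Nat.cast_pos.mpr (NeZero.pos N))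

/-- The behaviour of `divForm` under the full modular group. -/
theorem divForm_slash (ha : ¬ (N : ℤ) ∣ a) (γ : SL(2, ℤ)) :
    ∃ (D : ℕ) (w₁ w₂ : ℤ) (φ : ℍ → ℍ), 0 < D ∧ D ∣ N ∧ (D = 1 → (N : ℤ) ∣ γ 1 0) ∧
      0 ≤ w₁ ∧ w₁ < N ∧ ¬ ((N : ℤ) ∣ w₁ ∧ (N : ℤ) ∣ w₂) ∧ Tendsto φ atImInfty atImInfty ∧
      ∀ τ, (divForm N a ∣[(1 : ℤ)] γ) τ = divValue N w₁ w₂ (φ τ) / (-(2 * π * Complex.I)) / D := by
  set c := γ 1 0 with hc
  set g : ℤ := (Int.gcd (N * γ 0 0) c : ℤ) with hg
  have hdet : γ 0 0 * γ 1 1 - γ 0 1 * γ 1 0 = 1 := (Matrix.det_fin_two γ.1).symm.trans γ.2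
  have hgpos : 0 < g := by
    rw [hg]
    refine Int.natCast_pos.mpr (Nat.pos_of_ne_zero fun h0 ↦ ?_)
    obtain ⟨h1, h2⟩ := Int.gcd_eq_zero_iff.1 h0
    rw [hc] at h2
    rcases mul_eq_zero.1 h1 with h3 | h3
    · exact NeZero.ne N (by exact_mod_cast h3)
    · rw [h3, h2] at hdet
      simp at hdet
  obtain ⟨α, hα⟩ : g ∣ N * γ 0 0 := Int.gcd_dvd_left _ _
  obtain ⟨β, hβ⟩ : g ∣ c := Int.gcd_dvd_right _ _
  set x := Int.gcdA (N * γ 0 0) c
  set y := Int.gcdB (N * γ 0 0) c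
  have hαβ : α * x + β * y = 1 := by
    refine mul_left_cancel₀ hgpos.ne' ?_
    have := Int.gcd_eq_gcd_ab (N * γ 0 0) c
    rw [← hg] at this
    linear_combination -this - x * hα - y * hβ
  let δ : SL(2, ℤ) := ⟨!![α, -y; β, x], by rw [Matrix.det_fin_two_of]; linarith⟩
  set D : ℤ := α * γ 1 1 - β * N * γ 0 1 with hD
  have hgD : g * D = N := by
    rw [hD]
    rw [hc] at hβ
    linear_combination -γ 1 1 * hα + N * γ 0 1 * hβ + (N : ℤ) * hdet
  have hDpos : 0 < D := by
    have hN : (0 : ℤ) < N := by exact_mod_cast NeZero.pos N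
    nlinarith
  set u : ℤ := x * N * γ 0 1 + y * γ 1 1 with hu
  obtain ⟨D', hD'⟩ := Int.eq_ofNat_of_zero_le hDpos.le
  have hDC : (D : ℂ) ≠ 0 := Int.cast_ne_zero.mpr hDpos.ne'
  let φ : ℍ → ℍ := fun τ ↦ ⟨((g : ℂ) * τ + u) / D, by
    simp only [Complex.div_intCast_im, Complex.add_im, Complex.mul_im, Complex.intCast_re,
      Complex.intCast_im, zero_mul, add_zero]
    exact div_pos (mul_pos (Int.cast_pos.mpr hgpos) τ.im_pos) (Int.cast_pos.mpr hDpos)⟩
  have hφ : Tendsto φ atImInfty atImInfty := by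
    rw [atImInfty, tendsto_comap_iff]
    have : ∀ τ, (φ τ).im = g / D * τ.im := fun τ ↦ by
      simp [φ, ← UpperHalfPlane.coe_im, Complex.div_intCast_im]
      ring
    simp only [Function.comp_def, this]
    exact tendsto_comap.const_mul_atTop (div_pos (Int.cast_pos.mpr hgpos) (Int.cast_pos.mpr hDpos))
  have hrow : ∀ τ : ℍ, denom δ (φ τ) * D = denom γ τ := by
    intro τ
    rw [ModularGroup.denom_apply, ModularGroup.denom_apply]
    simp only [δ, φ]
    have hid : β * u + x * D = γ 1 1 := by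
      rw [hu, hD]; linear_combination γ 1 1 * hαβ
    have h1 : ((β : ℂ) * g) = γ 1 0 := by
      exact_mod_cast (by rw [← hc, hβ, mul_comm] : β * g = γ 1 0)
    have h2 : (β : ℂ) * u + x * D = γ 1 1 := by exact_mod_cast hid
    simp only [Matrix.of_apply, Matrix.cons_val', Matrix.cons_val_zero, Matrix.cons_val_one,
      Matrix.cons_val_fin_one]
    field_simp
    linear_combination (τ : ℂ) * h1 + h2
  have hsm : ∀ τ : ℍ, scaleH N (γ • τ) = δ • φ τ := by
    intro τ
    apply UpperHalfPlane.ext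
    have hj : denom γ τ ≠ 0 := denom_ne_zero γ τ
    have hj' : denom δ (φ τ) ≠ 0 := denom_ne_zero δ (φ τ)
    refine mul_right_cancel₀ hj ?_
    have e := coe_smul_mul_denom δ (φ τ)
    conv_rhs => rw [← hrow τ, ← mul_assoc, e]
    simp only [scaleH, mul_assoc, coe_smul_mul_denom, δ, φ]
    simp only [Matrix.of_apply, Matrix.cons_val', Matrix.cons_val_zero, Matrix.cons_val_one,
      Matrix.cons_val_fin_one]
    have h1 : (α : ℂ) * g = N * γ 0 0 := by
      exact_mod_cast (by rw [hα, mul_comm] : α * g = N * γ 0 0)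
    have h2 : (α : ℂ) * u - y * D = N * γ 0 1 := by
      have : α * u - y * D = N * γ 0 1 := by rw [hu, hD]; linear_combination N * γ 0 1 * hαβ
      exact_mod_cast this
    push_cast
    field_simp
    linear_combination -(τ : ℂ) * h1 - h2
  set w₂ := a * (-y)
  have hw : ¬ ((N : ℤ) ∣ a * α ∧ (N : ℤ) ∣ w₂) := by
    rintro ⟨h1, h2⟩
    refine ha ?_
    have : a = (a * α) * x - (w₂) * β := by linear_combination -a * hαβ
    rw [this]
    exact dvd_sub (h1.mul_right x) (h2.mul_right β)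
  refine ⟨D', (a * α) % N, w₂, φ, by omega, ?_, fun h1 ↦ ?_, Int.emod_nonneg _ (by
    exact_mod_cast NeZero.ne N), Int.emod_lt_of_pos _ (by exact_mod_cast NeZero.pos N), ?_, hφ,
    fun τ ↦ ?_⟩
  · exact Int.natCast_dvd_natCast.mp ⟨g, by rw [← hgD, hD', mul_comm]⟩
  · have : g = N := by rw [← hgD, hD', h1]; simp
    exact ⟨β, by rw [hβ, this]⟩
  · rintro ⟨h1, h2⟩
    exact hw ⟨Int.dvd_of_emod_eq_zero (by
      rw [Int.dvd_iff_emod_eq_zero, Int.emod_emod_of_dvd _ dvd_rfl] at h1; exact h1), h2⟩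
  · have hcg := divValue_congr (N := N) (u := a * α) (v := w₂) hw (u' := (a * α) % N) (v' := w₂)
      ⟨-((a * α) / N), by rw [Int.emod_def]; ring⟩ (by simp) (φ τ)
    rw [ModularForm.SL_slash_apply, divForm, hsm, divValue_moeb, hcg, zpow_neg_one,
      show ((D' : ℕ) : ℂ) = (D : ℂ) by rw [hD']; simp]
    simp only [δ, Matrix.of_apply, Matrix.cons_val', Matrix.cons_val_zero, Matrix.cons_val_one,
      Matrix.cons_val_fin_one, zero_mul, add_zero, w₂]
    rw [← hrow τ]
    have := denom_ne_zero δ (φ τ)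
    have := neg_two_pi_I_ne_zero
    field_simp
    simp only [δ]
    ring

theorem divForm_congr (ha : ¬ (N : ℤ) ∣ a) {b : ℤ} (h : (N : ℤ) ∣ b - a) :
    divForm N b = divForm N a := by
  funext τ
  rw [divForm, divForm, divValue_congr (u := a) (v := 0) (fun h ↦ ha h.1) h (by simp)]

theorem divForm_slash_Gamma0 (ha : ¬ (N : ℤ) ∣ a) {γ : SL(2, ℤ)} (hγ : γ ∈ Gamma0 N) :
    divForm N a ∣[(1 : ℤ)] γ = divForm N (a * γ 0 0) := by
  rw [Gamma0_mem, ZMod.intCast_zmod_eq_zero_iff_dvd] at hγ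
  obtain ⟨r, hr⟩ := hγ
  have hdet : γ 0 0 * γ 1 1 - γ 0 1 * γ 1 0 = 1 := (Matrix.det_fin_two γ.1).symm.trans γ.2
  let δ : SL(2, ℤ) := ⟨!![γ 0 0, N * γ 0 1; r, γ 1 1], by
    rw [Matrix.det_fin_two_of]; linear_combination hdet + γ 0 1 * hr⟩
  funext τ
  have hrc : (γ 1 0 : ℂ) = N * r := by exact_mod_cast hr
  have hrow : denom δ (scaleH N τ) = denom γ τ := by
    rw [ModularGroup.denom_apply, ModularGroup.denom_apply, hrc]
    simp [δ, scaleH]
    ring
  have hsm : scaleH N (γ • τ) = δ • scaleH N τ := by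
    apply UpperHalfPlane.ext
    refine mul_right_cancel₀ (denom_ne_zero γ τ) ?_
    conv_rhs => rw [← hrow, coe_smul_mul_denom]
    simp only [scaleH, mul_assoc, coe_smul_mul_denom]
    simp [δ]
    ring
  have hndvd : ¬ (N : ℤ) ∣ a * γ 0 0 := by
    intro h
    have hcop : IsCoprime (N : ℤ) (γ 0 0) :=
      ⟨-γ 0 1 * r, γ 1 1, by linear_combination hdet + γ 0 1 * hr⟩
    exact ha (hcop.dvd_of_dvd_mul_right h)
  rw [ModularForm.SL_slash_apply, divForm, divForm, hsm, divValue_moeb, hrow, zpow_neg_one,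
    divValue_congr (u := a * γ 0 0) (v := 0) (fun h ↦ hndvd h.1)
      (by simp [δ]) (by simp [δ, mul_left_comm a (N : ℤ)])]
  have := denom_ne_zero γ τ
  have := neg_two_pi_I_ne_zero
  field_simp

theorem mdiff_divForm (ha : ¬ (N : ℤ) ∣ a) : MDiff (divForm N a) := by
  have hN : (0 : ℤ) < N := by exact_mod_cast NeZero.pos N
  set a' := a % N
  have hcongr : divForm N a = divForm N a' := (divForm_congr ha
    ⟨-(a / N), by simp only [a', Int.emod_def]; ring⟩).symm
  have ha' : ¬ ((N : ℤ) ∣ a' ∧ (N : ℤ) ∣ 0) := fun h ↦ ha (Int.dvd_of_emod_eq_zero (by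
    have := h.1; rw [Int.dvd_iff_emod_eq_zero, Int.emod_emod_of_dvd _ dvd_rfl] at this; exact this))
  rw [hcongr, UpperHalfPlane.mdifferentiable_iff]
  have h := UpperHalfPlane.mdifferentiable_iff.mp
    (mdiff_divValue (v := 0) (Int.emod_nonneg a hN.ne') (Int.emod_lt_of_pos a hN) ha')
  have hmaps : Set.MapsTo (fun z : ℂ ↦ (N : ℂ) * z) upperHalfPlaneSet
      upperHalfPlaneSet := fun z hz ↦ by
    simp only [upperHalfPlaneSet, Set.mem_ofPred_eq] at hz ⊢
    simp only [Complex.mul_im, Complex.natCast_re, Complex.natCast_im, zero_mul, add_zero]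
    exact mul_pos (by exact_mod_cast NeZero.pos N) hz
  have hlin : Differentiable ℂ fun z : ℂ ↦ (N : ℂ) * z := differentiable_id.const_mul _
  refine ((h.comp hlin.differentiableOn hmaps).div_const
    (-(2 * π * Complex.I))).congr fun z hz ↦ ?_
  simp only [Function.comp_apply, divForm, scaleH, ofComplex_apply_of_im_pos (hmaps hz),
    ofComplex_apply_of_im_pos hz]
  rfl

theorem divForm_isMF (ha : ¬ (N : ℤ) ∣ a) : IsMF 1 (Gamma1 N) (divForm N a) := by
  refine ⟨fun γ hγ ↦ ?_, mdiff_divForm ha, fun γ ↦ ?_⟩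
  · have h0 : γ ∈ Gamma0 N := Gamma1_in_Gamma0 N hγ
    rw [divForm_slash_Gamma0 ha h0]
    refine divForm_congr ha ?_
    rw [Gamma1_mem] at hγ
    rw [← ZMod.intCast_zmod_eq_zero_iff_dvd]
    push_cast
    rw [hγ.1, mul_one, sub_self]
  · obtain ⟨D, w₁, w₂, φ, -, -, -, h1, h2, h3, hφ, heq⟩ := divForm_slash ha γ
    refine Filter.IsBoundedUnder.isBigO_one ℝ ?_
    have ht : Tendsto (divForm N a ∣[(1 : ℤ)] γ) atImInfty
        (𝓝 (-(2 * π * Complex.I) * divConst N w₁ w₂ / (-(2 * π * Complex.I)) / D)) := by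
      rw [funext heq]
      exact (((tendsto_divValue h1 h2 h3).comp hφ).div_const _).div_const _
    exact ht.norm.isBoundedUnder_le

/-- The coefficient `#{d ∣ n : d ≡ a} - #{d ∣ n : d ≡ -a}`. -/
def divFormCoeff (N a n : ℕ) : ℤ :=
  if n = 0 then 0
  else (((n.divisors.filter fun d ↦ d % N = a).card : ℤ)
    - (n.divisors.filter fun d ↦ d % N = N - a).card)

/-- The Lambert series of a residue class. -/
theorem hasSum_lambert {a : ℕ} (ha0 : 0 < a) (haN : a < N) {q : ℂ} (hq : ‖q‖ < 1) :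
    HasSum (fun n : ℕ ↦
      (if n = 0 then 0 else (n.divisors.filter fun d ↦ d % N = a).card : ℕ) • q ^ n)
      (∑' p : ℕ × ℕ, q ^ ((p.1 * N + a) * (p.2 + 1))) := by
  classical
  let φ : ℕ × ℕ → ℕ := fun p ↦ (p.1 * N + a) * (p.2 + 1)
  have hs : Summable fun p : ℕ × ℕ ↦ q ^ φ p := by
    refine .of_norm_bounded (g := fun p ↦ ‖q‖ ^ p.1 * ‖q‖ ^ p.2) ?_ fun p ↦ ?_
    · exact (summable_geometric_of_lt_one (norm_nonneg _) hq).mul_of_nonneg
        (summable_geometric_of_lt_one (norm_nonneg _) hq) (fun _ ↦ by positivity)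
          (fun _ ↦ by positivity)
    · rw [norm_pow, ← pow_add]
      refine pow_le_pow_of_le_one (norm_nonneg _) hq.le ?_
      have := Nat.le_mul_of_pos_right p.1 (NeZero.pos N)
      have h1 : p.1 + 1 ≤ p.1 * N + a := by omega
      calc p.1 + p.2 ≤ (p.1 + 1) * (p.2 + 1) := by ring_nf; omega
        _ ≤ φ p := Nat.mul_le_mul_right _ h1
  refine (((Equiv.sigmaFiberEquiv φ).hasSum_iff).mpr hs.hasSum).sigma fun n ↦ ?_
  have hfin : ∀ m k : ℕ, φ (m, k) = n ↔ n ≠ 0 ∧ ∃ d ∈ n.divisors.filter (fun d ↦ d % N = a),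
      d = m * N + a ∧ k + 1 = n / d := by
    intro m k
    constructor
    · rintro rfl
      have hpos : 0 < m * N + a := by omega
      refine ⟨Nat.mul_ne_zero hpos.ne' (Nat.succ_ne_zero k), m * N + a, ?_, rfl, ?_⟩
      · simp only [Finset.mem_filter, Nat.mem_divisors, φ]
        exact ⟨⟨dvd_mul_right _ _, Nat.mul_ne_zero hpos.ne' (Nat.succ_ne_zero k)⟩,
          by rw [add_comm, Nat.add_mul_mod_self_right, Nat.mod_eq_of_lt haN]⟩
      · simp only [φ]
        rw [Nat.mul_div_cancel_left _ hpos]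
    · rintro ⟨-, d, hd, rfl, hk⟩
      simp only [Finset.mem_filter, Nat.mem_divisors] at hd
      simp only [φ]
      rw [hk, Nat.mul_div_cancel' hd.1.1]
  by_cases hn : n = 0
  · subst hn
    have : IsEmpty {p : ℕ × ℕ // φ p = 0} := ⟨fun p ↦ ((hfin p.1.1 p.1.2).mp p.2).1 rfl⟩
    simp [hasSum_empty]
  · rw [if_neg hn]
    let e : {p : ℕ × ℕ // φ p = n} ≃ ↥(n.divisors.filter fun d ↦ d % N = a) :=
      { toFun := fun p ↦ ⟨p.1.1 * N + a, by
          obtain ⟨-, d, hd, he, -⟩ := (hfin p.1.1 p.1.2).mp p.2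
          rwa [← he]⟩
        invFun := fun d ↦ ⟨((d.1 - a) / N, n / d.1 - 1), by
          obtain ⟨hd, hmod⟩ := Finset.mem_filter.mp d.2
          obtain ⟨hdn, -⟩ := Nat.mem_divisors.mp hd
          refine (hfin _ _).mpr ⟨hn, d.1, d.2, ?_, ?_⟩
          · have := Nat.mod_add_div d.1 N
            rw [hmod] at this
            have h2 : (d.1 - a) / N = d.1 / N := by
              rw [show d.1 - a = N * (d.1 / N) by omega, Nat.mul_div_cancel_left _ (NeZero.pos N)]
            rw [h2, mul_comm]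
            omega
          · have h1 : 1 ≤ n / d.1 := Nat.div_pos (Nat.le_of_dvd (Nat.pos_of_ne_zero hn) hdn)
              (Nat.pos_of_dvd_of_pos hdn (Nat.pos_of_ne_zero hn))
            show n / d.1 - 1 + 1 = _
            omega⟩
        left_inv := fun p ↦ by
          obtain ⟨-, d, -, rfl, hk⟩ := (hfin p.1.1 p.1.2).mp p.2
          refine Subtype.ext (Prod.ext ?_ ?_)
          · show (p.1.1 * N + a - a) / N = p.1.1
            rw [Nat.add_sub_cancel, Nat.mul_div_cancel _ (NeZero.pos N)]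
          · show n / (p.1.1 * N + a) - 1 = p.1.2
            omega
        right_inv := fun d ↦ by
          obtain ⟨hd, hmod⟩ := Finset.mem_filter.mp d.2
          refine Subtype.ext ?_
          show (d.1 - a) / N * N + a = d.1
          have := Nat.mod_add_div d.1 N
          rw [hmod] at this
          have h2 : (d.1 - a) / N = d.1 / N := by
            rw [show d.1 - a = N * (d.1 / N) by omega, Nat.mul_div_cancel_left _ (NeZero.pos N)]
          rw [h2, mul_comm]
          omega }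
    have hconst : ∀ p : {p : ℕ × ℕ // φ p = n}, q ^ φ p.1 = q ^ n := fun p ↦ by rw [p.2]
    have : Fintype {p : ℕ × ℕ // φ p = n} := Fintype.ofEquiv _ e.symm
    have := hasSum_fintype fun p : {p : ℕ × ℕ // φ p = n} ↦ q ^ φ p.1
    rw [Finset.sum_congr rfl fun p _ ↦ hconst p, Finset.sum_const, Finset.card_univ,
      Fintype.card_congr e, Fintype.card_coe] at this
    exact this

theorem hasSum_divForm {a : ℕ} (ha0 : 0 < a) (haN : a < N) (τ : ℍ) :
    HasSum (fun n : ℕ ↦ (if n = 0 then 1 / 2 - (a : ℂ) / N else (divFormCoeff N a n : ℂ))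
      • Function.Periodic.qParam (1 : ℝ) τ ^ n) (divForm N a τ) := by
  set q := Function.Periodic.qParam (1 : ℝ) τ with hqdef
  have hq : ‖q‖ < 1 := by simpa [hqdef] using UpperHalfPlane.norm_qParam_lt_one 1 τ
  have hqe : ∀ z : ℂ, ∀ e : ℕ, z = (e : ℂ) * τ → expTau z = q ^ e := by
    rintro z e rfl
    rw [hqdef, Function.Periodic.qParam, ← Complex.exp_nat_mul, expTau]
    congr 1
    push_cast
    ring
  have hnd : ¬ ((N : ℤ) ∣ (a : ℤ) ∧ (N : ℤ) ∣ 0) := fun h ↦ by
    have := Nat.le_of_dvd ha0 (Int.natCast_dvd_natCast.mp h.1)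
    omega
  have h0 : (0 : ℤ) ≤ a := Int.natCast_nonneg a
  have hlt : (a : ℤ) < N := by exact_mod_cast haN
  have hN : (N : ℂ) ≠ 0 := Nat.cast_ne_zero.mpr (NeZero.ne N)
  have hplus : ∀ m : ℕ, expTau (divPoint N a 0 (scaleH N τ) + (m + 1 : ℂ) * (scaleH N τ : ℂ))
      = q ^ ((m + 1) * N + a) := fun m ↦ hqe _ _ (by
    simp [divPoint, scaleH]
    field_simp
    ring)
  have hminus : ∀ m : ℕ, expTau ((m + 1 : ℂ) * (scaleH N τ : ℂ) - divPoint N a 0 (scaleH N τ))
      = q ^ (m * N + (N - a)) := fun m ↦ hqe _ _ (by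
    rw [Nat.cast_add, Nat.cast_mul, Nat.cast_sub haN.le]
    simp [divPoint, scaleH]
    field_simp
    ring)
  have hhead : expTau (divPoint N a 0 (scaleH N τ)) = q ^ a := hqe _ _ (by
    simp [divPoint, scaleH]
    field_simp)
  -- the two Lambert series
  have hA := hasSum_lambert (N := N) ha0 haN hq
  have hB := hasSum_lambert (N := N) (a := N - a) (by omega) (by omega) hq
  have hsA : Summable fun p : ℕ × ℕ ↦ q ^ ((p.1 * N + a) * (p.2 + 1)) := by
    refine .of_norm_bounded (g := fun p ↦ ‖q‖ ^ p.1 * ‖q‖ ^ p.2) ?_ fun p ↦ ?_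
    · exact (summable_geometric_of_lt_one (norm_nonneg _) hq).mul_of_nonneg
        (summable_geometric_of_lt_one (norm_nonneg _) hq) (fun _ ↦ by positivity)
          (fun _ ↦ by positivity)
    · rw [norm_pow, ← pow_add]
      refine pow_le_pow_of_le_one (norm_nonneg _) hq.le ?_
      have := Nat.le_mul_of_pos_right p.1 (NeZero.pos N)
      have h1 : p.1 + 1 ≤ p.1 * N + a := by omega
      calc p.1 + p.2 ≤ (p.1 + 1) * (p.2 + 1) := by ring_nf; omega
        _ ≤ _ := Nat.mul_le_mul_right _ h1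
  have hsB : Summable fun p : ℕ × ℕ ↦ q ^ ((p.1 * N + (N - a)) * (p.2 + 1)) := by
    refine .of_norm_bounded (g := fun p ↦ ‖q‖ ^ p.1 * ‖q‖ ^ p.2) ?_ fun p ↦ ?_
    · exact (summable_geometric_of_lt_one (norm_nonneg _) hq).mul_of_nonneg
        (summable_geometric_of_lt_one (norm_nonneg _) hq) (fun _ ↦ by positivity)
          (fun _ ↦ by positivity)
    · rw [norm_pow, ← pow_add]
      refine pow_le_pow_of_le_one (norm_nonneg _) hq.le ?_
      have := Nat.le_mul_of_pos_right p.1 (NeZero.pos N)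
      have h1 : p.1 + 1 ≤ p.1 * N + (N - a) := by omega
      calc p.1 + p.2 ≤ (p.1 + 1) * (p.2 + 1) := by ring_nf; omega
        _ ≤ _ := Nat.mul_le_mul_right _ h1
  -- peel the head
  have hval : divForm N a τ = 1 / 2 - (a : ℂ) / N
      + ((∑' p : ℕ × ℕ, q ^ ((p.1 * N + a) * (p.2 + 1)))
        - ∑' p : ℕ × ℕ, q ^ ((p.1 * N + (N - a)) * (p.2 + 1))) := by
    have hgeo : geo (q ^ a) = ∑' k : ℕ, q ^ (a * (k + 1)) := by
      have hlt' : ‖q ^ a‖ < 1 := by rw [norm_pow]; exact pow_lt_one₀ (norm_nonneg _) hq (by omega)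
      simp only [pow_mul, pow_succ']
      rw [tsum_mul_left, tsum_geometric_of_norm_lt_one hlt', geo, div_eq_mul_inv]
    have hshift : ∑' p : ℕ × ℕ, q ^ ((p.1 * N + a) * (p.2 + 1))
        = geo (q ^ a) + ∑' p : ℕ × ℕ, q ^ (((p.1 + 1) * N + a) * (p.2 + 1)) := by
      have hs' : Summable fun p : ℕ × ℕ ↦ q ^ (((p.1 + 1) * N + a) * (p.2 + 1)) :=
        hsA.comp_injective (i := fun p : ℕ × ℕ ↦ (p.1 + 1, p.2)) fun x y h ↦ by
          simp only [Prod.mk.injEq, add_left_inj] at h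
          exact Prod.ext h.1 h.2
      rw [hsA.tsum_prod, hs'.tsum_prod, hsA.prod.tsum_eq_zero_add, hgeo]
      simp
    have htail : ∑' p, tailTerm N a 0 (scaleH N τ) p
        = (∑' p : ℕ × ℕ, q ^ (((p.1 + 1) * N + a) * (p.2 + 1)))
          - ∑' p : ℕ × ℕ, q ^ ((p.1 * N + (N - a)) * (p.2 + 1)) := by
      have hs' : Summable fun p : ℕ × ℕ ↦ q ^ (((p.1 + 1) * N + a) * (p.2 + 1)) :=
        hsA.comp_injective (i := fun p : ℕ × ℕ ↦ (p.1 + 1, p.2)) fun x y h ↦ by
          simp only [Prod.mk.injEq, add_left_inj] at h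
          exact Prod.ext h.1 h.2
      rw [← hs'.tsum_sub hsB]
      refine tsum_congr fun p ↦ ?_
      simp only [tailTerm, hplus, hminus, ← pow_mul]
    have ha' : ¬ ((a : ℤ) = 0) := by omega
    rw [divForm, divValue_eq h0 hlt hnd, mul_div_cancel_left₀ _ neg_two_pi_I_ne_zero, divConst,
      divTail, if_neg ha', if_neg ha', hhead, htail, hshift]
    push_cast
    ring
  rw [hval]
  refine ((hasSum_ite_eq 0 (1 / 2 - (a : ℂ) / N)).add (hA.sub hB)).congr_fun fun n ↦ ?_
  rcases eq_or_ne n 0 with rfl | hn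
  · simp
  · simp only [if_neg hn, divFormCoeff, zero_add, nsmul_eq_mul, smul_eq_mul]
    push_cast
    ring

end FLTAgent.DeligneSerre
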