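import Mathlib
import Fermat.Agent.DeligneSerre.EisensteinOne

set_option autoImplicit false

/-!
# A separating form for `Γ₁(N)`, `N ≥ 3`, and its consequences

`isSeparating_divForm`: the weight one Eisenstein series `divForm N 1` is separating for `Γ₁(N)`,
the input of the descent and finiteness statements for weight one forms in `Systems`.
-/

noncomputable section

open UpperHalfPlane Filter Complex Real CongruenceSubgroup
open scoped Topology MatrixGroups Manifold ModularForm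

namespace FLTAgent.DeligneSerre

open FLTAgent.MFIntegral

variable {N : ℕ} [NeZero N] {a : ℕ}

theorem tendsto_divForm (ha0 : 0 < a) (haN : a < N) :
    Tendsto (divForm N a) atImInfty (𝓝 (1 / 2 - (a : ℂ) / N)) := by
  have hnd : ¬ ((N : ℤ) ∣ (a : ℤ) ∧ (N : ℤ) ∣ 0) := fun h ↦ by
    have := Nat.le_of_dvd ha0 (Int.natCast_dvd_natCast.mp h.1)
    omega
  have h := ((tendsto_divValue (N := N) (Int.natCast_nonneg a) (by exact_mod_cast haN) hnd).comp
    (tendsto_scaleH (N := N))).div_const (-(2 * π * Complex.I))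
  rw [mul_div_cancel_left₀ _ neg_two_pi_I_ne_zero, divConst, if_neg (by omega : ¬ (a : ℤ) = 0),
    add_zero, Int.cast_natCast] at h
  exact h

omit [NeZero N] in
theorem T_mem_Gamma1 : ModularGroup.T ∈ Gamma1 N := by
  simp [ModularGroup.coe_T]

omit [NeZero N] in
theorem re_half_add_geo {w : ℂ} (hw : ‖w‖ = 1) (hw1 : w ≠ 1) : (1 / 2 + geo w).re = 0 := by
  have h : 1 - w ≠ 0 := sub_ne_zero.mpr (Ne.symm hw1)
  have e : 1 / 2 + geo w = (1 + w) / (1 - w) / 2 := by
    rw [geo]
    field_simp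
    ring
  have hn : w.re * w.re + w.im * w.im = 1 := by
    have := congrArg (· ^ 2) hw
    simpa [← Complex.normSq_eq_norm_sq, Complex.normSq_apply] using this
  rw [e, Complex.div_ofNat_re, Complex.div_re]
  simp only [Complex.add_re, Complex.sub_re, Complex.add_im, Complex.sub_im, Complex.one_re,
    Complex.one_im, zero_add, zero_sub]
  rw [← add_div, div_eq_zero_iff, div_eq_zero_iff]
  left; left
  linear_combination -hn

theorem divForm_isBD (ha0 : 0 < a) (haN : a < N) : IsBD (qE (divForm N (a : ℤ))) := by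
  have hnd : ¬ (N : ℤ) ∣ (a : ℤ) := fun h ↦ by
    have := Nat.le_of_dvd ha0 (Int.natCast_dvd_natCast.mp h)
    omega
  have hc : ∀ n, PowerSeries.coeff n (qE (divForm N (a : ℤ)))
      = if n = 0 then 1 / 2 - (a : ℂ) / N else (divFormCoeff N a n : ℂ) := fun n ↦
    (ModularFormClass.qExpansion_coeff_unique (f := (divForm_isMF hnd).toMF)
      (Γ := (Gamma1 N : Subgroup (GL (Fin 2) ℝ))) (k := (1 : ℤ)) one_pos
      (by simp) (hasSum_divForm ha0 haN) n).symm
  refine ⟨2 * N, by have := NeZero.pos N; omega, mem_intSeries_iff.mpr fun n ↦ ?_⟩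
  rw [PowerSeries.coeff_C_mul, hc]
  split_ifs with h
  · refine ⟨(N : ℤ) - 2 * a, ?_⟩
    have hN : (N : ℂ) ≠ 0 := Nat.cast_ne_zero.mpr (NeZero.ne N)
    push_cast
    field_simp
  · exact ⟨2 * N * divFormCoeff N a n, by push_cast; rfl⟩

theorem isSeparating_divForm (hN : 3 ≤ N) : IsSeparating 1 (Gamma1 N) (divForm N 1) := by
  have hnd : ¬ (N : ℤ) ∣ (1 : ℤ) := fun h ↦ by
    have := Int.le_of_dvd one_pos h
    omega
  refine ⟨divForm_isMF hnd, by simpa using divForm_isBD (N := N) (a := 1) one_pos (by omega),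
    fun γ hγ ↦ ?_⟩
  have hlim : Tendsto (divForm N 1) atImInfty (𝓝 (1 / 2 - 1 / (N : ℂ))) := by
    simpa using tendsto_divForm (N := N) (a := 1) one_pos (by omega)
  have : NeBot (atImInfty : Filter ℍ) := by
    refine comap_neBot fun t ht ↦ ?_
    obtain ⟨b, hb⟩ := mem_atTop_sets.1 ht
    exact ⟨⟨⟨0, max b 1⟩, by simp⟩, hb _ (le_max_left _ _)⟩
  have hN3 : (3 : ℝ) ≤ N := by exact_mod_cast hN
  have hpos : 0 < 1 / 2 - 1 / (N : ℝ) := by
    rw [sub_pos]
    exact one_div_lt_one_div_of_lt two_pos (by linarith)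
  obtain ⟨D, w₁, w₂, φ, hD0, -, hD1, h1, h2, h3, hφ, heq⟩ := divForm_slash hnd γ
  rw [hγ] at heq
  have hlim' : Tendsto (divForm N 1) atImInfty (𝓝 (divConst N w₁ w₂ / D)) := by
    have h := (((tendsto_divValue h1 h2 h3).comp hφ).div_const
      (-(2 * π * Complex.I))).div_const (D : ℂ)
    rw [mul_div_cancel_left₀ _ neg_two_pi_I_ne_zero] at h
    exact h.congr fun τ ↦ (heq τ).symm
  have hval := tendsto_nhds_unique hlim' hlim
  have hre := congrArg Complex.re hval
  have hre' : (1 / 2 - 1 / (N : ℂ)).re = 1 / 2 - 1 / (N : ℝ) := by simp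
  rw [hre', Complex.div_natCast_re] at hre
  by_cases hw : w₁ = 0
  · exfalso
    subst hw
    have hv : ¬ (N : ℤ) ∣ w₂ := fun h ↦ h3 ⟨dvd_zero _, h⟩
    have hn : ‖expTau ((w₂ : ℂ) / N)‖ = 1 := by
      simp [norm_expTau, Complex.div_natCast_im]
    have hne : expTau ((w₂ : ℂ) / N) ≠ 1 := by
      intro he
      obtain ⟨j, hj⟩ := expTau_eq_one_iff.mp he
      rw [div_eq_iff (Nat.cast_ne_zero.mpr (NeZero.ne N))] at hj
      exact hv ⟨j, by rw [mul_comm]; exact_mod_cast hj⟩
    have hz : (divConst N 0 w₂).re = 0 := by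
      rw [divConst, if_pos rfl, Int.cast_zero, zero_div, sub_zero]
      exact re_half_add_geo hn hne
    rw [hz, zero_div] at hre
    linarith
  have hc : (divConst N w₁ w₂).re = 1 / 2 - (w₁ : ℝ) / N := by
    simp [divConst, hw, Complex.div_natCast_re]
  rw [hc] at hre
  have hw1 : (1 : ℝ) ≤ w₁ := by exact_mod_cast (by omega : (1 : ℤ) ≤ w₁)
  have hle : 1 / 2 - (w₁ : ℝ) / N ≤ 1 / 2 - 1 / (N : ℝ) := by gcongr
  have hD : D = 1 := by
    by_contra h
    have hD2 : (2 : ℝ) ≤ D := by exact_mod_cast (by omega : 2 ≤ D)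
    rw [div_eq_iff (by positivity)] at hre
    nlinarith
  have h0 : γ ∈ Gamma0 N := by
    rw [Gamma0_mem, ZMod.intCast_zmod_eq_zero_iff_dvd]
    exact hD1 hD
  rw [divForm_slash_Gamma0 hnd h0, one_mul] at hγ
  set b := γ 0 0 % (N : ℤ) with hb
  have hbN : b < N := Int.emod_lt_of_pos _ (by omega)
  have hb0 : 0 ≤ b := Int.emod_nonneg _ (by omega)
  have hdet : γ 0 0 * γ 1 1 - γ 0 1 * γ 1 0 = 1 := (Matrix.det_fin_two γ.1).symm.trans γ.2
  have hnd' : ¬ (N : ℤ) ∣ γ 0 0 := by
    intro h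
    refine hnd ?_
    rw [← hdet]
    exact dvd_sub (h.mul_right _) ((hD1 hD).mul_left _)
  have hbpos : 0 < b := by
    rcases hb0.lt_or_eq with h | h
    · exact h
    · exact absurd (Int.dvd_of_emod_eq_zero h.symm) hnd'
  obtain ⟨b', hb'⟩ := Int.eq_ofNat_of_zero_le hb0
  have hcong : divForm N (b' : ℤ) = divForm N 1 := by
    rw [← hb', divForm_congr hnd' ⟨-(γ 0 0 / N), by rw [hb, Int.emod_def]; ring⟩, hγ]
  have hlimb := tendsto_divForm (N := N) (a := b') (by omega) (by omega)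
  rw [hcong] at hlimb
  have e := tendsto_nhds_unique hlimb hlim
  have hb1 : b' = 1 := by
    have hN0 : (N : ℂ) ≠ 0 := Nat.cast_ne_zero.mpr (NeZero.ne N)
    field_simp at e
    have e' : (b' : ℂ) = 1 := by linear_combination (-1 / 2 : ℂ) * e
    exact_mod_cast e'
  have h00 : ((γ 0 0 : ℤ) : ZMod N) = 1 := by
    rw [← ZMod.intCast_mod, ← hb, hb', hb1]
    simp
  rw [Gamma1_mem]
  rw [Gamma0_mem] at h0
  refine ⟨h00, ?_, h0⟩
  have := congrArg (fun z : ℤ ↦ (z : ZMod N)) hdet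
  push_cast at this
  rw [h00, h0, one_mul, mul_zero, sub_zero] at this
  exact this

end FLTAgent.DeligneSerre
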