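import Mathlib
import Fermat.Agent.DeligneSerre.Separating
import Fermat.Agent.DeligneSerre.Orbit
import Fermat.Agent.MFIntegral.Descent
import Fermat.Prelude.Thm_ModularForm_sturm_bound_of_isArithmetic

set_option autoImplicit false

/-!
# Systems of Hecke eigenvalues of weight one forms: finiteness and integrality

`cfSpace N` is the finite-dimensional space of coefficient sequences of weight one cusp forms on
`Γ₁(N)`, stable under the automorphisms of `ℂ`. An eigen-system has finitely many conjugates,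
integral values and an eigenform with bounded denominators (`exists_algebraic_eigen`).
-/

noncomputable section

open UpperHalfPlane CongruenceSubgroup Filter
open scoped MatrixGroups ModularForm Manifold Topology

namespace FLTAgent.DeligneSerre

open FLTAgent.MFIntegral

variable {N : ℕ}

/-- The relations of a normalised eigen-sequence away from the level. -/
def HeckeRel (N : ℕ) (ε : ZMod N → ℂ) (a : ℕ → ℂ) : Prop :=
  ∀ q : ℕ, q.Prime → ¬ q ∣ N → ∀ n : ℕ,
    a (q * n) + ε (q : ZMod N) * (if q ∣ n then a (n / q) else 0) = a q * a n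

/-- The primes not dividing the level. -/
abbrev GoodPrime (N : ℕ) : Type := {q : ℕ // q.Prime ∧ ¬ q ∣ N}

/-- All eigenvalues and all values of the character as one family. -/
def sysVal (ε : ZMod N → ℂ) (a : ℕ → ℂ) : ZMod N ⊕ GoodPrime N → ℂ :=
  Sum.elim ε fun q ↦ a q

theorem HeckeRel.map {ε : ZMod N → ℂ} {a : ℕ → ℂ} (h : HeckeRel N ε a) (σ : ℂ ≃+* ℂ) :
    HeckeRel N (fun x ↦ σ (ε x)) (fun n ↦ σ (a n)) := by
  intro q hq hqN n
  have := congrArg σ (h q hq hqN n)
  rw [map_add, map_mul, map_mul] at this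
  split_ifs at this ⊢ <;> simpa using this

theorem HeckeRel.mul_prime {ε : ZMod N → ℂ} {a : ℕ → ℂ} (h : HeckeRel N ε a) {q : ℕ}
    (hq : q.Prime) (hqN : ¬ q ∣ N) {n : ℕ} (hn : ¬ q ∣ n) : a (q * n) = a q * a n := by
  simpa [hn] using h q hq hqN n

/-- The coefficient sequences of weight one cusp forms on `Γ₁(N)`. -/
def cfSpace (N : ℕ) : Submodule ℂ (ℕ → ℂ) where
  carrier := {a | ∃ g, IsCF 1 (Gamma1 N) g ∧ ∀ n, PowerSeries.coeff n (qE g) = a n}
  zero_mem' := ⟨0, ⟨isMF_zero, fun γ ↦ by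
    rw [SlashAction.zero_slash]; exact tendsto_const_nhds⟩, fun n ↦ by rw [qE_zero]; simp⟩
  add_mem' := by
    rintro a b ⟨g, hg, hga⟩ ⟨g', hg', hgb⟩
    refine ⟨g + g', ⟨hg.1.add hg'.1, fun γ ↦ ?_⟩, fun n ↦ ?_⟩
    · rw [SlashAction.add_slash]
      simpa [IsZeroAtImInfty] using (hg.2 γ).add (hg'.2 γ)
    · rw [qE_add (hg.1.mem_PB T_mem_Gamma1) (hg'.1.mem_PB T_mem_Gamma1), map_add, hga, hgb,
        Pi.add_apply]
  smul_mem' := by
    rintro c a ⟨g, hg, hga⟩
    refine ⟨c • g, ⟨hg.1.smul c, fun γ ↦ ?_⟩, fun n ↦ ?_⟩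
    · rw [ModularForm.SL_smul_slash]
      exact (hg.2 γ).smul c
    · rw [qE_smul (hg.1.mem_PB T_mem_Gamma1), map_smul, hga, Pi.smul_apply]

theorem mem_cfSpace_of_cuspForm [NeZero N] (f : CuspForm (Gamma1 N) 1) :
    ModularFormClass.qCoeff f ∈ cfSpace N :=
  ⟨f, isCF_of_cuspForm f, fun _ ↦ rfl⟩

/-- A nonzero weight one form forces the level to be at least three. -/
theorem three_le_level [NeZero N] {a : ℕ → ℂ} (ha : a ∈ cfSpace N) (h0 : a ≠ 0) : 3 ≤ N := by
  by_contra hlt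
  obtain ⟨g, hg, hga⟩ := ha
  have hN2 : N ∣ 2 := by
    have := NeZero.pos N
    interval_cases N <;> norm_num
  have hmem : (-1 : SL(2, ℤ)) ∈ Gamma1 N := by
    have h : ((-1 : ℤ) : ZMod N) = ((1 : ℤ) : ZMod N) :=
      (ZMod.intCast_eq_intCast_iff_dvd_sub _ _ _).mpr (by norm_num; exact_mod_cast hN2)
    rw [Gamma1_mem]
    refine ⟨?_, ?_, ?_⟩ <;> simp [Matrix.SpecialLinearGroup.coe_neg] <;> simpa using h
  have h := hg.1.slash _ hmem
  have hg0 : g = 0 := by
    funext τ
    have hτ := congrFun h τ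
    rw [ModularForm.SL_slash_apply] at hτ
    have e : ((-1 : SL(2, ℤ)) • τ : ℍ) = τ := by simp
    rw [e] at hτ
    have hd : denom (Matrix.SpecialLinearGroup.toGL
        (Matrix.SpecialLinearGroup.map (Int.castRingHom ℝ) (-1 : SL(2, ℤ)))) τ = -1 := by
      simp [denom, Matrix.SpecialLinearGroup.coe_neg]
    rw [hd] at hτ
    simp at hτ
    simpa using self_eq_neg.mp hτ.symm
  refine h0 (funext fun n ↦ ?_)
  rw [← hga, hg0, qE_zero]
  simp

/-- Finitely many coefficients determine the form. -/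
theorem exists_coeff_bound (N : ℕ) [NeZero N] :
    ∃ B : ℕ, ∀ a ∈ cfSpace N, (∀ n < B, a n = 0) → a = 0 := by
  refine ⟨((1 : ℤ) * ((Gamma1 N : Subgroup (GL (Fin 2) ℝ)).relIndex 𝒮ℒ : ℤ)).toNat / 12 + 1,
    fun a ha h ↦ ?_⟩
  obtain ⟨g, hg, hga⟩ := ha
  have hz : hg.1.toMF = 0 := by
    refine ModularForm.sturm_bound_of_isArithmetic (by simp) ?_
    refine lt_of_lt_of_le (ENat.natCast_lt_natCast.mpr (Nat.lt_succ_self _)) ?_
    refine PowerSeries.nat_le_order _ _ fun i hi ↦ ?_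
    rw [IsMF.coe_toMF]
    exact (hga i).trans (h i hi)
  have hg0 : g = 0 := by
    simpa using congrArg (fun F : ModularForm (Gamma1 N) 1 ↦ (F : ℍ → ℂ)) hz
  funext n
  rw [← hga, hg0, qE_zero]
  simp

instance finiteDimensional_cfSpace [NeZero N] : FiniteDimensional ℂ (cfSpace N) := by
  obtain ⟨B, hB⟩ := exists_coeff_bound N
  let L : cfSpace N →ₗ[ℂ] (Fin B → ℂ) :=
    { toFun := fun a i ↦ (a : ℕ → ℂ) i
      map_add' := fun _ _ ↦ rfl
      map_smul' := fun _ _ ↦ rfl }
  refine FiniteDimensional.of_injective L ?_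
  rw [← LinearMap.ker_eq_bot, LinearMap.ker_eq_bot']
  intro a ha
  exact Subtype.ext (hB a a.2 fun n hn ↦ congrFun ha ⟨n, hn⟩)

/-- The conjugate of a form. -/
theorem conj_mem_cfSpace [NeZero N] (hN : 3 ≤ N) {a : ℕ → ℂ} (ha : a ∈ cfSpace N) (σ : ℂ ≃+* ℂ) :
    (fun n ↦ σ (a n)) ∈ cfSpace N := by
  obtain ⟨g, hg, hga⟩ := ha
  obtain ⟨g', -, hq, hcf⟩ := exists_conj T_mem_Gamma1 (isSeparating_divForm hN) hg.1 σ
  exact ⟨g', hcf hg, fun n ↦ by rw [hq, PowerSeries.coeff_map, hga]; rfl⟩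

/-- Simultaneous eigenvectors with distinct systems of eigenvalues are independent. -/
theorem linearIndependent_of_eigen {ι κ M : Type*} [AddCommGroup M] [Module ℂ M]
    (T : κ → M →ₗ[ℂ] M) (v : ι → M) (χ : ι → κ → ℂ) (hv : ∀ i, v i ≠ 0)
    (heig : ∀ i k, T k (v i) = χ i k • v i) (hχ : Function.Injective χ) :
    LinearIndependent ℂ v := by
  classical
  rw [linearIndependent_iff']
  intro s
  induction s using Finset.induction_on with
  | empty => simp
  | insert a s has ih =>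
    intro g hsum i hi
    rw [Finset.sum_insert has] at hsum
    have hzero : ∀ j ∈ s, g j = 0 := by
      intro j hj
      obtain ⟨k, hk⟩ := Function.ne_iff.mp (fun h ↦ has (hχ h ▸ hj) : χ j ≠ χ a)
      have h1 := congrArg (T k) hsum
      have h2 := congrArg (χ a k • ·) hsum
      simp only [map_add, map_sum, map_smul, map_zero, heig, smul_add, Finset.smul_sum, smul_zero,
        smul_smul] at h1 h2
      have h3 : ∑ x ∈ s, (g x * (χ x k - χ a k)) • v x = 0 := by
        simp only [mul_sub, sub_smul, Finset.sum_sub_distrib]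
        rw [sub_eq_zero]
        have := h1.trans h2.symm
        rw [mul_comm (χ a k) (g a)] at this
        rw [add_left_cancel this]
        exact Finset.sum_congr rfl fun x _ ↦ by rw [mul_comm]
      exact (mul_eq_zero.mp (ih _ h3 j hj)).resolve_right (sub_ne_zero.mpr hk)
    rcases Finset.mem_insert.mp hi with rfl | hi
    · rw [Finset.sum_eq_zero fun x hx ↦ by rw [hzero x hx, zero_smul], add_zero] at hsum
      exact (smul_eq_zero.mp hsum).resolve_right (hv i)
    · exact hzero i hi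

theorem finite_range_aut_char [NeZero N] (ε : DirichletCharacter ℂ N) :
    (Set.range fun σ : ℂ ≃+* ℂ ↦ fun x : ZMod N ↦ σ (ε x)).Finite := by
  let S : Set ℂ := insert 0 {y | y ^ Fintype.card (ZMod N)ˣ = 1}
  have hS : S.Finite := by
    refine Set.Finite.insert 0 ((Polynomial.nthRoots (Fintype.card (ZMod N)ˣ)
      (1 : ℂ)).toFinset.finite_toSet.subset ?_)
    intro y hy
    rw [Finset.mem_coe, Multiset.mem_toFinset, Polynomial.mem_nthRoots Fintype.card_pos]
    exact hy
  refine (Set.Finite.pi fun _ : ZMod N ↦ hS).subset ?_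
  rintro _ ⟨σ, rfl⟩ x -
  by_cases hx : IsUnit x
  · refine Set.mem_insert_of_mem _ ?_
    obtain ⟨u, rfl⟩ := hx
    show σ (ε u) ^ _ = 1
    rw [← map_pow, ← map_pow, ← Units.val_pow_eq_pow_val, pow_card_eq_one, Units.val_one, map_one,
      map_one]
  · simp [S, MulChar.map_nonunit _ hx]

/-- The systems conjugate to a given one are finite in number. -/
theorem finite_range_sys [NeZero N] {ε : DirichletCharacter ℂ N} {a : ℕ → ℂ} (ha : a ∈ cfSpace N)
    (h1 : a 1 = 1) (hrel : HeckeRel N ε a) :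
    (Set.range fun σ : ℂ ≃+* ℂ ↦ fun i ↦ σ (sysVal ε a i)).Finite := by
  classical
  have hN : 3 ≤ N := three_le_level ha fun h ↦ by simp [h] at h1
  set Rg := Set.range fun σ : ℂ ≃+* ℂ ↦ fun i ↦ σ (sysVal (ε : ZMod N → ℂ) a i) with hRg
  refine Set.Finite.of_finite_fibers (fun s x ↦ s (Sum.inl x)) ((finite_range_aut_char ε).subset ?_)
    fun e _ ↦ ?_
  · rintro _ ⟨_, ⟨σ, rfl⟩, rfl⟩
    exact ⟨σ, rfl⟩
  · by_contra hinf
    obtain ⟨t, ht, hcard⟩ := (show (Rg ∩ (fun s x ↦
        s (Sum.inl x)) ⁻¹' {e}).Infinite from hinf).exists_subset_card_eq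
      (Module.finrank ℂ (cfSpace N) + 1)
    choose σ hσ using fun s : t ↦ (ht s.2).1
    have he : ∀ s : t, ∀ x, σ s (ε x) = e x := fun s x ↦ by
      have h3 : (fun x ↦ (s : ZMod N ⊕ GoodPrime N → ℂ) (Sum.inl x)) = e := (ht s.2).2
      rw [← congrFun h3 x, ← hσ s]
      rfl
    let T : GoodPrime N → (ℕ → ℂ) →ₗ[ℂ] (ℕ → ℂ) := fun q ↦
      { toFun := fun b n ↦ b (q.1 * n) + e (q.1 : ZMod N) * (if q.1 ∣ n then b (n / q.1) else 0)
        map_add' := fun b c ↦ funext fun n ↦ by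
          simp only [Pi.add_apply]
          split_ifs <;> ring
        map_smul' := fun c b ↦ funext fun n ↦ by
          simp only [Pi.smul_apply, smul_eq_mul, RingHom.id_apply]
          split_ifs <;> ring }
    let v : t → cfSpace N := fun s ↦ ⟨_, conj_mem_cfSpace hN ha (σ s)⟩
    have hind : LinearIndependent ℂ ((cfSpace N).subtype ∘ v) := by
      refine linearIndependent_of_eigen T _ (fun (s : t) (q : GoodPrime N) ↦ σ s (a q))
        (fun s h ↦ ?_)
        (fun s q ↦ funext fun n ↦ ?_) (fun s s' h ↦ ?_)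
      · have := congrFun h 1
        simp [v, h1] at this
      · simp only [T, v, Function.comp_apply, Submodule.coe_subtype, LinearMap.coe_mk,
          AddHom.coe_mk, Pi.smul_apply, smul_eq_mul]
        rw [← he s]
        exact (hrel.map (σ s)) q q.2.1 q.2.2 n
      · refine Subtype.ext (funext fun i ↦ ?_)
        rcases i with x | q
        · have h3 : (fun x ↦ (s : ZMod N ⊕ GoodPrime N → ℂ) (Sum.inl x)) = e := (ht s.2).2
          have h4 : (fun x ↦ (s' : ZMod N ⊕ GoodPrime N → ℂ) (Sum.inl x)) = e := (ht s'.2).2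
          exact congrFun (h3.trans h4.symm) x
        · rw [← hσ s, ← hσ s']
          exact congrFun h q
    have := (hind.of_comp).fintype_card_le_finrank
    rw [Fintype.card_coe, hcard] at this
    omega

/-- A retraction of `ℂ` onto the algebraic numbers, linear over them. -/
theorem exists_retraction :
    ∃ l : ℂ → ℂ, (∀ x y, l (x + y) = l x + l y) ∧ (∀ c x, IsAlgebraic ℚ c → l (c * x) = c * l x) ∧
      l 1 = 1 ∧ ∀ x, IsAlgebraic ℚ (l x) := by
  let K := algebraicClosure ℚ ℂ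
  obtain ⟨g, hg⟩ := (Algebra.linearMap K ℂ).exists_leftInverse_of_injective
    (LinearMap.ker_eq_bot.mpr (algebraMap K ℂ).injective)
  refine ⟨fun x ↦ (g x : ℂ), fun x y ↦ by simp, fun c x hc ↦ ?_, ?_,
    fun x ↦ mem_algebraicClosure_iff.mp (g x).2⟩
  · let c' : K := ⟨c, mem_algebraicClosure_iff.mpr hc⟩
    show ((g (c' • x) : K) : ℂ) = _
    rw [map_smul]
    rfl
  · have := congrFun (congrArg DFunLike.coe hg) 1
    simp at this
    simp [this]

theorem exists_den {x : ℂ} (hx : IsAlgebraic ℚ x) :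
    ∃ D : ℤ, D ≠ 0 ∧ IsIntegral ℤ ((D : ℂ) * x) := by
  obtain ⟨y, hy, hint⟩ := ((IsFractionRing.isAlgebraic_iff ℤ ℚ ℂ).mpr hx).exists_integral_multiple
  exact ⟨y, hy, by rwa [← zsmul_eq_mul]⟩

/-- The space is spanned by rational sequences with bounded denominators. -/
theorem retraction_mem [NeZero N] (hN : 3 ≤ N) {l : ℂ → ℂ} (hadd : ∀ x y, l (x + y) = l x + l y)
    (hmul : ∀ c x, IsAlgebraic ℚ c → l (c * x) = c * l x) (halg : ∀ x, IsAlgebraic ℚ (l x))
    {a : ℕ → ℂ} (ha : a ∈ cfSpace N) :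
    ((fun n ↦ l (a n)) ∈ cfSpace N) ∧ ∃ D : ℤ, D ≠ 0 ∧ ∀ n, IsIntegral ℤ ((D : ℂ) * l (a n)) := by
  classical
  obtain ⟨B, hB⟩ := exists_coeff_bound N
  have hspan := span_rational_eq_top (cfSpace N).subtype B
    (fun f hf ↦ Subtype.ext (hB f f.2 hf))
    (fun σ f ↦ ⟨⟨_, conj_mem_cfSpace hN f.2 σ⟩, fun n ↦ rfl⟩)
  have hl0 : l 0 = 0 := by
    have := hadd 0 0
    rw [add_zero] at this
    exact left_eq_add.mp this
  suffices H : ∀ v : cfSpace N, ∀ c : ℂ, (fun n ↦ l (c * (v : ℕ → ℂ) n)) ∈ cfSpace N ∧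
      ∃ D : ℤ, D ≠ 0 ∧ ∀ n, IsIntegral ℤ ((D : ℂ) * l (c * (v : ℕ → ℂ) n)) by
    simpa using H ⟨a, ha⟩ 1
  intro v
  have hv : v ∈ Submodule.span ℂ {f : cfSpace N | ∀ n, ∃ r : ℚ, (cfSpace N).subtype f n = r} := by
    rw [hspan]; trivial
  induction hv using Submodule.span_induction with
  | mem x hx =>
    intro c
    obtain ⟨g, hg, hgx⟩ := x.2
    obtain ⟨d, hd, hint⟩ := isBD_of_rational T_mem_Gamma1 (isSeparating_divForm hN) hg.1
      (fun n ↦ by obtain ⟨r, hr⟩ := hx n; exact ⟨r, (hgx n).trans hr⟩)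
    obtain ⟨D, hD, hDc⟩ := exists_den (halg c)
    have hlin : ∀ n, l (c * (x : ℕ → ℂ) n) = l c * (x : ℕ → ℂ) n := fun n ↦ by
      obtain ⟨r, hr⟩ := hx n
      rw [show (x : ℕ → ℂ) n = (r : ℂ) from hr, mul_comm c,
        hmul _ _ (isAlgebraic_ratCast ℚ r), mul_comm]
    refine ⟨?_, d * D, mul_ne_zero hd hD, fun n ↦ ?_⟩
    · have : (fun n ↦ l (c * (x : ℕ → ℂ) n)) = l c • (x : ℕ → ℂ) := funext hlin
      rw [this]
      exact Submodule.smul_mem _ _ x.2
    · obtain ⟨m, hm⟩ := mem_intSeries_iff.mp hint n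
      rw [PowerSeries.coeff_C_mul, hgx] at hm
      rw [hlin, Int.cast_mul, show (d : ℂ) * D * (l c * (x : ℕ → ℂ) n)
        = ((D : ℂ) * l c) * ((d : ℂ) * (x : ℕ → ℂ) n) by ring, hm]
      exact hDc.mul (isIntegral_algebraMap (x := m))
  | zero =>
    intro c
    refine ⟨?_, 1, one_ne_zero, fun n ↦ by simp [hl0, isIntegral_zero]⟩
    simp [hl0]
    exact (cfSpace N).zero_mem
  | add x y _ _ ihx ihy =>
    intro c
    obtain ⟨hx, D, hD, hDx⟩ := ihx c
    obtain ⟨hy, D', hD', hDy⟩ := ihy c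
    refine ⟨?_, D * D', mul_ne_zero hD hD', fun n ↦ ?_⟩
    · have := add_mem hx hy
      convert this using 1
      funext n
      simp [mul_add, hadd]
    · simp only [Submodule.coe_add, Pi.add_apply, mul_add, hadd, Int.cast_mul]
      refine IsIntegral.add ?_ ?_
      · rw [mul_comm (D : ℂ), mul_assoc]
        exact (isIntegral_algebraMap (x := D')).mul (hDx n)
      · rw [mul_assoc]
        exact (isIntegral_algebraMap (x := D)).mul (hDy n)
  | smul d x _ ih =>
    intro c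
    simpa [mul_assoc] using ih (c * d)

theorem isIntegral_char [NeZero N] (ε : DirichletCharacter ℂ N) (x : ZMod N) :
    IsIntegral ℤ (ε x) := by
  by_cases hx : IsUnit x
  · obtain ⟨u, rfl⟩ := hx
    refine IsIntegral.of_pow (Fintype.card_pos (α := (ZMod N)ˣ)) ?_
    rw [← map_pow, ← Units.val_pow_eq_pow_val, pow_card_eq_one, Units.val_one, map_one]
    exact isIntegral_one
  · rw [MulChar.map_nonunit _ hx]
    exact isIntegral_zero

/-- Main result on eigen systems: there is an eigenform with algebraic coefficients and bounded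
denominators, and the eigenvalues are algebraic integers. -/
theorem exists_algebraic_eigen [NeZero N] {ε : DirichletCharacter ℂ N} {a : ℕ → ℂ}
    (ha : a ∈ cfSpace N) (h1 : a 1 = 1) (hrel : HeckeRel N ε a) :
    (∀ i, IsIntegral ℤ (sysVal ε a i)) ∧
    ∃ b ∈ cfSpace N, b 1 = 1 ∧ HeckeRel N ε b ∧ (∀ q : GoodPrime N, b q = a q) ∧
      ∃ D : ℤ, D ≠ 0 ∧ ∀ n, IsIntegral ℤ ((D : ℂ) * b n) := by
  have hN : 3 ≤ N := three_le_level ha fun h ↦ by simp [h] at h1
  have hfin := finite_range_sys ha h1 hrel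
  have halgSys : ∀ i, IsAlgebraic ℚ (sysVal (ε : ZMod N → ℂ) a i) := fun i ↦ by
    refine isAlgebraic_of_finite_orbit ((hfin.image fun s ↦ s i).subset ?_)
    rintro _ ⟨σ, rfl⟩
    exact ⟨_, ⟨σ, rfl⟩, rfl⟩
  have halgε : ∀ x, IsAlgebraic ℚ (ε x) := fun x ↦ halgSys (Sum.inl x)
  have halga : ∀ q : GoodPrime N, IsAlgebraic ℚ (a q) := fun q ↦ halgSys (Sum.inr q)
  obtain ⟨l, hadd, hmul, hl1, halg⟩ := exists_retraction
  obtain ⟨hb, D, hD, hDb⟩ := retraction_mem hN hadd hmul halg ha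
  have hl0 : l 0 = 0 := by
    have := hadd 0 0
    rw [add_zero] at this
    exact left_eq_add.mp this
  have hbq : ∀ q : GoodPrime N, l (a q) = a q := fun q ↦ by
    rw [← mul_one (a q), hmul _ _ (halga q), hl1]
  have hbrel : HeckeRel N ε (fun n ↦ l (a n)) := by
    intro q hq hqN n
    have := congrArg l (hrel q hq hqN n)
    rw [hadd] at this
    rw [show (if q ∣ n then l (a (n / q)) else 0) = l (if q ∣ n then a (n / q) else 0) by
      split_ifs <;> simp [hl0]]
    beta_reduce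
    rw [← hmul _ _ (halgε (q : ZMod N)), this, hbq ⟨q, hq, hqN⟩]
    exact hmul _ _ (halga ⟨q, hq, hqN⟩)
  have hb1 : l (a 1) = 1 := by rw [h1, hl1]
  refine ⟨fun i ↦ ?_, _, hb, hb1, hbrel, hbq, D, hD, hDb⟩
  rcases i with x | q
  · exact isIntegral_char ε x
  · refine isIntegral_of_forall_pow (halgSys (Sum.inr q)) hD fun j ↦ ?_
    suffices H : ∀ j n, IsIntegral ℤ ((D : ℂ) * (a q ^ j * l (a n))) by
      simpa [hb1, sysVal] using H j 1
    intro j
    induction j with
    | zero => simpa using hDb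
    | succ j ih =>
      intro n
      have h := hbrel q q.2.1 q.2.2 n
      beta_reduce at h
      rw [hbq q] at h
      rw [pow_succ, mul_assoc, ← h, mul_add, mul_add]
      refine IsIntegral.add (ih _) ?_
      have hεq := isIntegral_char ε (q.1 : ZMod N)
      split_ifs
      · rw [show (D : ℂ) * (a q ^ j * (ε (q.1 : ZMod N) * l (a (n / q.1))))
          = ε (q.1 : ZMod N) * ((D : ℂ) * (a q ^ j * l (a (n / q.1)))) by ring]
        exact hεq.mul (ih _)
      · simpa using isIntegral_zero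

end FLTAgent.DeligneSerre
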