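import Mathlib
import Fermat.Agent.DeligneSerre.Systems
import Fermat.Agent.DeligneSerre.CoeffBound
import Fermat.Agent.DeligneSerre.PrimeSums
import Fermat.Agent.Density.Chebotarev

set_option autoImplicit false

/-!
# Prime sums of weight one eigen systems and class functions of Galois groups

Outside a set of primes of arbitrarily small density the pairs `(aₚ, ε(p))` lie in a finite set
(`exists_finite_values`); by Chebotarev a bound on the prime sums of a class function bounds its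
average over the group (`sum_classFun_le`).
-/

noncomputable section

open Filter Topology UpperHalfPlane CongruenceSubgroup
open scoped MatrixGroups ModularForm
open scoped Classical

namespace FLTAgent.DeligneSerre

open FLTAgent.MFIntegral FLTAgent.Density

variable {N : ℕ}

theorem exists_euler_bound [NeZero N] {ε : ZMod N → ℂ} {a : ℕ → ℂ} (ha : a ∈ cfSpace N)
    (h1 : a 1 = 1) (hrel : HeckeRel N ε a) :
    ∃ A : ℝ, 0 < A ∧ ∀ (P : Finset ℕ), (∀ p ∈ P, p.Prime ∧ ¬ p ∣ N) → ∀ s : ℝ, 1 < s →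
      ∏ p ∈ P, (1 + ‖a p‖ ^ 2 * (p : ℝ) ^ (-s)) ≤ A * (1 + 1 / (s - 1)) := by
  obtain ⟨g, hg, hga⟩ := ha
  obtain ⟨C, hC0, hC⟩ := weightOne_cuspForm_bound hg.toCF
  obtain ⟨hper, hhol, hbdd⟩ := mem_PB.mp (hg.1.mem_PB T_mem_Gamma1)
  refine ⟨Real.exp (4 * Real.pi) * C + 1, by positivity, fun P hP s hs ↦ ?_⟩
  refine prod_one_add_le (fun n ↦ ‖a n‖ ^ 2) _ (fun n ↦ by positivity) (fun k ↦ ?_)
    (fun p hp ↦ (hP p hp).1) (by simp [h1]) (fun T hT p hp hpT ↦ ?_) hs
  · rcases Nat.eq_zero_or_pos k with rfl | hk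
    · simp
    have h := sum_sq_qCoeff_le hper hhol hbdd (C := C) (by simpa using hC) hk
    rw [Finset.sum_range_succ'] at h
    have e : ∀ n, ModularFormClass.qCoeff g n = a n := hga
    simp only [e] at h
    have hk0 : (0 : ℝ) ≤ k := Nat.cast_nonneg k
    nlinarith [sq_nonneg ‖a 0‖]
  · show ‖a (p * ∏ q ∈ T, q)‖ ^ 2 = ‖a p‖ ^ 2 * ‖a (∏ q ∈ T, q)‖ ^ 2
    rw [hrel.mul_prime (hP p hp).1 (hP p hp).2, norm_mul, mul_pow]
    intro hdvd
    obtain ⟨q, hq, hpq⟩ := ((hP p hp).1.prime.dvd_finsetProd_iff _).mp hdvd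
    exact hpT (((Nat.prime_dvd_prime_iff_eq (hP p hp).1 (hP q (hT hq)).1).mp hpq) ▸ hq)

theorem log_bound {A s : ℝ} (hA : 0 < A) (hs : 1 < s) (hs2 : s ≤ 2) :
    Real.log (A * (1 + 1 / (s - 1))) ≤ Real.log (1 / (s - 1)) + Real.log (2 * A) := by
  have h0 : 0 < 1 / (s - 1) := by have : (0:ℝ) < s - 1 := by linarith
                                  positivity
  rw [← Real.log_mul h0.ne' (by positivity)]
  refine Real.log_le_log (by positivity) ?_
  have : 1 ≤ 1 / (s - 1) := by rw [le_div_iff₀ (by linarith)]; linarith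
  nlinarith

theorem eventually_near_one : ∀ᶠ s in 𝓝[>] (1 : ℝ), 1 < s ∧ s ≤ 2 := by
  filter_upwards [Ioo_mem_nhdsGT (show (1 : ℝ) < 2 by norm_num)] with s hs
  exact ⟨hs.1, hs.2.le⟩

theorem sum_biUnion_le_sum' {ι κ : Type*} [DecidableEq κ] (t : Finset ι)
    (S : ι → Finset κ) (f : κ → ℝ)
    (hf : ∀ x, 0 ≤ f x) : ∑ x ∈ t.biUnion S, f x ≤ ∑ i ∈ t, ∑ x ∈ S i, f x := by
  induction t using Finset.induction_on with
  | empty => simp
  | insert i t hi ih =>
    rw [Finset.biUnion_insert, Finset.sum_insert hi]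
    refine le_trans ?_ (add_le_add le_rfl ih)
    rw [← Finset.sum_union_inter]
    exact le_add_of_nonneg_right (Finset.sum_nonneg fun x _ ↦ hf x)

/-- Outside a set of primes of arbitrarily small density, eigenvalues lie in a finite set. -/
theorem exists_finite_values [NeZero N] {ε : DirichletCharacter ℂ N} {a : ℕ → ℂ}
    (ha : a ∈ cfSpace N) (h1 : a 1 = 1) (hrel : HeckeRel N ε a) {δ : ℝ} (hδ : 0 < δ) :
    ∃ (Y : Finset (ℂ × ℂ)) (C : ℝ), ∀ᶠ s in 𝓝[>] (1 : ℝ), ∀ P : Finset ℕ,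
      (∀ p ∈ P, p.Prime ∧ ¬ p ∣ N ∧ (a p, ε (p : ZMod N)) ∉ Y) →
        ∑ p ∈ P, (p : ℝ) ^ (-s) ≤ δ * Real.log (1 / (s - 1)) + C := by
  have hN : 3 ≤ N := three_le_level ha fun h ↦ by simp [h] at h1
  have hfin := finite_range_sys ha h1 hrel
  obtain ⟨hint, -⟩ := exists_algebraic_eigen ha h1 hrel
  set J := hfin.toFinset
  choose τ hτ using fun j : J ↦ hfin.mem_toFinset.mp j.2
  choose A hA0 hA using fun j : J ↦ exists_euler_bound (conj_mem_cfSpace hN ha (τ j))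
    (by simp [h1]) (hrel.map (τ j))
  set r := J.card
  set M : ℝ := 2 * r / δ + 1 with hM
  have hM0 : 0 < M := by positivity
  let Y₁ := (finite_setOf_bounded_integral r (Real.sqrt M)).toFinset
  refine ⟨Y₁ ×ˢ (Finset.univ.image fun x : ZMod N ↦ ε x),
    ∑ j : J, 2 / M * |Real.log (2 * A j)| + ⌈M⌉₊ + 1, ?_⟩
  filter_upwards [eventually_near_one,
    tendsto_log_one_div_sub_one.eventually_ge_atTop 0] with s hs hlog P hP
  let big : J → Finset ℕ := fun j ↦ P.filter fun p ↦ M ≤ ‖τ j (a p)‖ ^ 2 ∧ M ≤ (p : ℝ)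
  let small : Finset ℕ := P.filter fun p ↦ (p : ℝ) < M
  have hcover : P ⊆ small ∪ Finset.univ.biUnion big := by
    intro p hp
    rw [Finset.mem_union]
    by_contra hnot
    rw [not_or] at hnot
    obtain ⟨hp1, hp2⟩ := hnot
    simp only [small, Finset.mem_filter, not_and, not_lt] at hp1
    obtain ⟨hpp, hpN, hY⟩ := hP p hp
    refine hY (Finset.mem_product.mpr ⟨?_, Finset.mem_image.mpr ⟨_, Finset.mem_univ _, rfl⟩⟩)
    rw [Set.Finite.mem_toFinset]
    have hx : autOrbit (a p) ⊆ (J.image fun j ↦ j (Sum.inr ⟨p, hpp, hpN⟩) : Finset ℂ) := by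
      rintro _ ⟨σ, rfl⟩
      exact Finset.mem_coe.mpr (Finset.mem_image.mpr ⟨_, hfin.mem_toFinset.mpr ⟨σ, rfl⟩, rfl⟩)
    refine ⟨hint (Sum.inr ⟨p, hpp, hpN⟩), (Finset.finite_toSet _).subset hx, ?_, fun y hy ↦ ?_⟩
    · refine (Finset.card_le_card (t := J.image fun j ↦ j (Sum.inr ⟨p, hpp, hpN⟩))
        fun y hy ↦ ?_).trans Finset.card_image_le
      exact hx ((Set.Finite.mem_toFinset _).mp hy)
    · obtain ⟨j, hj, rfl⟩ := Finset.mem_image.mp (hx hy)
      have hj' : j (Sum.inr ⟨p, hpp, hpN⟩) = τ ⟨j, hj⟩ (a p) :=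
        (congrFun (hτ ⟨j, hj⟩) (Sum.inr ⟨p, hpp, hpN⟩)).symm
      rw [hj']
      refine Real.le_sqrt_of_sq_le (le_of_lt ?_)
      by_contra hge
      exact hp2 (Finset.mem_biUnion.mpr ⟨⟨j, hj⟩, Finset.mem_univ _,
        Finset.mem_filter.mpr ⟨hp, not_lt.mp hge, hp1 hp⟩⟩)
  have hbig : ∀ j, ∑ p ∈ big j, (p : ℝ) ^ (-s)
      ≤ 2 / M * Real.log (1 / (s - 1)) + 2 / M * |Real.log (2 * A j)| := by
    intro j
    have hmem : ∀ p ∈ big j, p ∈ P ∧ M ≤ ‖τ j (a p)‖ ^ 2 ∧ M ≤ (p : ℝ) := fun p hp ↦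
      Finset.mem_filter.mp hp
    refine (sum_rpow_le_of_large (fun p hp ↦ (hP p (hmem p hp).1).1) hM0 hs.1
      (c := fun p ↦ ‖τ j (a p)‖ ^ 2) (fun p hp ↦ (hmem p hp).2.1) (fun p hp ↦ (hmem p hp).2.2)
      (hA j (big j) (fun p hp ↦ ⟨(hP p (hmem p hp).1).1,
        (hP p (hmem p hp).1).2.1⟩) s hs.1)).trans ?_
    rw [← mul_add]
    refine mul_le_mul_of_nonneg_left ?_ (by positivity)
    exact (log_bound (hA0 j) hs.1 hs.2).trans (add_le_add le_rfl (le_abs_self _))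
  have hnn : ∀ p : ℕ, 0 ≤ (p : ℝ) ^ (-s) := fun p ↦ by positivity
  have hsmall : ∑ p ∈ small, (p : ℝ) ^ (-s) ≤ ⌈M⌉₊ := by
    refine (Finset.sum_le_card_nsmul _ _ 1 fun p hp ↦ ?_).trans ?_
    · exact Real.rpow_le_one_of_one_le_of_nonpos
        (by exact_mod_cast (hP p (Finset.mem_filter.mp hp).1).1.one_le) (by linarith [hs.1])
    · have hsub : small ⊆ Finset.range ⌈M⌉₊ := fun p hp ↦
        Finset.mem_range.mpr (Nat.lt_ceil.mpr (Finset.mem_filter.mp hp).2)
      have := Finset.card_le_card hsub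
      rw [Finset.card_range] at this
      simp only [nsmul_eq_mul, mul_one, Nat.cast_le]
      exact this
  calc ∑ p ∈ P, (p : ℝ) ^ (-s)
      ≤ ∑ p ∈ small ∪ Finset.univ.biUnion big, (p : ℝ) ^ (-s) :=
        Finset.sum_le_sum_of_subset_of_nonneg hcover fun p _ _ ↦ hnn p
    _ ≤ ∑ p ∈ small, (p : ℝ) ^ (-s) + ∑ p ∈ Finset.univ.biUnion big, (p : ℝ) ^ (-s) := by
        rw [← Finset.sum_union_inter]
        exact le_add_of_nonneg_right (Finset.sum_nonneg fun p _ ↦ hnn p)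
    _ ≤ ⌈M⌉₊ + ∑ j, ∑ p ∈ big j, (p : ℝ) ^ (-s) :=
        add_le_add hsmall (sum_biUnion_le_sum' _ big _ hnn)
    _ ≤ ⌈M⌉₊ + ∑ j, (2 / M * Real.log (1 / (s - 1)) + 2 / M * |Real.log (2 * A j)|) :=
        add_le_add le_rfl (Finset.sum_le_sum fun j _ ↦ hbig j)
    _ ≤ _ := by
        rw [Finset.sum_add_distrib, Finset.sum_const, Finset.card_univ, Fintype.card_coe,
          nsmul_eq_mul]
        have : (r : ℝ) * (2 / M) ≤ δ := by
          rw [mul_div_assoc', div_le_iff₀ hM0, hM]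
          field_simp
          linarith
        nlinarith [mul_le_mul_of_nonneg_right this hlog]

section Galois

variable {G : Type} [Group G] [Fintype G] {π : GalQ →* G}

theorem sum_classFun_conjCount (c : G → ℝ) (hc : ∀ g y : G, c (y⁻¹ * g * y) = c g) (g : G) :
    ∑ σ : G, c σ * conjCount σ g = Fintype.card G * c g := by
  have : ∀ σ, c σ * (conjCount σ g : ℝ) = ∑ y : G, if y⁻¹ * g * y = σ then c σ else 0 := by
    intro σ
    rw [Finset.sum_ite, Finset.sum_const_zero, add_zero, Finset.sum_const, nsmul_eq_mul,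
      conjCount, Nat.card_eq_fintype_card, Fintype.card_subtype, mul_comm]
  rw [Finset.sum_congr rfl fun σ _ ↦ this σ, Finset.sum_comm]
  simp [hc]

/-- A bound on prime sums of a class function bounds its average. -/
theorem sum_classFun_le (hπ : GaloisFactorsThroughFiniteLevel π) (hs : Function.Surjective π)
    (c : G → ℝ) (hc0 : ∀ g, 0 ≤ c g) (hc : ∀ g y : G, c (y⁻¹ * g * y) = c g) {δ C : ℝ}
    (T : Finset Nat.Primes)
    (h : ∀ᶠ s in 𝓝[>] (1 : ℝ), ∀ P : Finset Nat.Primes, Disjoint P T →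
      ∑ q ∈ P, c (π (frob q)) * ((q : ℕ) : ℝ) ^ (-s) ≤ δ * Real.log (1 / (s - 1)) + C) :
    ∑ σ : G, c σ ≤ δ * Fintype.card G := by
  set R : G → ℝ → ℝ := fun σ s ↦
    (primeSeries (fun q ↦ (conjCount σ (π (frob q)) : ℂ)) s).re with hR
  have hlim : Tendsto (fun s ↦ (∑ σ, c σ * R σ s) / Real.log (1 / (s - 1))) (𝓝[>] 1)
      (𝓝 (∑ σ, c σ * 1)) := by
    simp only [Finset.sum_div, mul_div_assoc]
    exact tendsto_finsetSum _ fun σ _ ↦ (tendsto_re_conjCount hπ hs σ).const_mul (c σ)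
  set K : ℝ := C + ∑ q ∈ T, c (π (frob q))
  have hlim2 : Tendsto (fun s : ℝ ↦ (Fintype.card G : ℝ) * (δ + K / Real.log (1 / (s - 1))))
      (𝓝[>] 1) (𝓝 ((Fintype.card G : ℝ) * δ)) := by
    simpa using ((tendsto_log_one_div_sub_one.const_div_atTop K).const_add δ).const_mul
      (Fintype.card G : ℝ)
  simp only [mul_one] at hlim
  rw [mul_comm]
  refine le_of_tendsto_of_tendsto hlim hlim2 ?_
  filter_upwards [h, eventually_near_one, tendsto_log_one_div_sub_one.eventually_gt_atTop 0]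
    with s hsum hs1 hl
  have hR' : ∀ σ, R σ s = ∑' q : Nat.Primes,
      (conjCount σ (π (frob q)) : ℝ) * ((q : ℕ) : ℝ) ^ (-s) := by
    intro σ
    simp only [hR, primeSeries]
    rw [Complex.re_tsum ((isBoundedOnPrimes_conjCount σ).summable hs1.1)]
    exact tsum_congr fun q ↦ by simp
  have hsum' : ∀ σ, Summable fun q : Nat.Primes ↦
      (conjCount σ (π (frob q)) : ℝ) * ((q : ℕ) : ℝ) ^ (-s) := fun σ ↦ by
    have := Complex.reCLM.summable ((isBoundedOnPrimes_conjCount (π := π) σ).summable hs1.1)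
    simpa [Function.comp_def] using this
  have heq : ∑ σ, c σ * R σ s
      = ∑' q : Nat.Primes, (Fintype.card G : ℝ) * (c (π (frob q)) * ((q : ℕ) : ℝ) ^ (-s)) := by
    simp only [hR', ← tsum_mul_left]
    rw [← Summable.tsum_finsetSum fun σ _ ↦ (hsum' σ).mul_left (c σ)]
    refine tsum_congr fun q ↦ ?_
    rw [← mul_assoc, ← sum_classFun_conjCount c hc, Finset.sum_mul]
    exact Finset.sum_congr rfl fun σ _ ↦ (mul_assoc _ _ _).symm
  rw [heq, div_le_iff₀ hl, mul_assoc, add_mul, div_mul_cancel₀ _ hl.ne', tsum_mul_left]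
  refine mul_le_mul_of_nonneg_left ?_ (Nat.cast_nonneg _)
  refine Real.tsum_le_of_sum_le (fun q ↦ mul_nonneg (hc0 _) (by positivity)) fun P ↦ ?_
  rw [← Finset.sum_sdiff (s₁ := P ∩ T) (s₂ := P) Finset.inter_subset_left]
  have h1 := hsum (P \ (P ∩ T)) (by
    rw [Finset.disjoint_left]
    intro q hq hqT
    simp only [Finset.mem_sdiff, Finset.mem_inter, not_and] at hq
    exact hq.2 hq.1 hqT)
  have h2 : ∑ q ∈ P ∩ T, c (π (frob q)) * ((q : ℕ) : ℝ) ^ (-s) ≤ ∑ q ∈ T, c (π (frob q)) := by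
    refine (Finset.sum_le_sum fun q _ ↦ ?_).trans
      (Finset.sum_le_sum_of_subset_of_nonneg Finset.inter_subset_right fun q _ _ ↦ hc0 _)
    exact mul_le_of_le_one_right (hc0 _) (Real.rpow_le_one_of_one_le_of_nonpos
      (by exact_mod_cast q.2.one_le) (by linarith [hs1.1]))
  linarith

end Galois

end FLTAgent.DeligneSerre
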