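import Mathlib
import Fermat.Agent.DeligneSerre.GroupModular
import Fermat.Agent.Density.Chebotarev
import Fermat.Prelude.Def_Deformations_MatrixRepresentation

set_option autoImplicit false

/-!
# Semisimplification of two-dimensional representations with a common eigenvector

A common eigenvector gives two characters with the same traces and determinants; hence a Galois
representation of finite level has a finite semisimple image with the same ones
(`exists_semisimple_image`). Used in `Assemble`.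
-/

noncomputable section

open Matrix

namespace FLTAgent.DeligneSerre

variable {k : Type*} [Field k]

/-- An eigenvalue satisfies the characteristic equation. -/
theorem eigenvalue_sq (A : Matrix (Fin 2) (Fin 2) k) {v : Fin 2 → k} (hv : v ≠ 0) {c : k}
    (h : A *ᵥ v = c • v) : c * c - A.trace * c + A.det = 0 := by
  have h0 := congrFun h 0
  have h1 := congrFun h 1
  simp only [mulVec, dotProduct, Fin.sum_univ_two, Pi.smul_apply, smul_eq_mul] at h0 h1
  have e0 : (c * c - A.trace * c + A.det) * v 0 = 0 := by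
    simp only [Matrix.trace_fin_two, Matrix.det_fin_two]
    linear_combination (A 1 1 - c) * h0 - A 0 1 * h1
  have e1 : (c * c - A.trace * c + A.det) * v 1 = 0 := by
    simp only [Matrix.trace_fin_two, Matrix.det_fin_two]
    linear_combination (A 0 0 - c) * h1 - A 1 0 * h0
  rcases mul_eq_zero.mp e0 with h' | h'
  · exact h'
  rcases mul_eq_zero.mp e1 with h'' | h''
  · exact h''
  exact absurd (funext fun i ↦ by fin_cases i <;> assumption) hv

/-- A common eigenvector gives two characters with the trace and determinant of the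
representation. -/
theorem exists_eigen_chars {Γ : Type*} [Group Γ] (ρ : Γ →* GL (Fin 2) k)
    (h : ¬ NoCommonEigenvector ρ) :
    ∃ χ₁ χ₂ : Γ →* kˣ, (∀ σ, (ρ σ).val.trace = χ₁ σ + χ₂ σ) ∧
      (∀ σ, (ρ σ).val.det = χ₁ σ * χ₂ σ) ∧ ∀ σ, ρ σ = 1 → χ₁ σ = 1 ∧ χ₂ σ = 1 := by
  simp only [NoCommonEigenvector] at h
  push Not at h
  obtain ⟨v, hv, hc⟩ := h
  choose c hc using hc
  have huniq : ∀ σ x, (ρ σ).val *ᵥ v = x • v → c σ = x := fun σ x hx ↦
    smul_left_injective k hv ((hc σ).symm.trans hx)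
  have hmul : ∀ σ τ, c (σ * τ) = c σ * c τ := fun σ τ ↦ huniq _ _ (by
    rw [map_mul, Units.val_mul, ← Matrix.mulVec_mulVec, hc τ, Matrix.mulVec_smul, hc σ, smul_smul,
      mul_comm])
  have hone : c 1 = 1 := huniq 1 1 (by simp)
  have hne : ∀ σ, c σ ≠ 0 := fun σ h0 ↦ by
    have := hmul σ σ⁻¹
    rw [mul_inv_cancel, hone, h0, zero_mul] at this
    exact one_ne_zero this
  let χ₁ : Γ →* kˣ :=
    { toFun := fun σ ↦ Units.mk0 (c σ) (hne σ)
      map_one' := Units.ext hone
      map_mul' := fun σ τ ↦ Units.ext (hmul σ τ) }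
  let χ₂ : Γ →* kˣ := (Matrix.GeneralLinearGroup.det.comp ρ) * χ₁⁻¹
  have hχ₂ : ∀ σ, (χ₂ σ : k) = (ρ σ).val.det * (c σ)⁻¹ := fun σ ↦ by simp [χ₂, χ₁]
  refine ⟨χ₁, χ₂, fun σ ↦ ?_, fun σ ↦ ?_, fun σ hσ ↦ ?_⟩
  · have h := eigenvalue_sq _ hv (hc σ)
    rw [hχ₂]
    show (ρ σ).val.trace = c σ + _
    field_simp [hne σ]
    linear_combination -h
  · rw [hχ₂]
    show (ρ σ).val.det = c σ * _
    field_simp [hne σ]
  · have h1 : c σ = 1 := huniq σ 1 (by rw [hσ]; simp)
    refine ⟨Units.ext h1, Units.ext ?_⟩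
    rw [hχ₂, h1, hσ]
    simp

/-- The diagonal representation given by two characters. -/
def diagRep {Γ : Type*} [Group Γ] (χ₁ χ₂ : Γ →* kˣ) : Γ →* GL (Fin 2) k :=
  (Units.map (Matrix.diagonalRingHom (Fin 2) k).toMonoidHom).comp
    (MulEquiv.piUnits.symm.toMonoidHom.comp
      { toFun := fun σ ↦ ![χ₁ σ, χ₂ σ]
        map_one' := by funext i; fin_cases i <;> simp
        map_mul' := fun σ τ ↦ by funext i; fin_cases i <;> simp })

theorem diagRep_val {Γ : Type*} [Group Γ] (χ₁ χ₂ : Γ →* kˣ) (σ : Γ) :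
    (diagRep χ₁ χ₂ σ).val = Matrix.diagonal ![(χ₁ σ : k), (χ₂ σ : k)] := by
  show Matrix.diagonal _ = _
  congr 1
  funext i
  fin_cases i <;> rfl

theorem eq_one_of_finite_order [CharZero k] (g : GL (Fin 2) k) {n : ℕ} (hn : n ≠ 0) (hg : g ^ n = 1)
    (ht : g.val.trace = 2) (hd : g.val.det = 1) : g = 1 := by
  set A := g.val with hA
  set B := A - 1 with hB
  rw [Matrix.trace_fin_two] at ht
  rw [Matrix.det_fin_two] at hd
  have hsq : B * B = 0 := by
    ext i j
    fin_cases i <;> fin_cases j <;>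
      simp [hB, Matrix.mul_apply, Fin.sum_univ_two]
    · linear_combination A 0 0 * ht - hd
    · linear_combination A 0 1 * ht
    · linear_combination A 1 0 * ht
    · linear_combination A 1 1 * ht - hd
  have hpow : ∀ m : ℕ, A ^ m = 1 + (m : k) • B := by
    intro m
    induction m with
    | zero => simp
    | succ m ih =>
      rw [pow_succ, ih, show A = 1 + B by simp [hB]]
      simp only [mul_add, add_mul, mul_one, one_mul, smul_mul_assoc, hsq, smul_zero, add_zero,
        Nat.cast_succ, add_smul, one_smul]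
      abel
  have h := hpow n
  rw [hA, ← Units.val_pow_eq_pow_val, hg, Units.val_one, left_eq_add, smul_eq_zero] at h
  have hB0 : B = 0 := h.resolve_left (Nat.cast_ne_zero.mpr hn)
  exact Units.ext (sub_eq_zero.mp hB0)

end FLTAgent.DeligneSerre

namespace FLTAgent.DeligneSerre

open FLTAgent.Density

/-- A finite group with a semisimple representation having the traces and determinants of a given
representation of finite level. -/
theorem exists_semisimple_image {k : Type} [Field k] (ρ : GalQ →* GL (Fin 2) k)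
    (hρ : GaloisFactorsThroughFiniteLevel ρ) :
    ∃ (G : Type) (_ : Group G) (_ : Fintype G) (π : GalQ →* G) (r : G →* GL (Fin 2) k),
      GaloisFactorsThroughFiniteLevel π ∧ Function.Surjective π ∧ Function.Injective r ∧
      (NoCommonEigenvector r ∨ IsDiagonal r) ∧
      (∀ σ, (r (π σ)).val.trace = (ρ σ).val.trace ∧ (r (π σ)).val.det = (ρ σ).val.det) ∧
      ∀ σ, ρ σ = 1 → π σ = 1 := by
  suffices H : ∃ ρ' : GalQ →* GL (Fin 2) k, (NoCommonEigenvector ρ' ∨ IsDiagonal ρ') ∧
      (∀ σ, (ρ' σ).val.trace = (ρ σ).val.trace ∧ (ρ' σ).val.det = (ρ σ).val.det) ∧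
      ∀ σ, ρ σ = 1 → ρ' σ = 1 by
    obtain ⟨ρ', hss, htd, hone⟩ := H
    obtain ⟨L, hL, hfix⟩ := hρ
    have hρ' : GaloisFactorsThroughFiniteLevel ρ' := ⟨L, hL, fun σ hσ ↦ hone σ (hfix σ hσ)⟩
    have := finite_range_of_factorsThroughFiniteLevel hρ'
    refine ⟨ρ'.range, inferInstance, Fintype.ofFinite _, ρ'.rangeRestrict, ρ'.range.subtype,
      ⟨L, hL, fun σ hσ ↦ Subtype.ext (hone σ (hfix σ hσ))⟩, ρ'.rangeRestrict_surjective,
      Subtype.val_injective, ?_, fun σ ↦ htd σ, fun σ hσ ↦ Subtype.ext (hone σ hσ)⟩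
    rcases hss with h | h
    · refine Or.inl fun v hv ↦ ?_
      obtain ⟨σ, hσ⟩ := h v hv
      exact ⟨ρ'.rangeRestrict σ, hσ⟩
    · refine Or.inr ?_
      rintro ⟨_, σ, rfl⟩
      exact h σ
  by_cases h : NoCommonEigenvector ρ
  · exact ⟨ρ, Or.inl h, fun σ ↦ ⟨rfl, rfl⟩, fun σ hσ ↦ hσ⟩
  obtain ⟨χ₁, χ₂, ht, hd, h1⟩ := exists_eigen_chars ρ h
  refine ⟨diagRep χ₁ χ₂, Or.inr fun σ ↦ ?_, fun σ ↦ ?_, fun σ hσ ↦ ?_⟩
  · rw [diagRep_val]; simp
  · rw [diagRep_val]
    simp [ht, hd]
  · refine Units.ext ?_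
    rw [diagRep_val, (h1 σ hσ).1, (h1 σ hσ).2]
    ext i j
    fin_cases i <;> fin_cases j <;> simp

/-- Failure of irreducibility gives a common eigenvector. -/
theorem not_noCommonEigenvector_of_not_irreducible {G : Type} [Group G] {k : Type} [Field k]
    (ρ : G →* GL (Fin 2) k) (h : ¬ (Deformation.matrixRepresentation ρ).IsIrreducible) :
    ¬ NoCommonEigenvector ρ := by
  intro hno
  refine h ?_
  have : Nontrivial (Subrepresentation (Deformation.matrixRepresentation ρ)) := by
    refine ⟨⟨⊥, ⊤, fun e ↦ ?_⟩⟩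
    have := congrArg Subrepresentation.toSubmodule e
    exact bot_ne_top (α := Submodule k (Fin 2 → k)) this
  refine ⟨fun W ↦ ?_⟩
  by_cases hW : W.toSubmodule = ⊥
  · exact Or.inl (Subrepresentation.toSubmodule_injective hW)
  refine Or.inr (Subrepresentation.toSubmodule_injective ?_)
  obtain ⟨v, hv, hv0⟩ := W.toSubmodule.exists_mem_ne_zero_of_ne_bot hW
  obtain ⟨g, hg⟩ := hno v hv0
  have hgv : (ρ g).val *ᵥ v ∈ W.toSubmodule := by
    simpa using W.apply_mem_toSubmodule g hv
  have hli : LinearIndependent k ![v, (ρ g).val *ᵥ v] :=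
    (LinearIndependent.pair_iff' hv0).mpr fun c hc ↦ hg c hc.symm
  have hspan := hli.span_eq_top_of_card_eq_finrank' (by simp)
  show W.toSubmodule = ⊤
  rw [eq_top_iff, ← hspan, Submodule.span_le]
  rintro _ ⟨i, rfl⟩
  fin_cases i <;> assumption

end FLTAgent.DeligneSerre
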