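import Mathlib
import Fermat.Agent.MFIntegral.IntegralStructure
import Fermat.Agent.Newforms.HeckeCosets
import Fermat.Prelude.Thm_UpperHalfPlane_eq_of_forall_qCoeff_eq
import Fermat.Prelude.Thm_UpperHalfPlane_qCoeff_heckeT
import Fermat.Prelude.Thm_UpperHalfPlane_qCoeff_heckeU
import Fermat.Prelude.Thm_ModularForm_mdifferentiable_heckeU
import Fermat.Prelude.Thm_ModularForm_isBoundedAtImInfty_heckeU
import Fermat.Prelude.Thm_ModularForm_periodic_heckeU_comp_ofComplex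
import Fermat.Prelude.Thm_ModularForm_mdifferentiable_heckeT
import Fermat.Prelude.Thm_ModularForm_isBoundedAtImInfty_heckeT
import Fermat.Prelude.Thm_ModularForm_periodic_heckeT_comp_ofComplex

set_option autoImplicit false

/-!
# The Hecke relations determine the character of a weight one form

A weight one cusp form on `Γ₁(N)` whose coefficients satisfy the Hecke relations with character `ε`
at all primes not dividing `N` transforms under `Γ₀(N)` by `ε` (`slash_eq_char_of_relations`). Used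
in the passage to weight two.
-/

noncomputable section

open UpperHalfPlane CongruenceSubgroup Matrix.SpecialLinearGroup Filter
open scoped MatrixGroups ModularForm Manifold Topology

namespace FLTAgent.DeligneSerre

open FLTAgent.MFIntegral FLTAgent.Newforms

variable {N : ℕ} {p : ℕ} {f : ℍ → ℂ}

/-- The class of the lower right entry determines the slash by an element of `Γ₀(N)`. -/
theorem slash_eq_of_lowerRight_eq {k : ℤ} (hf : IsMF k (Gamma1 N) f) {γ δ : SL(2, ℤ)}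
    (hγ : γ ∈ Gamma0 N) (hδ : δ ∈ Gamma0 N) (h : ((γ 1 1 : ℤ) : ZMod N) = (δ 1 1 : ℤ)) :
    f ∣[k] γ = f ∣[k] δ := by
  have hmem : γ * δ⁻¹ ∈ Gamma1 N := by
    rw [Gamma0_mem] at hγ hδ
    have hdet : ((γ 0 0 : ℤ) : ZMod N) * (γ 1 1 : ℤ) = 1 := by
      have := congrArg (Int.cast : ℤ → ZMod N) ((Matrix.det_fin_two γ.1).symm.trans γ.2)
      push_cast at this
      rwa [hγ, mul_zero, sub_zero] at this
    have hdet' : ((δ 0 0 : ℤ) : ZMod N) * (δ 1 1 : ℤ) = 1 := by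
      have := congrArg (Int.cast : ℤ → ZMod N) ((Matrix.det_fin_two δ.1).symm.trans δ.2)
      push_cast at this
      rwa [hδ, mul_zero, sub_zero] at this
    rw [Gamma1_mem]
    simp [Matrix.SpecialLinearGroup.coe_inv, Matrix.adjugate_fin_two, Matrix.mul_apply,
      Fin.sum_univ_two, hγ, hδ]
    refine ⟨?_, ?_⟩
    · rw [← h]; exact hdet
    · rw [h, mul_comm]; exact hdet'
  calc f ∣[k] γ = f ∣[k] (γ * δ⁻¹ * δ) := by rw [inv_mul_cancel_right]
    _ = f ∣[k] δ := by rw [SlashAction.slash_mul, hf.slash _ hmem]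

/-- Moving `γ ∈ Γ₀(N)` past the Hecke representatives at `p`. -/
theorem exists_heckeMat_mul_eq (hp : p.Prime) (hpN : ¬ p ∣ N) {γ : SL(2, ℤ)} (hγ : γ ∈ Gamma0 N)
    (x : Option (Fin p)) :
    ∃ y, ∃ g ∈ Gamma0 N, heckeMat p x * γ.1 = (g : SL(2, ℤ)).1 * heckeMat p y ∧
      ((g 0 0 : ℤ) : ZMod N) * ((heckeMat p y 0 0 : ℤ) : ZMod N) =
        ((heckeMat p x 0 0 : ℤ) : ZMod N) * (γ 0 0 : ℤ) := by
  have hγ10 := Gamma0_mem.mp hγ
  obtain ⟨y, g, hg, he⟩ := exists_eq_mul_heckeMat hp hpN (heckeMat p x * γ.1)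
    (by rw [Matrix.det_mul, det_heckeMat, γ.2, mul_one]) (by
      rw [← ZMod.intCast_zmod_eq_zero_iff_dvd]
      cases x <;> simp [heckeMat, Matrix.mul_apply, Fin.sum_univ_two, hγ10])
  refine ⟨y, g, hg, he, ?_⟩
  have h00 := congrArg (fun M : IMat ↦ ((M 0 0 : ℤ) : ZMod N)) he
  cases x <;> cases y <;>
    simp [heckeMat, Matrix.mul_apply, Fin.sum_univ_two, hγ10] at h00 ⊢ <;>
    linear_combination -h00

/-- The map on Hecke representatives induced by `γ` is injective. -/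
theorem heckeMat_perm_injective (hp : p.Prime) {γ : SL(2, ℤ)}
    {π : Option (Fin p) → Option (Fin p)} {g : Option (Fin p) → SL(2, ℤ)}
    (hπ : ∀ x, heckeMat p x * γ.1 = (g x).1 * heckeMat p (π x)) : Function.Injective π :=
  fun x x' hxx ↦ by
    refine eq_of_dvd_heckeMat_mul_adjugate hp x x' fun i j ↦ ?_
    have h2 : heckeMat p x * γ.1 * (heckeMat p x' * γ.1).adjugate
        = (g x).1 * heckeMat p (π x) * ((g x').1 * heckeMat p (π x')).adjugate := by
      rw [hπ, hπ]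
    rw [← hxx, Matrix.adjugate_mul_distrib, Matrix.adjugate_mul_distrib,
      mul_assoc, ← mul_assoc γ.1, Matrix.mul_adjugate, γ.2, one_smul, one_mul,
      mul_assoc ((g x).1), ← mul_assoc (heckeMat p (π x)), Matrix.mul_adjugate, det_heckeMat,
      smul_mul_assoc, one_mul, mul_smul_comm] at h2
    rw [h2, Matrix.smul_apply, smul_eq_mul]
    exact dvd_mul_right _ _

/-- Weight `k` Hecke operator on `Γ₁(N)`. -/
theorem heckeT_Gamma1_invariant [NeZero N] (k : ℤ) (hf : IsMF k (Gamma1 N) f) (hp : p.Prime)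
    (hpN : ¬ p ∣ N) {σp : SL(2, ℤ)} (hσ : σp ∈ Gamma0 N) (hσp : ((σp 1 1 : ℤ) : ZMod N) = p)
    {γ : SL(2, ℤ)} (hγ : γ ∈ Gamma1 N) :
    (ModularForm.heckeU k p f + (f ∣[k] σp) ∣[k] ModularForm.heckeDiagMatrix p) ∣[k] γ
      = ModularForm.heckeU k p f + (f ∣[k] σp) ∣[k] ModularForm.heckeDiagMatrix p := by
  let w : Option (Fin p) → SL(2, ℤ) := fun x ↦ x.elim σp fun _ ↦ 1
  have hw0 : ∀ x, w x ∈ Gamma0 N := fun x ↦ by cases x <;> simp [w, hσ]
  have hwd : ∀ x, ((w x 1 1 : ℤ) : ZMod N) = ((heckeMat p x 0 0 : ℤ) : ZMod N) := fun x ↦ by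
    cases x <;> simp [w, heckeMat, hσp]
  let T : Option (Fin p) → ℍ → ℂ := fun x ↦ (f ∣[k] w x) ∣[k] intGL (heckeMat p x)
  have hsum : ModularForm.heckeU k p f + (f ∣[k] σp) ∣[k] ModularForm.heckeDiagMatrix p =
      ∑ x, T x := by
    rw [Fintype.sum_option, add_comm]
    simp only [T, w, intGL_heckeMat hp.ne_zero, Option.elim, SlashAction.slash_one]
    rw [Fin.sum_univ_eq_sum_range fun j ↦
      f ∣[k] ModularForm.heckeMatrix p j, ModularForm.heckeU_def]
  have hγ' := (Gamma1_mem N γ).mp hγ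
  choose π g hg hπ hcl using exists_heckeMat_mul_eq hp hpN (Gamma1_in_Gamma0 N hγ)
  simp only [hγ'.1, mul_one] at hcl
  have hinj := heckeMat_perm_injective hp hπ
  have hterm : ∀ x, T x ∣[k] γ = T (π x) := by
    intro x
    simp only [T]
    have hne : ∀ z, (heckeMat p z).det ≠ 0 := fun z ↦ by
      rw [det_heckeMat]; exact_mod_cast hp.ne_zero
    rw [ModularForm.SL_slash, ← SlashAction.slash_mul]
    change (f ∣[k] w x) ∣[k] (intGL (heckeMat p x) * mapGL ℝ γ) = _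
    rw [mapGL_eq_intGL, intGL_mul (hne x) (by rw [γ.2]; exact one_ne_zero), hπ,
      ← intGL_mul (by rw [(g x).2]; exact one_ne_zero) (hne _), ← mapGL_eq_intGL,
        SlashAction.slash_mul]
    congr 1
    change (f ∣[k] w x) ∣[k] g x = _
    rw [← SlashAction.slash_mul]
    refine slash_eq_of_lowerRight_eq hf (mul_mem (hw0 x) (hg x)) (hw0 _) ?_
    have hc1 : ((w x 1 0 : ℤ) : ZMod N) = 0 := Gamma0_mem.mp (hw0 x)
    have hg1 : ((g x 1 0 : ℤ) : ZMod N) = 0 := Gamma0_mem.mp (hg x)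
    have hdet : ((g x 0 0 : ℤ) : ZMod N) * (g x 1 1 : ℤ) = 1 := by
      have := congrArg (Int.cast : ℤ → ZMod N) ((Matrix.det_fin_two (g x).1).symm.trans (g x).2)
      push_cast at this
      rwa [hg1, mul_zero, sub_zero] at this
    simp only [Matrix.SpecialLinearGroup.coe_mul, Matrix.mul_apply, Fin.sum_univ_two]
    push_cast
    rw [hc1, zero_mul, zero_add, hwd, hwd, ← hcl x]
    linear_combination ((heckeMat p (π x) 0 0 : ℤ) : ZMod N) * hdet
  rw [hsum, SlashAction.sum_slash, Finset.sum_congr rfl fun x _ ↦ hterm x]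
  exact Equiv.sum_comp (Equiv.ofBijective π ⟨hinj, Finite.injective_iff_surjective.mp hinj⟩) T

/-- `Γ₀(N)` normalises `Γ₁(N)`. -/
private theorem conj_mem_Gamma1 {g γ : SL(2, ℤ)} (hg : g ∈ Gamma0 N) (hγ : γ ∈ Gamma1 N) :
    g * γ * g⁻¹ ∈ Gamma1 N := by
  have hγ0 := Gamma1_in_Gamma0 N hγ
  have hmem := mul_mem (mul_mem hg hγ0) (inv_mem hg)
  have h00 : ∀ x ∈ Gamma0 N, ∀ y ∈ Gamma0 N, (((x * y : SL(2, ℤ)) 0 0 : ℤ) : ZMod N)
      = (x 0 0 : ℤ) * (y 0 0 : ℤ) := fun x _ y hy ↦ by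
    simp [Matrix.mul_apply, Fin.sum_univ_two, Gamma0_mem.mp hy]
  have h11 : ∀ x ∈ Gamma0 N, ∀ y ∈ Gamma0 N, (((x * y : SL(2, ℤ)) 1 1 : ℤ) : ZMod N)
      = (x 1 1 : ℤ) * (y 1 1 : ℤ) := fun x hx y _ ↦ by
    simp [Matrix.mul_apply, Fin.sum_univ_two, Gamma0_mem.mp hx]
  obtain ⟨g1, g2, g3⟩ := (Gamma1_mem N γ).mp hγ
  rw [Gamma1_mem]
  refine ⟨?_, ?_, Gamma0_mem.mp hmem⟩
  · rw [h00 _ (mul_mem hg hγ0) _ (inv_mem hg), h00 _ hg _ hγ0, g1, mul_one,
      ← h00 _ hg _ (inv_mem hg), mul_inv_cancel]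
    simp
  · rw [h11 _ (mul_mem hg hγ0) _ (inv_mem hg), h11 _ hg _ hγ0, g2, mul_one,
      ← h11 _ hg _ (inv_mem hg), mul_inv_cancel]
    simp

/-- The power of an element of `Γ₀(N)` by the order of `(ℤ/N)ˣ` lies in `Γ₁(N)`. -/
private theorem pow_card_mem_Gamma1 [NeZero N] {γ : SL(2, ℤ)} (hγ : γ ∈ Gamma0 N) :
    γ ^ Nat.card (ZMod N)ˣ ∈ Gamma1 N := by
  let χ : Gamma0 N →* (ZMod N)ˣ := (Gamma0Map N).toHomUnits
  set r := Nat.card (ZMod N)ˣ
  have hone : (Gamma0Map N) (⟨γ, hγ⟩ ^ r) = 1 := by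
    have : χ (⟨γ, hγ⟩ ^ r) = 1 := by rw [map_pow, pow_card_eq_one']
    exact congrArg Units.val this
  have h11 : (((γ ^ r : SL(2, ℤ)) 1 1 : ℤ) : ZMod N) = 1 := hone
  have h10 := Gamma0_mem.mp (pow_mem hγ r : γ ^ r ∈ Gamma0 N)
  rw [Gamma1_mem]
  refine ⟨?_, h11, h10⟩
  have := congrArg (Int.cast : ℤ → ZMod N)
    ((Matrix.det_fin_two (γ ^ r : SL(2, ℤ)).1).symm.trans (γ ^ r).2)
  push_cast at this
  rwa [h11, h10, mul_zero, sub_zero, mul_one] at this

/-- The matrix `(p, m / p; 0, 1 / p)` substitutes `p ^ 2 τ + m` and multiplies by `p`. -/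
private theorem exists_slash_upperTriangular (hp : p.Prime) (m : ℤ) (hX : (p : ℝ) * (1 / p) ≠ 0)
    (G : ℍ → ℂ) (τ : ℍ) :
    ∃ σ : ℍ, σ.im = (p : ℝ) ^ 2 * τ.im ∧
      (G ∣[(1 : ℤ)] ModularForm.upperTriangularGL p ((m : ℝ) / p) (1 / p) hX) τ = p * G σ := by
  have hp0 : (p : ℝ) ≠ 0 := Nat.cast_ne_zero.mpr hp.ne_zero
  set X : GL (Fin 2) ℝ := ModularForm.upperTriangularGL p ((m : ℝ) / p) (1 / p) hX with hXdef
  have him : 0 < ((p : ℂ) ^ 2 * τ + m).im := by
    simp only [← Nat.cast_pow, Complex.add_im, Complex.mul_im, Complex.natCast_re,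
      Complex.natCast_im, Complex.intCast_im, zero_mul, add_zero]
    exact mul_pos (Nat.cast_pos.mpr (pow_pos hp.pos 2)) τ.im_pos
  refine ⟨⟨(p : ℂ) ^ 2 * τ + m, him⟩, ?_, ?_⟩
  · change ((p : ℂ) ^ 2 * τ + m).im = _
    simp [pow_two]
  have hdet : (X.det : ℝ) = 1 := by
    simp [hXdef, Matrix.det_fin_two_of]
    field_simp
  have hden : denom X τ = (1 / p : ℂ) := by simp [hXdef, denom]
  rw [ModularForm.slash_apply, UpperHalfPlane.σ, if_pos (by rw [hdet]; exact one_pos), hden, hdet]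
  simp only [ContinuousAlgEquiv.refl_apply, abs_one, Complex.ofReal_one, one_zpow, mul_one,
    zpow_neg_one, one_div, inv_inv]
  rw [mul_comm]
  congr 2
  apply UpperHalfPlane.ext
  rw [UpperHalfPlane.coe_smul_of_det_pos (by rw [hdet]; exact one_pos), hden]
  simp [num, hXdef]
  have hpC : (p : ℂ) ≠ 0 := Nat.cast_ne_zero.mpr hp.ne_zero
  field_simp

/-- If `G` is invariant under `Γ₁(N)`, then `G | (p, s; 0, 1 / p)` is invariant under
`τ ↦ τ + 1/p`. -/
private theorem slash_upperTriangular_periodic (hp : p.Prime) {G : ℍ → ℂ}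
    (hG : ∀ γ ∈ Gamma1 N, G ∣[(1 : ℤ)] γ = G) (s : ℝ) (hX : (p : ℝ) * (1 / p) ≠ 0) :
    (G ∣[(1 : ℤ)] ModularForm.upperTriangularGL p s (1 / p) hX) ∣[(1 : ℤ)]
        ModularForm.upperTriangularGL 1 (1 / p) 1 (by norm_num) =
      G ∣[(1 : ℤ)] ModularForm.upperTriangularGL p s (1 / p) hX := by
  have hp0 : (p : ℝ) ≠ 0 := Nat.cast_ne_zero.mpr hp.ne_zero
  let Tp : SL(2, ℤ) := ⟨!![1, (p : ℤ); 0, 1], by simp [Matrix.det_fin_two_of]⟩
  have hTp : Tp ∈ Gamma1 N := by rw [Gamma1_mem]; simp [Tp]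
  have hmap : (mapGL ℝ Tp : GL (Fin 2) ℝ).val = Tp.1.map Int.cast := rfl
  have hcomm : ModularForm.upperTriangularGL p s (1 / p) hX *
      ModularForm.upperTriangularGL 1 (1 / p) 1 (by norm_num)
        = mapGL ℝ Tp * ModularForm.upperTriangularGL p s (1 / p) hX := by
    refine Units.ext ?_
    rw [Units.val_mul, Units.val_mul, hmap, ModularForm.val_upperTriangularGL,
      ModularForm.val_upperTriangularGL]
    ext r s
    fin_cases r <;> fin_cases s <;>
      simp [Tp, Matrix.mul_apply, Fin.sum_univ_two]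
    field_simp
    ring
  rw [← SlashAction.slash_mul, hcomm, SlashAction.slash_mul]
  congr 1
  exact hG _ hTp

/-- From `X γ = L U` and invariance of `G` under `L` and `U`, the slash by `X` is that by `γ⁻¹`. -/
private theorem slash_eq_slash_inv_of_mul_eq {G : ℍ → ℂ} {X U : GL (Fin 2) ℝ} {γ L : SL(2, ℤ)}
    (h : X * mapGL ℝ γ = mapGL ℝ L * U) (hL : G ∣[(1 : ℤ)] L = G) (hU : G ∣[(1 : ℤ)] U = G) :
    G ∣[(1 : ℤ)] X = G ∣[(1 : ℤ)] γ⁻¹ := by
  have h1 := congrArg (fun M ↦ G ∣[(1 : ℤ)] M) h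
  simp only [SlashAction.slash_mul] at h1
  change (G ∣[(1 : ℤ)] X) ∣[(1 : ℤ)] γ = (G ∣[(1 : ℤ)] L) ∣[(1 : ℤ)] U at h1
  rw [hL, hU] at h1
  calc G ∣[(1 : ℤ)] X = ((G ∣[(1 : ℤ)] X) ∣[(1 : ℤ)] γ) ∣[(1 : ℤ)] γ⁻¹ := by
        rw [← SlashAction.slash_mul, mul_inv_cancel, SlashAction.slash_one]
    _ = _ := by rw [h1]

/-- A function fixed by `τ ↦ τ + 1` is periodic. -/
private theorem periodic_comp_ofComplex {h : ℍ → ℂ}
    (hT : h ∣[(1 : ℤ)] ModularGroup.T = h) : Function.Periodic (h ∘ ofComplex) (1 : ℝ) := by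
  intro z
  by_cases hzi : 0 < z.im
  · have hzi' : 0 < (z + (1 : ℝ)).im := by simpa using hzi
    have h1 := congrFun hT ⟨z, hzi⟩
    rw [ModularForm.SL_slash_apply] at h1
    simp only [Function.comp_apply, ofComplex_apply_of_im_pos hzi, ofComplex_apply_of_im_pos hzi']
    convert h1 using 1
    rw [ModularGroup.denom_apply]
    simp [ModularGroup.coe_T]
    congr 1
    refine UpperHalfPlane.ext ?_
    change z + 1 = ((ModularGroup.T • (⟨z, hzi⟩ : ℍ) : ℍ) : ℂ)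
    rw [modular_T_smul]
    simp [add_comm]
  · have hzi' : (z + (1 : ℝ)).im ≤ 0 := by simpa using hzi
    simp only [Function.comp_apply, ofComplex_apply_of_im_nonpos (not_lt.mp hzi),
      ofComplex_apply_of_im_nonpos hzi']

/-- Decay at infinity and the identities `h τ = p ^ n h σ`, `Im σ = p ^ (2 n) Im τ`, for `n`
running through the multiples of `r`, force `h = 0`. -/
private theorem eq_zero_of_scaling {h : ℍ → ℂ} (hp : p.Prime) {r : ℕ} (hr : 0 < r)
    (hper1 : Function.Periodic (h ∘ ofComplex) (1 : ℝ)) (hol : MDiff h) (hz : IsZeroAtImInfty h)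
    (hiter : ∀ (j : ℕ) (τ : ℍ), ∃ σ : ℍ, σ.im = (p : ℝ) ^ (2 * (r * j)) * τ.im ∧
      h τ = (p : ℂ) ^ (r * j) * h σ) : h = 0 := by
  obtain ⟨C, hC⟩ := Asymptotics.IsBigO.bound
    (UpperHalfPlane.IsZeroAtImInfty.exp_decay_atImInfty hz one_pos hper1 hol
      (Filter.ZeroAtFilter.boundedAtFilter hz))
  obtain ⟨A, hA⟩ := (atImInfty_mem _).mp hC
  funext τ
  have hpow : Tendsto (fun j : ℕ ↦ (p : ℝ) ^ (r * j)) atTop atTop :=
    (tendsto_pow_atTop_atTop_of_one_lt (by exact_mod_cast hp.one_lt)).comp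
      (tendsto_id.const_mul_atTop' hr)
  have hlim : Tendsto (fun x : ℝ ↦ x * (C * Real.exp (-2 * Real.pi * (x ^ 2 * τ.im) / 1)))
      atTop (𝓝 0) := by
    have hmain : Tendsto (fun x : ℝ ↦ x * Real.exp (-(2 * Real.pi * τ.im) * x)) atTop (𝓝 0) := by
      simpa using tendsto_rpow_mul_exp_neg_mul_atTop_nhds_zero 1 (2 * Real.pi * τ.im)
        (by have := τ.im_pos; positivity)
    refine squeeze_zero_norm' (a := fun x ↦ |C| * (x * Real.exp (-(2 * Real.pi * τ.im) * x))) ?_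
      (by simpa using hmain.const_mul |C|)
    filter_upwards [eventually_ge_atTop 1] with x hx
    rw [norm_mul, norm_mul, Real.norm_of_nonneg (by linarith : (0 : ℝ) ≤ x), Real.norm_eq_abs C,
      Real.norm_of_nonneg (Real.exp_pos _).le, mul_left_comm]
    refine mul_le_mul_of_nonneg_left (mul_le_mul_of_nonneg_left (Real.exp_le_exp.mpr ?_)
      (by linarith)) (abs_nonneg C)
    have hy := τ.im_pos
    have : 0 ≤ 2 * Real.pi * τ.im := by positivity
    have hxx : x ≤ x ^ 2 := by nlinarith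
    rw [div_one]
    nlinarith [mul_le_mul_of_nonneg_left hxx this]
  rw [Pi.zero_apply, ← norm_eq_zero]
  refine le_antisymm (ge_of_tendsto (hlim.comp hpow) ?_) (norm_nonneg _)
  filter_upwards [(hpow.atTop_mul_const τ.im_pos).eventually_ge_atTop A] with j hj
  obtain ⟨σ, hσ, he⟩ := hiter j τ
  have hσA : A ≤ σ.im := by
    rw [hσ]
    refine hj.trans (mul_le_mul_of_nonneg_right ?_ τ.im_pos.le)
    exact pow_le_pow_right₀ (by exact_mod_cast hp.one_le) (by omega)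
  have hb := hA σ hσA
  simp only [Set.mem_ofPred_eq, Real.norm_eq_abs, Real.abs_exp] at hb
  rw [he, norm_mul, norm_pow, Complex.norm_natCast, Function.comp_apply]
  refine mul_le_mul_of_nonneg_left (hb.trans (le_of_eq ?_)) (by positivity)
  rw [hσ, ← pow_mul, mul_comm 2 (r * j)]

/-- A function invariant under `Γ₁(N)` and `τ ↦ τ + 1/p`, tending to zero at infinity, is zero. -/
theorem eq_zero_of_invariant [NeZero N] {h : ℍ → ℂ} (hp : p.Prime) (hpN : ¬ p ∣ N)
    (hinv : ∀ γ ∈ Gamma1 N, h ∣[(1 : ℤ)] γ = h)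
    (hU : h ∣[(1 : ℤ)] ModularForm.upperTriangularGL 1 (1 / p) 1 (by norm_num) = h)
    (hz : IsZeroAtImInfty h) (hol : MDiff h) : h = 0 := by
  have hp0 : (p : ℝ) ≠ 0 := Nat.cast_ne_zero.mpr hp.ne_zero
  have hcop : IsCoprime ((p : ℤ) + N) ((p : ℤ) * N) := by
    have h1 : IsCoprime (p : ℤ) N := Nat.isCoprime_iff_coprime.mpr (hp.coprime_iff_not_dvd.mpr hpN)
    refine IsCoprime.mul_right ?_ ?_
    · simpa [add_comm] using h1.symm.add_mul_left_left 1
    · simpa using (h1.add_mul_left_left 1)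
  obtain ⟨a, b, hab⟩ := hcop
  let γ₂ : SL(2, ℤ) := ⟨!![a, -b; p * N, p + N],
    by rw [Matrix.det_fin_two_of]; linear_combination hab⟩
  let L : SL(2, ℤ) := ⟨!![1, 0; N, 1], by simp [Matrix.det_fin_two_of]⟩
  have hL : L ∈ Gamma1 N := by rw [Gamma1_mem]; simp [L]
  have hγ₂ : γ₂ ∈ Gamma0 N := by rw [Gamma0_mem]; simp [γ₂]
  let X : GL (Fin 2) ℝ := ModularForm.upperTriangularGL p (((a + b * p : ℤ) : ℝ) / p) (1 / p)
      (by field_simp; exact one_ne_zero)
  have hmat : X * mapGL ℝ γ₂ = mapGL ℝ L *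
      ModularForm.upperTriangularGL 1 (1 / p) 1 (by norm_num) := by
    have hab' : (a : ℝ) * (p + N) + b * (p * N) = 1 := by exact_mod_cast hab
    have hmap : ∀ g : SL(2, ℤ), (mapGL ℝ g : GL (Fin 2) ℝ).val = g.1.map Int.cast := fun g => rfl
    refine Units.ext ?_
    rw [Units.val_mul, Units.val_mul, hmap, hmap, ModularForm.val_upperTriangularGL,
      ModularForm.val_upperTriangularGL]
    ext i j
    fin_cases i <;> fin_cases j <;>
      simp [γ₂, L, Matrix.mul_apply, Fin.sum_univ_two] <;> field_simp <;>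
      first | ring1 | linear_combination hab'
  -- conjugates of `h` by the powers of `γ₂⁻¹`, and the relation `F i | X = F (i + 1)`
  let F : ℕ → ℍ → ℂ := fun i ↦ h ∣[(1 : ℤ)] (γ₂⁻¹ ^ i)
  have hF_inv : ∀ i, ∀ γ ∈ Gamma1 N, F i ∣[(1 : ℤ)] γ = F i := fun i γ hγ ↦ by
    show (h ∣[(1 : ℤ)] (γ₂⁻¹ ^ i)) ∣[(1 : ℤ)] γ = _
    rw [← SlashAction.slash_mul,
      show γ₂⁻¹ ^ i * γ = (γ₂⁻¹ ^ i * γ * (γ₂⁻¹ ^ i)⁻¹) * γ₂⁻¹ ^ i by group,
      SlashAction.slash_mul, hinv _ (conj_mem_Gamma1 (pow_mem (inv_mem hγ₂) i) hγ)]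
  have hrel : ∀ i, F i ∣[(1 : ℤ)] X = F (i + 1) := by
    have hstep : ∀ i, F i ∣[(1 : ℤ)] ModularForm.upperTriangularGL 1 (1 / p) 1 (by norm_num) = F i →
        F i ∣[(1 : ℤ)] X = F (i + 1) := fun i hi ↦ by
      rw [slash_eq_slash_inv_of_mul_eq hmat (hF_inv i L hL) hi]
      simp only [F, ← SlashAction.slash_mul, ← pow_succ]
    intro i
    induction i with
    | zero => exact hstep 0 (by simpa [F] using hU)
    | succ i ih => exact hstep _ (ih ▸ slash_upperTriangular_periodic hp (hF_inv i) _ _)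
  let r := Nat.card (ZMod N)ˣ
  have hFr : F r = h := hinv _ (pow_card_mem_Gamma1 (inv_mem hγ₂))
  -- the scaling identity
  have hscale : ∀ (i : ℕ) (τ : ℍ), ∃ σ : ℍ, σ.im = (p : ℝ) ^ (2 * i) * τ.im ∧
      F i τ = (p : ℂ) ^ i * h σ := by
    intro i
    induction i with
    | zero => exact fun τ ↦ ⟨τ, by simp, by simp [F]⟩
    | succ i ih =>
      intro τ
      obtain ⟨σ₀, hσ₀, e⟩ := exists_slash_upperTriangular hp (a + b * p) _ (F i) τ
      obtain ⟨σ, hσ, he⟩ := ih σ₀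
      exact ⟨σ, by rw [hσ, hσ₀]; ring, by rw [← hrel i, e, he]; ring⟩
  have hiter : ∀ (j : ℕ) (τ : ℍ), ∃ σ : ℍ, σ.im = (p : ℝ) ^ (2 * (r * j)) * τ.im ∧
      h τ = (p : ℂ) ^ (r * j) * h σ := by
    intro j
    induction j with
    | zero => exact fun τ ↦ ⟨τ, by simp, by simp⟩
    | succ j ih =>
      intro τ
      obtain ⟨σ, hσ, he⟩ := ih τ
      obtain ⟨σ', hσ', he'⟩ := hscale r σ
      rw [hFr] at he'
      exact ⟨σ', by rw [hσ', hσ, ← mul_assoc, ← pow_add]; ring_nf,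
        by rw [he, he', ← mul_assoc, ← pow_add]; ring_nf⟩
  exact eq_zero_of_scaling hp Nat.card_pos
    (periodic_comp_ofComplex (hinv _ (by simp [ModularGroup.coe_T]))) hol hz hiter

/-- The relations at `p` force the action of the diamond operator at `p`. -/
theorem slash_eq_of_relation [NeZero N] (hf : IsCF 1 (Gamma1 N) f) (hp : p.Prime) (hpN : ¬ p ∣ N)
    {σp : SL(2, ℤ)} (hσ : σp ∈ Gamma0 N) (hσp : ((σp 1 1 : ℤ) : ZMod N) = p) {e : ℂ} {c : ℂ}
    (hrel : ∀ n : ℕ, ModularFormClass.qCoeff f (p * n)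
      + e * (if p ∣ n then ModularFormClass.qCoeff f (n / p) else 0) =
        c * ModularFormClass.qCoeff f n) :
    f ∣[(1 : ℤ)] σp = e • f := by
  have hT : ModularGroup.T ∈ Gamma1 N := by simp [ModularGroup.coe_T]
  obtain ⟨hper, hhol, hbdd⟩ := mem_PB.mp (hf.1.mem_PB hT)
  set D := ModularForm.heckeDiagMatrix p
  have hdiagPB : f ∣[(1 : ℤ)] D ∈ PB := by
    have e : f ∣[(1 : ℤ)] D = ModularForm.heckeT 1 p f - ModularForm.heckeU 1 p f := by
      rw [ModularForm.heckeT_eq_heckeU_add, add_sub_cancel_left]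
    rw [e]
    exact sub_mem (mem_PB.mpr ⟨ModularForm.periodic_heckeT_comp_ofComplex hper 1 p,
        ModularForm.mdifferentiable_heckeT hhol 1 p,
          ModularForm.isBoundedAtImInfty_heckeT hbdd 1 p⟩)
      (mem_PB.mpr ⟨ModularForm.periodic_heckeU_comp_ofComplex hper 1 p,
        ModularForm.mdifferentiable_heckeU hhol 1 p,
          ModularForm.isBoundedAtImInfty_heckeU hbdd 1 p⟩)
  have hUPB : ModularForm.heckeU 1 p f ∈ PB := mem_PB.mpr
    ⟨ModularForm.periodic_heckeU_comp_ofComplex hper 1 p,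
      ModularForm.mdifferentiable_heckeU hhol 1 p, ModularForm.isBoundedAtImInfty_heckeU hbdd 1 p⟩
  have hTPB : ModularForm.heckeT 1 p f ∈ PB := mem_PB.mpr
    ⟨ModularForm.periodic_heckeT_comp_ofComplex hper 1 p,
      ModularForm.mdifferentiable_heckeT hhol 1 p, ModularForm.isBoundedAtImInfty_heckeT hbdd 1 p⟩
  have hfPB : f ∈ PB := hf.1.mem_PB hT
  have hid : ModularForm.heckeU 1 p f + e • (f ∣[(1 : ℤ)] D) = c • f := by
    refine qE_injective (add_mem hUPB (PB.smul_mem hdiagPB e)) (PB.smul_mem hfPB c) ?_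
    have hD' : f ∣[(1 : ℤ)] D = ModularForm.heckeT 1 p f - ModularForm.heckeU 1 p f := by
      rw [ModularForm.heckeT_eq_heckeU_add, add_sub_cancel_left]
    rw [qE_add hUPB (PB.smul_mem hdiagPB e), qE_smul hdiagPB, qE_smul hfPB, hD', qE_sub hTPB hUPB]
    ext n
    have hu : PowerSeries.coeff n (qE (ModularForm.heckeU 1 p f))
        = ModularForm.coeffHeckeU p (ModularFormClass.qCoeff f) n :=
      UpperHalfPlane.qCoeff_heckeU hper hhol hbdd 1 hp.ne_zero n
    have ht : PowerSeries.coeff n (qE (ModularForm.heckeT 1 p f))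
        = ModularForm.coeffHeckeT 1 p (ModularFormClass.qCoeff f) n :=
      UpperHalfPlane.qCoeff_heckeT hper hhol hbdd 1 hp.ne_zero n
    simp only [map_add, map_smul, map_sub, hu, ht, smul_eq_mul]
    rw [show PowerSeries.coeff n (qE f) = ModularFormClass.qCoeff f n from rfl, ← hrel n]
    simp [ModularForm.coeffHeckeT, ModularForm.coeffHeckeU, mul_comm p n]
  have hσD : UpperHalfPlane.σ D = .refl ℝ ℂ := ModularForm.σ_heckeDiagMatrix p
  set g := f ∣[(1 : ℤ)] σp - e • f with hg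
  have hgD : g ∣[(1 : ℤ)] D
      = ModularForm.heckeU 1 p f + (f ∣[(1 : ℤ)] σp) ∣[(1 : ℤ)] D - c • f := by
    rw [← hid, hg, sub_eq_add_neg, SlashAction.add_slash, SlashAction.neg_slash,
      ModularForm.smul_slash, hσD]
    simp only [ContinuousAlgEquiv.refl_apply]
    abel
  have hinvh : ∀ γ ∈ Gamma1 N, (g ∣[(1 : ℤ)] D) ∣[(1 : ℤ)] γ = g ∣[(1 : ℤ)] D := by
    intro γ hγ
    rw [hgD, sub_eq_add_neg, SlashAction.add_slash, neg_slash_SL, ModularForm.SL_smul_slash,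
      heckeT_Gamma1_invariant 1 hf.1 hp hpN hσ hσp hγ, hf.1.slash γ hγ]
  have hgper : g ∣[(1 : ℤ)] ModularGroup.T = g := by
    rw [hg, sub_eq_add_neg, SlashAction.add_slash, neg_slash_SL, ModularForm.SL_smul_slash,
      hf.1.slash _ hT]
    congr 1
    have hn : ModularGroup.T = σp⁻¹ * (σp * ModularGroup.T * σp⁻¹) * σp := by group
    rw [← SlashAction.slash_mul]
    refine slash_eq_of_lowerRight_eq hf.1 (mul_mem hσ (Gamma1_in_Gamma0 N hT)) hσ ?_
    simp [Matrix.mul_apply, Fin.sum_univ_two, ModularGroup.coe_T, Gamma0_mem.mp hσ]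
  have hp0 : (p : ℝ) ≠ 0 := Nat.cast_ne_zero.mpr hp.ne_zero
  have hU : (g ∣[(1 : ℤ)] D) ∣[(1 : ℤ)] ModularForm.upperTriangularGL 1 (1 / p) 1 (by norm_num)
      = g ∣[(1 : ℤ)] D := by
    have hm : D * ModularForm.upperTriangularGL 1 (1 / p) 1 (by norm_num) =
        mapGL ℝ ModularGroup.T * D := by
      refine Units.ext ?_
      simp only [Units.val_mul, D, ModularForm.val_heckeDiagMatrix hp.ne_zero,
        ModularForm.val_upperTriangularGL]
      ext i j
      fin_cases i <;> fin_cases j <;> simp [Matrix.mul_apply, Fin.sum_univ_two,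
        ModularGroup.coe_T, hp0]
    rw [← SlashAction.slash_mul, hm, SlashAction.slash_mul]
    congr 1
  have hgz : IsZeroAtImInfty g := by
    rw [hg, sub_eq_add_neg]
    exact (hf.2 σp).add (((by simpa using hf.2 1 : IsZeroAtImInfty f)).smul e).neg
  have hgh : MDiff g := (mdiff_slash hf.1.holo 1 σp).sub (hf.1.holo.const_smul e)
  have hD10 : D 1 0 = 0 := by simp [D, ModularForm.val_heckeDiagMatrix hp.ne_zero]
  have h0 := eq_zero_of_invariant hp hpN hinvh hU (IsZeroAtImInfty.slash 1 hD10 hgz) (hgh.slash 1 D)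
  have hg0 : g = 0 := by
    have := congrArg (fun F ↦ F ∣[(1 : ℤ)] D⁻¹) h0
    simpa [← SlashAction.slash_mul] using this
  exact sub_eq_zero.mp hg0

/-- The form has the character `ε`. -/
theorem slash_eq_char_of_relations [NeZero N] (ε : DirichletCharacter ℂ N) {a : ℕ → ℂ}
    (hf : IsCF 1 (Gamma1 N) f)
    (hrel : ∀ q : ℕ, q.Prime → ¬ q ∣ N → ∀ n : ℕ, ModularFormClass.qCoeff f (q * n)
      + ε (q : ZMod N) * (if q ∣ n then ModularFormClass.qCoeff f (n / q) else 0)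
        = a q * ModularFormClass.qCoeff f n)
    {γ : SL(2, ℤ)} (hγ : γ ∈ Gamma0 N) :
    f ∣[(1 : ℤ)] γ = ε ((γ 1 1 : ℤ) : ZMod N) • f := by
  -- every natural number prime to `N` occurs as a lower right entry
  have hrep : ∀ d : ℕ, d.Coprime N → ∃ σ : SL(2, ℤ), σ ∈ Gamma0 N ∧ ((σ 1 1 : ℤ) : ZMod N) = d := by
    intro d hd
    obtain ⟨x, y, hxy⟩ := Nat.isCoprime_iff_coprime.mpr hd
    refine ⟨⟨!![x, -y; (N : ℤ), d], by rw [Matrix.det_fin_two_of]; linear_combination hxy⟩, ?_, ?_⟩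
    · exact Gamma0_mem.mpr (by simp)
    · simp
  suffices H : ∀ d : ℕ, d.Coprime N → ∀ σ : SL(2, ℤ), σ ∈ Gamma0 N →
      ((σ 1 1 : ℤ) : ZMod N) = d → f ∣[(1 : ℤ)] σ = ε (d : ZMod N) • f by
    set u : ZMod N := ((γ 1 1 : ℤ) : ZMod N)
    have hu : IsUnit u := by
      have := congrArg (Int.cast : ℤ → ZMod N) ((Matrix.det_fin_two γ.1).symm.trans γ.2)
      push_cast at this
      rw [Gamma0_mem.mp hγ, mul_zero, sub_zero] at this
      exact isUnit_iff_exists_inv.mpr ⟨_, (mul_comm _ _).trans this⟩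
    have := H u.val (ZMod.val_coe_unit_coprime hu.unit) γ hγ (by simp [u])
    rwa [ZMod.natCast_zmod_val] at this
  intro d
  induction d using induction_on_primes with
  | zero =>
    intro hd σ hσ hσd
    have hN : N = 1 := Nat.coprime_zero_left N |>.mp hd
    subst hN
    have e : f ∣[(1 : ℤ)] σ = f := hf.1.slash σ (by
      simp [Gamma1_mem]
      exact ⟨Subsingleton.elim _ _, Subsingleton.elim _ _, Subsingleton.elim _ _⟩)
    rw [e, Subsingleton.elim ((0 : ℕ) : ZMod 1) 1, map_one, one_smul]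
  | one =>
    intro _ σ hσ hσd
    rw [Nat.cast_one, map_one, one_smul]
    refine hf.1.slash σ ?_
    rw [Gamma1_mem]
    have hd1 : ((σ 1 1 : ℤ) : ZMod N) = 1 := by simpa using hσd
    refine ⟨?_, hd1, Gamma0_mem.mp hσ⟩
    have := congrArg (Int.cast : ℤ → ZMod N) ((Matrix.det_fin_two σ.1).symm.trans σ.2)
    push_cast at this
    rwa [hd1, Gamma0_mem.mp hσ, mul_zero, sub_zero, mul_one] at this
  | prime_mul q d hq ih =>
    intro hd σ hσ hσd
    rw [Nat.coprime_mul_iff_left] at hd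
    have hqN : ¬ q ∣ N := hq.coprime_iff_not_dvd.mp hd.1
    obtain ⟨σq, hσq, hσqd⟩ := hrep q hd.1
    obtain ⟨σd, hσd', hσdd⟩ := hrep d hd.2
    have e : f ∣[(1 : ℤ)] σ = f ∣[(1 : ℤ)] (σq * σd) := by
      refine slash_eq_of_lowerRight_eq hf.1 hσ (mul_mem hσq hσd') ?_
      rw [hσd]
      simp [Matrix.mul_apply, Fin.sum_univ_two, Gamma0_mem.mp hσq, hσqd, hσdd]
    rw [e, SlashAction.slash_mul, slash_eq_of_relation hf hq hqN hσq hσqd (hrel q hq hqN),
      ModularForm.SL_smul_slash, ih hd.2 σd hσd' hσdd, smul_smul, Nat.cast_mul, map_mul]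

end FLTAgent.DeligneSerre
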