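import Mathlib
import Fermat.Agent.DeligneSerre.Orbit

set_option autoImplicit false

/-!
# Places at which a finite family of algebraic integers has residues in the prime field

`exists_place_primeField`: for arbitrarily large primes `ℓ` there is a valuation subring of `ℂ`
over `ℓ` at which every member of a family of algebraic integers with finite joint orbit reduces
into the prime field. `res` is the residue map of a valuation subring.
-/

noncomputable section

open Polynomial

namespace FLTAgent.DeligneSerre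

/-- Arbitrarily large primes divide a value of a non-constant polynomial. -/
theorem exists_prime_dvd_eval (P : ℤ[X]) (hP : 0 < P.natDegree) (B : ℕ) :
    ∃ ℓ : ℕ, ℓ.Prime ∧ B < ℓ ∧ ∃ t : ℤ, (ℓ : ℤ) ∣ P.eval t := by
  rcases eq_or_ne (P.eval 0) 0 with h0 | h0
  · obtain ⟨ℓ, hℓ, hℓp⟩ := Nat.exists_infinite_primes (B + 1)
    exact ⟨ℓ, hℓp, by omega, 0, by rw [h0]; exact dvd_zero _⟩
  set c := P.eval 0 with hc
  set m : ℤ := (B.factorial : ℤ) with hm
  have hm0 : m ≠ 0 := by rw [hm]; exact_mod_cast B.factorial_ne_zero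
  set R := P.comp (C (c * m) * X) with hR
  have hRdeg : 0 < R.natDegree := by
    rw [hR, natDegree_comp, natDegree_C_mul_X _ (mul_ne_zero h0 hm0), mul_one]
    exact hP
  obtain ⟨y, hy⟩ : ∃ y : ℤ, R.eval y ≠ c ∧ R.eval y ≠ -c := by
    have hne : ∀ d : ℤ, R - C d ≠ 0 := fun d h ↦ by
      rw [sub_eq_zero] at h
      rw [h, natDegree_C] at hRdeg
      exact lt_irrefl _ hRdeg
    obtain ⟨y, hy⟩ := Infinite.exists_notMem_finset
      ((R - C c).roots.toFinset ∪ (R - C (-c)).roots.toFinset)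
    refine ⟨y, fun h ↦ hy ?_, fun h ↦ hy ?_⟩
    · refine Finset.mem_union_left _ ?_
      rw [Multiset.mem_toFinset, mem_roots (hne c)]
      simp [h]
    · refine Finset.mem_union_right _ ?_
      rw [Multiset.mem_toFinset, mem_roots (hne (-c))]
      simp [h]
  set u : ℤ := 1 + m * y * (P.divX.eval (c * m * y)) with hu
  have hval : R.eval y = c * u := by
    have hsplit := congrArg (eval (c * m * y)) (P.X_mul_divX_add)
    simp only [eval_add, eval_mul, eval_X, eval_C, coeff_zero_eq_eval_zero, ← hc] at hsplit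
    rw [hR, eval_comp, eval_mul, eval_C, eval_X, hu, ← hsplit]
    ring
  have hu1 : u.natAbs ≠ 1 := by
    intro h
    rcases Int.natAbs_eq u with h' | h' <;> rw [h] at h' <;> rw [h'] at hval
    · exact hy.1 (by simpa using hval)
    · exact hy.2 (by simpa using hval)
  obtain ⟨ℓ, hℓ, hdvd⟩ := Nat.exists_prime_and_dvd hu1
  have hdvd' : (ℓ : ℤ) ∣ u := Int.natCast_dvd.mpr hdvd
  refine ⟨ℓ, hℓ, ?_, c * m * y, ?_⟩
  · by_contra hle
    have hdm : (ℓ : ℤ) ∣ m := by
      rw [hm]
      exact_mod_cast Nat.dvd_factorial hℓ.pos (not_lt.mp hle)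
    have h1 : (ℓ : ℤ) ∣ 1 := by
      have := dvd_sub hdvd' ((hdm.mul_right y).mul_right (P.divX.eval (c * m * y)))
      rwa [hu, add_sub_cancel_right] at this
    exact hℓ.one_lt.ne' (by exact_mod_cast Int.eq_one_of_dvd_one (Int.natCast_nonneg ℓ) h1)
  · have : P.eval (c * m * y) = R.eval y := by rw [hR, eval_comp, eval_mul, eval_C, eval_X]
    rw [this, hval]
    exact dvd_mul_of_dvd_right hdvd' c

/-- A valuation subring of `ℂ` over a prime. -/
theorem exists_valuationSubring_prime {ℓ : ℕ} (hℓ : ℓ.Prime) :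
    ∃ V : ValuationSubring ℂ, (ℓ : ℂ) ∈ V.nonunits := by
  let A : Subring ℂ := (Int.castRingHom ℂ).range
  let z : A := ⟨(ℓ : ℂ), ⟨ℓ, by simp⟩⟩
  have hne : Ideal.span {z} ≠ ⊤ := by
    rw [Ne, Ideal.span_singleton_eq_top, isUnit_iff_exists_inv]
    rintro ⟨⟨_, w, rfl⟩, h⟩
    have h' : ((ℓ : ℤ) * w : ℤ) = 1 := by
      have := congrArg (fun v : A ↦ (v : ℂ)) h
      simp [z] at this
      exact_mod_cast this
    exact hℓ.one_lt.ne' (by exact_mod_cast Int.eq_one_of_mul_eq_one_right (Int.natCast_nonneg ℓ) h')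
  obtain ⟨V, -, hV⟩ := Ideal.image_subset_nonunits_valuationSubring _ hne
  exact ⟨V, hV ⟨z, Ideal.mem_span_singleton_self z, rfl⟩⟩

section Valuation

variable (V : ValuationSubring ℂ)

theorem mem_of_isIntegralInt {x : ℂ} (hx : IsIntegral ℤ x) : x ∈ V := by
  obtain ⟨y, hy⟩ := IsIntegrallyClosed.isIntegral_iff.mp
    (hx.tower_top : IsIntegral V x)
  rw [← hy]
  exact y.2

/-- The residue of an element of `V`. -/
def res (x : ℂ) : IsLocalRing.ResidueField V :=
  open Classical in if h : x ∈ V then IsLocalRing.residue V ⟨x, h⟩ else 0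

theorem res_eq {x : ℂ} (h : x ∈ V) : res V x = IsLocalRing.residue V ⟨x, h⟩ := dif_pos h

theorem res_add {x y : ℂ} (hx : x ∈ V) (hy : y ∈ V) : res V (x + y) = res V x + res V y := by
  rw [res_eq V hx, res_eq V hy, res_eq V (add_mem hx hy), ← map_add]
  rfl

theorem res_sub {x y : ℂ} (hx : x ∈ V) (hy : y ∈ V) : res V (x - y) = res V x - res V y := by
  rw [res_eq V hx, res_eq V hy, res_eq V (sub_mem hx hy), ← map_sub]
  rfl

theorem res_mul {x y : ℂ} (hx : x ∈ V) (hy : y ∈ V) : res V (x * y) = res V x * res V y := by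
  rw [res_eq V hx, res_eq V hy, res_eq V (mul_mem hx hy), ← map_mul]
  rfl

theorem res_intCast (n : ℤ) : res V (n : ℂ) = (n : IsLocalRing.ResidueField V) := by
  rw [res_eq V (intCast_mem V n), ← map_intCast (IsLocalRing.residue V) n]
  rfl

theorem res_natCast (n : ℕ) : res V (n : ℂ) = (n : IsLocalRing.ResidueField V) := by
  exact_mod_cast res_intCast V n

theorem res_eq_zero_iff {x : ℂ} (hx : x ∈ V) : res V x = 0 ↔ x ∈ V.nonunits := by
  rw [res_eq V hx, IsLocalRing.residue_eq_zero_iff, ← ValuationSubring.coe_mem_nonunits_iff]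

theorem charP_residueField {ℓ : ℕ} (hℓ : ℓ.Prime) (hV : (ℓ : ℂ) ∈ V.nonunits) :
    CharP (IsLocalRing.ResidueField V) ℓ := by
  have h0 : (ℓ : IsLocalRing.ResidueField V) = 0 := by
    rw [← res_natCast, res_eq_zero_iff V (natCast_mem V ℓ)]
    exact hV
  exact (CharP.charP_iff_prime_eq_zero hℓ).mpr h0

/-- The residue of the value of an integer polynomial. -/
theorem res_aeval {θ : ℂ} (hθ : θ ∈ V) (F : ℤ[X]) :
    aeval θ F ∈ V ∧ res V (aeval θ F) = aeval (res V θ) F := by
  induction F using Polynomial.induction_on' with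
  | add a b ha hb =>
    simp only [map_add]
    exact ⟨add_mem ha.1 hb.1, by rw [res_add V ha.1 hb.1, ha.2, hb.2]⟩
  | monomial n c =>
    simp only [aeval_monomial, eq_intCast]
    refine ⟨mul_mem (intCast_mem V c) (pow_mem hθ n), ?_⟩
    rw [res_mul V (intCast_mem V c) (pow_mem hθ n), res_intCast, res_eq V hθ,
      res_eq V (pow_mem hθ n), ← map_pow]
    rfl

/-- A nonzero algebraic integer has nonzero residue at almost every prime. -/
theorem exists_bound_res_ne_zero {d : ℂ} (hd : IsIntegral ℤ d) (hd0 : d ≠ 0) :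
    ∃ B : ℕ, ∀ ℓ : ℕ, ℓ.Prime → B < ℓ → ∀ V : ValuationSubring ℂ, (ℓ : ℂ) ∈ V.nonunits →
      res V d ≠ 0 := by
  set c : ℤ := (minpoly ℤ d).coeff 0 with hc
  have hc0 : c ≠ 0 := fun h ↦ by
    refine minpoly.coeff_zero_ne_zero (hd.tower_top (A := ℚ)) hd0 ?_
    rw [minpoly.isIntegrallyClosed_eq_field_fractions' ℚ hd, coeff_map, ← hc, h, map_zero]
  refine ⟨c.natAbs, fun ℓ hℓ hlt V hV h0 ↦ ?_⟩
  have := charP_residueField V hℓ hV
  have hmem := mem_of_isIntegralInt V hd
  obtain ⟨-, h⟩ := res_aeval V hmem (minpoly ℤ d)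
  rw [minpoly.aeval, h0, ← Polynomial.coeff_zero_eq_aeval_zero', ← hc] at h
  rw [show res V 0 = 0 by rw [res_eq V (zero_mem V)]; exact map_zero _, eq_intCast, eq_comm,
    CharP.intCast_eq_zero_iff _ ℓ, Int.natCast_dvd] at h
  exact absurd (Nat.le_of_dvd (Int.natAbs_pos.mpr hc0) h) (by omega)

end Valuation

/-- For arbitrarily large primes there is a place at which all members of a family with finite
joint orbit have residues in the prime field. -/
theorem exists_place_primeField {ι : Type*} (x : ι → ℂ)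
    (hfin : (Set.range fun σ : ℂ ≃+* ℂ ↦ fun i ↦ σ (x i)).Finite)
    (hint : ∀ i, IsIntegral ℤ (x i)) (B : ℕ) :
    ∃ ℓ : ℕ, ℓ.Prime ∧ B < ℓ ∧ ∃ V : ValuationSubring ℂ, (ℓ : ℂ) ∈ V.nonunits ∧
      ∀ i, ∃ n : ℤ, res V (x i) = (n : IsLocalRing.ResidueField V) := by
  obtain ⟨θ, P, Q, hPm, hPθ, hd0, hθint, hconj, hQ⟩ := exists_generator x hfin hint
  have hdint : IsIntegral ℤ (aeval θ (derivative P)) := adjoin_le_integralClosure hθint
    (aeval_mem_adjoin_singleton ℤ θ)
  obtain ⟨B', hB'⟩ := exists_bound_res_ne_zero hdint hd0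
  have hdeg : 0 < P.natDegree := by
    refine Nat.pos_of_ne_zero fun h ↦ ?_
    rw [hPm.natDegree_eq_zero.mp h, map_one] at hPθ
    exact one_ne_zero hPθ
  obtain ⟨ℓ, hℓ, hlt, t, ht⟩ := exists_prime_dvd_eval P hdeg (max B B')
  obtain ⟨V, hV⟩ := exists_valuationSubring_prime hℓ
  have := charP_residueField V hℓ hV
  -- `t` is congruent to some conjugate of `θ`
  have hsplit : ∃ σ : ℂ ≃+* ℂ, res V (σ θ) = (t : IsLocalRing.ResidueField V) := by
    set F := P.map (Int.castRingHom ℂ) with hF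
    have hFm : F.Monic := hPm.map _
    have hmemV : ∀ y ∈ F.roots, y ∈ V := fun y hy ↦ by
      rw [mem_roots hFm.ne_zero, IsRoot.def, hF, eval_map] at hy
      exact mem_of_isIntegralInt V ⟨P, hPm, hy⟩
    have hprod : (F.roots.map fun y ↦ (t : ℂ) - y).prod = (P.eval t : ℤ) := by
      conv_rhs => rw [← eq_intCast (Int.castRingHom ℂ) (P.eval t), ← eval_map_apply, ← hF,
        (IsAlgClosed.splits F).eq_prod_roots_of_monic hFm]
      rw [eval_multiset_prod, Multiset.map_map]
      simp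
    have hres : ∀ s : Multiset ℂ, (∀ y ∈ s, y ∈ V) →
        res V (s.map fun y ↦ (t : ℂ) - y).prod
          = (s.map fun y ↦ (t : IsLocalRing.ResidueField V) - res V y).prod ∧
        (s.map fun y ↦ (t : ℂ) - y).prod ∈ V := by
      intro s
      induction s using Multiset.induction_on with
      | empty =>
        intro _
        simp only [Multiset.map_zero, Multiset.prod_zero]
        exact ⟨by rw [res_eq V (one_mem V)]; exact map_one _, one_mem V⟩
      | cons a s ih =>
        intro hs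
        obtain ⟨h1, h2⟩ := ih fun y hy ↦ hs y (Multiset.mem_cons_of_mem hy)
        have ha := hs a (Multiset.mem_cons_self a s)
        simp only [Multiset.map_cons, Multiset.prod_cons]
        exact ⟨by rw [res_mul V (sub_mem (intCast_mem V t) ha) h2, h1,
          res_sub V (intCast_mem V t) ha, res_intCast], mul_mem (sub_mem (intCast_mem V t) ha) h2⟩
    obtain ⟨h1, -⟩ := hres F.roots hmemV
    rw [hprod, res_intCast, (CharP.intCast_eq_zero_iff _ ℓ _).mpr ht, eq_comm,
      Multiset.prod_eq_zero_iff, Multiset.mem_map] at h1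
    obtain ⟨y, hy, hy'⟩ := h1
    rw [mem_roots hFm.ne_zero, IsRoot.def, hF, eval_map] at hy
    obtain ⟨σ, rfl⟩ := hconj y hy
    exact ⟨σ, (sub_eq_zero.mp hy').symm⟩
  obtain ⟨σ, hσ⟩ := hsplit
  let W : ValuationSubring ℂ := V.comap (σ : ℂ →+* ℂ)
  have hWmem : ∀ y, y ∈ W ↔ σ y ∈ V := fun y ↦ Iff.rfl
  have hWnon : ∀ y, y ∈ W.nonunits ↔ σ y ∈ V.nonunits := fun y ↦ by
    constructor <;> intro h
    · obtain ⟨hy, hm⟩ := ValuationSubring.mem_nonunits_iff_exists_mem_maximalIdeal.mp h
      refine ValuationSubring.mem_nonunits_iff_exists_mem_maximalIdeal.mpr ⟨hy, ?_⟩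
      intro hu
      obtain ⟨⟨w, hw⟩, e⟩ := isUnit_iff_exists_inv.mp hu
      apply hm
      refine isUnit_iff_exists_inv.mpr ⟨⟨σ.symm w, by rw [hWmem, σ.apply_symm_apply]; exact hw⟩, ?_⟩
      refine Subtype.ext (σ.injective ?_)
      simpa using congrArg Subtype.val e
    · obtain ⟨hy, hm⟩ := ValuationSubring.mem_nonunits_iff_exists_mem_maximalIdeal.mp h
      refine ValuationSubring.mem_nonunits_iff_exists_mem_maximalIdeal.mpr ⟨hy, ?_⟩
      intro hu
      obtain ⟨⟨w, hw⟩, e⟩ := isUnit_iff_exists_inv.mp hu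
      apply hm
      refine isUnit_iff_exists_inv.mpr ⟨⟨σ w, hw⟩, ?_⟩
      exact Subtype.ext (by simpa using congrArg (fun v : W ↦ σ (v : ℂ)) e)
  have hW : (ℓ : ℂ) ∈ W.nonunits := by rw [hWnon, map_natCast]; exact hV
  refine ⟨ℓ, hℓ, lt_of_le_of_lt (le_max_left _ _) hlt, W, hW, fun i ↦ ?_⟩
  have := charP_residueField W hℓ hW
  have hθW : θ ∈ W := mem_of_isIntegralInt W hθint
  have hθres : res W θ = (t : IsLocalRing.ResidueField W) := by
    rw [← sub_eq_zero, ← res_intCast, ← res_sub W hθW (intCast_mem W t),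
      res_eq_zero_iff W (sub_mem hθW (intCast_mem W t)), hWnon, map_sub, map_intCast]
    rw [← res_eq_zero_iff V (sub_mem ((hWmem θ).mp hθW) (intCast_mem V t)),
      res_sub V ((hWmem θ).mp hθW) (intCast_mem V t), hσ, res_intCast, sub_self]
  have hxW : x i ∈ W := mem_of_isIntegralInt W (hint i)
  obtain ⟨hQm, hQr⟩ := res_aeval W hθW (Q i)
  obtain ⟨hDm, hDr⟩ := res_aeval W hθW (derivative P)
  have hkey := congrArg (res W) (hQ i)
  rw [res_mul W hxW hDm, hQr, hDr, hθres] at hkey
  have hD0 : aeval (t : IsLocalRing.ResidueField W) (derivative P) ≠ 0 := by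
    rw [← hθres, ← hDr]
    exact hB' ℓ hℓ (lt_of_le_of_lt (le_max_right _ _) hlt) W hW
  have hcast : ∀ F : ℤ[X], aeval (t : IsLocalRing.ResidueField W) F = (F.eval t : ℤ) := fun F ↦ by
    rw [← eq_intCast (algebraMap ℤ (IsLocalRing.ResidueField W)),
      aeval_algebraMap_apply_eq_algebraMap_eval]
    simp
  rw [hcast] at hD0
  rw [hcast, hcast] at hkey
  have := Fact.mk hℓ
  have hz : (((((Q i).eval t : ℤ) : ZMod ℓ) / (((derivative P).eval t : ℤ) : ZMod ℓ)).val :
      IsLocalRing.ResidueField W)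
      = res W (x i) := by
    have e : ∀ z : ℤ, (z : IsLocalRing.ResidueField W)
        = ZMod.castHom dvd_rfl (IsLocalRing.ResidueField W) (z : ZMod ℓ) :=
          fun z ↦ (map_intCast _ z).symm
    rw [ZMod.natCast_val, ← ZMod.castHom_apply (h := dvd_rfl), map_div₀, ← e, ← e, hkey,
      mul_div_cancel_right₀ _ hD0]
  exact ⟨_, hz.symm.trans (Int.cast_natCast _).symm⟩

end FLTAgent.DeligneSerre
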