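import Mathlib
import Fermat.Agent.DeligneSerre.Systems
import Fermat.Agent.DeligneSerre.SplitPrime
import Fermat.Agent.DeligneSerre.LiftBasics
import Fermat.Agent.DeligneSerre.Diamond
import Fermat.Prelude.Def_GaloisRep_Residual

set_option autoImplicit false

/-!
# From weight one to weight two modulo a prime

Multiplying by an Eisenstein series congruent to one (`exists_eisenstein_congr_one`) turns a weight
one eigen-system into a weight two system modulo `ℓ`; with `ResidualInput` this gives its residual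
Galois representation (`exists_residual_of_weightOne`).
-/

noncomputable section

open UpperHalfPlane CongruenceSubgroup Filter
open scoped MatrixGroups ModularForm Manifold Topology

local notation "Γℚ" => (AlgebraicClosure ℚ ≃ₐ[ℚ] AlgebraicClosure ℚ)

namespace FLTAgent.DeligneSerre

open FLTAgent.MFIntegral

/-- Residual representations attached to weight two eigen systems modulo `ℓ`. -/
def ResidualInput : Prop :=
  ∀ (M : ℕ) [NeZero M] (ℓ : ℕ), ℓ.Prime → 5 ≤ ℓ → ℓ ∣ M → ∀ (χ : DirichletCharacter ℂ M)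
    (F : CuspForm (Gamma1 M) 2),
    (∀ γ : SL(2, ℤ), γ ∈ Gamma0 M → (F : ℍ → ℂ) ∣[(2 : ℤ)] γ =
      χ ((γ 1 1 : ℤ) : ZMod M) • (F : ℍ → ℂ)) →
    ∀ (R : Subring ℂ) (hR : ∀ n, ModularFormClass.qCoeff F n ∈ R) (hχ : ∀ x, χ x ∈ R)
      {k : Type} [Field k] [IsAlgClosed k] [CharP k ℓ] (φ : R →+* k),
      φ ⟨_, hR 1⟩ = 1 →
      (∀ p : ℕ, p.Prime → ¬ p ∣ M → ∀ n, φ ⟨_, hR (p * n)⟩
        + (p : k) * φ ⟨χ p, hχ _⟩ * (if p ∣ n then φ ⟨_, hR (n / p)⟩ else 0)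
          = φ ⟨_, hR p⟩ * φ ⟨_, hR n⟩) →
      ∃ ρ : Γℚ →* GL (Fin 2) k, GaloisFactorsThroughFiniteLevel ρ ∧ ∀ p : ℕ, p.Prime → ¬ p ∣ M →
        ∀ A : ValuationSubring (AlgebraicClosure ℚ), A.LiesOverPrime p →
          (∀ σ ∈ A.inertiaSubgroupIn ℚ, ρ σ = 1) ∧
          ∀ σ, A.IsFrobeniusAt σ p → (ρ σ).val.trace = φ ⟨_, hR p⟩ ∧
            (ρ σ).val.det = (p : k) * φ ⟨χ p, hχ _⟩

theorem coeff_qE_divForm {N : ℕ} [NeZero N] {a : ℕ} (ha0 : 0 < a) (haN : a < N) (n : ℕ) :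
    PowerSeries.coeff n (qE (divForm N (a : ℤ)))
      = if n = 0 then 1 / 2 - (a : ℂ) / N else (divFormCoeff N a n : ℂ) := by
  have hnd : ¬ (N : ℤ) ∣ (a : ℤ) := fun h ↦ by
    have := Nat.le_of_dvd ha0 (Int.natCast_dvd_natCast.mp h)
    omega
  exact (ModularFormClass.qExpansion_coeff_unique (f := (divForm_isMF hnd).toMF)
    (Γ := (Gamma1 N : Subgroup (GL (Fin 2) ℝ))) (k := (1 : ℤ)) one_pos
    (by simp) (hasSum_divForm ha0 haN) n).symm

variable (V : ValuationSubring ℂ)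

local notation "κ" => IsLocalRing.ResidueField V

theorem res_sum {ι : Type*} (s : Finset ι) (x : ι → ℂ) (h : ∀ i ∈ s, x i ∈ V) :
    res V (∑ i ∈ s, x i) = ∑ i ∈ s, res V (x i) := by
  classical
  induction s using Finset.induction_on with
  | empty =>
    simp only [Finset.sum_empty]
    rw [res_eq V (zero_mem V)]
    exact map_zero _
  | insert i s hi ih =>
    rw [Finset.sum_insert hi, Finset.sum_insert hi,
      res_add V (h i (Finset.mem_insert_self i s))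
        (sum_mem fun j hj ↦ h j (Finset.mem_insert_of_mem hj)),
      ih fun j hj ↦ h j (Finset.mem_insert_of_mem hj)]

variable {ℓ : ℕ}

/-- A character reducing to the inverse of the identity. -/
theorem exists_invTeichmuller [Fact ℓ.Prime] (hV : (ℓ : ℂ) ∈ V.nonunits) :
    ∃ χ : DirichletCharacter ℂ ℓ, (∀ x, χ x ∈ V) ∧
      ∀ u : (ZMod ℓ)ˣ, res V (χ u) * ((u : ZMod ℓ).val : κ) = 1 := by
  have hℓ : ℓ.Prime := Fact.out
  have := charP_residueField V hℓ hV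
  have : NeZero (ℓ - 1) := ⟨by have := hℓ.two_le; omega⟩
  have hn : ((ℓ - 1 : ℕ) : κ) ≠ 0 := by
    rw [Ne, CharP.cast_eq_zero_iff κ ℓ]
    exact fun h ↦ by
      have := Nat.le_of_dvd (Nat.pos_of_ne_zero (NeZero.ne _)) h
      have := hℓ.two_le
      omega
  let e := MulEquiv.ofBijective (restrictRootsOfUnity (IsLocalRing.residue V) (ℓ - 1))
    (rootsOfUnity_residue_bijective V hn)
  let t : (ZMod ℓ)ˣ →* rootsOfUnity (ℓ - 1) κ :=
    (Units.map (ZMod.castHom dvd_rfl κ : ZMod ℓ →+* κ).toMonoidHom).codRestrict _ fun u ↦ by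
      rw [mem_rootsOfUnity, ← map_pow, ZMod.units_pow_card_sub_one_eq_one, map_one]
  let w : (ZMod ℓ)ˣ →* ℂˣ := (Units.map V.subtype.toMonoidHom).comp
    ((Subgroup.subtype _).comp (e.symm.toMonoidHom.comp t))
  let χ : DirichletCharacter ℂ ℓ := MulChar.ofUnitHom w⁻¹
  have hmem : ∀ x, χ x ∈ V := fun x ↦ mem_of_isIntegralInt V (isIntegral_char χ x)
  refine ⟨χ, hmem, fun u ↦ ?_⟩
  have hw : (w u : ℂ) = ((((e.symm (t u) : rootsOfUnity (ℓ - 1) V) : Vˣ) : V) : ℂ) := rfl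
  have hwV : (w u : ℂ) ∈ V := by rw [hw]; exact SetLike.coe_mem _
  have hres : res V (w u : ℂ) = ((u : ZMod ℓ).val : κ) := by
    rw [res_eq V hwV]
    have h := congrArg (fun z : rootsOfUnity (ℓ - 1) κ ↦ ((z : κˣ) : κ)) (e.apply_symm_apply (t u))
    refine h.trans ?_
    show ZMod.castHom dvd_rfl κ (u : ZMod ℓ) = _
    rw [ZMod.castHom_apply, ZMod.natCast_val]
  have hχu : χ u = ((w u)⁻¹ : ℂˣ) := by
    show (MulChar.ofUnitHom w⁻¹) u = _
    rw [MulChar.ofUnitHom_coe]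
    rfl
  rw [← hres, ← res_mul V (hmem _) hwV, hχu, Units.inv_mul, res_eq V (one_mem V)]
  exact map_one _

/-- The weight one Eisenstein series congruent to one. -/
theorem exists_eisenstein_congr_one [Fact ℓ.Prime] (hℓ5 : 5 ≤ ℓ) (hV : (ℓ : ℂ) ∈ V.nonunits) :
    ∃ (χ : DirichletCharacter ℂ ℓ) (E : ℍ → ℂ), (∀ x, χ x ∈ V) ∧ IsMF 1 (Gamma1 ℓ) E ∧
      (∀ γ ∈ Gamma0 ℓ, E ∣[(1 : ℤ)] γ = χ ((γ 1 1 : ℤ) : ZMod ℓ) • E) ∧
      (∀ n, PowerSeries.coeff n (qE E) ∈ V) ∧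
      (∀ n, res V (PowerSeries.coeff n (qE E)) = if n = 0 then 1 else 0) ∧
      ∀ p : ℕ, ¬ ℓ ∣ p → res V (χ (p : ZMod ℓ)) * (p : κ) = 1 := by
  have hℓ : ℓ.Prime := Fact.out
  have := charP_residueField V hℓ hV
  obtain ⟨χ, hχV, hχ⟩ := exists_invTeichmuller V hV
  have hval : ∀ u : (ZMod ℓ)ˣ, 0 < (u : ZMod ℓ).val ∧ (u : ZMod ℓ).val < ℓ := fun u ↦
    ⟨Nat.pos_of_ne_zero fun h ↦ u.ne_zero ((ZMod.val_eq_zero _).mp h), ZMod.val_lt _⟩
  have hnd : ∀ u : (ZMod ℓ)ˣ, ¬ (ℓ : ℤ) ∣ ((u : ZMod ℓ).val : ℤ) := fun u h ↦ by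
    have := Nat.le_of_dvd (hval u).1 (Int.natCast_dvd_natCast.mp h)
    have := (hval u).2
    omega
  obtain ⟨m, hm⟩ : ∃ m, ℓ + 1 = 2 * m := by
    obtain ⟨j, hj⟩ := hℓ.odd_of_ne_two (by omega)
    exact ⟨j + 1, by omega⟩
  let term : (ZMod ℓ)ˣ → ℍ → ℂ := fun u ↦ χ u • divForm ℓ ((u : ZMod ℓ).val : ℤ)
  let E : ℍ → ℂ := ((2 * m * ℓ : ℕ) : ℂ) • ∑ u : (ZMod ℓ)ˣ, term u
  have hterm : ∀ u, IsMF 1 (Gamma1 ℓ) (term u) := fun u ↦ (divForm_isMF (hnd u)).smul _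
  have hsum : IsMF 1 (Gamma1 ℓ) (∑ u : (ZMod ℓ)ˣ, term u) :=
    isMF_finsetSum _ _ fun u _ ↦ hterm u
  have hE : IsMF 1 (Gamma1 ℓ) E := hsum.smul _
  have hcoeff : ∀ n, PowerSeries.coeff n (qE E) = ((2 * m * ℓ : ℕ) : ℂ) * ∑ u : (ZMod ℓ)ˣ,
      χ u * (if n = 0 then 1 / 2 - ((u : ZMod ℓ).val : ℂ) / ℓ
        else (divFormCoeff ℓ (u : ZMod ℓ).val n : ℂ)) := by
    intro n
    rw [qE_smul (hsum.mem_PB T_mem_Gamma1), map_smul, smul_eq_mul,
      qE_sum _ _ (fun u _ ↦ (hterm u).mem_PB T_mem_Gamma1), map_sum]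
    refine congrArg _ (Finset.sum_congr rfl fun u _ ↦ ?_)
    rw [qE_smul ((divForm_isMF (hnd u)).mem_PB T_mem_Gamma1), map_smul, smul_eq_mul,
      coeff_qE_divForm (hval u).1 (hval u).2]
  have hres : ∀ n, PowerSeries.coeff n (qE E) ∈ V ∧
      res V (PowerSeries.coeff n (qE E)) = if n = 0 then 1 else 0 := by
    intro n
    rw [hcoeff]
    split_ifs with hn
    · have hrw : ((2 * m * ℓ : ℕ) : ℂ) * ∑ u : (ZMod ℓ)ˣ, χ u * (1 / 2 - ((u : ZMod ℓ).val : ℂ) / ℓ)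
          = (m : ℂ) * ∑ u : (ZMod ℓ)ˣ, χ u *
            ((((ℓ : ℤ) - 2 * ((u : ZMod ℓ).val : ℤ)) : ℤ) : ℂ) := by
        have hℓC : (ℓ : ℂ) ≠ 0 := Nat.cast_ne_zero.mpr hℓ.ne_zero
        rw [Finset.mul_sum, Finset.mul_sum]
        refine Finset.sum_congr rfl fun u _ ↦ ?_
        push_cast
        field_simp
      rw [hrw]
      have hmem : ∀ u : (ZMod ℓ)ˣ,
          χ u * ((((ℓ : ℤ) - 2 * ((u : ZMod ℓ).val : ℤ)) : ℤ) : ℂ) ∈ V := fun u ↦
        mul_mem (hχV _) (intCast_mem V _)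
      refine ⟨mul_mem (natCast_mem V m) (sum_mem fun u _ ↦ hmem u), ?_⟩
      rw [res_mul V (natCast_mem V m) (sum_mem fun u _ ↦ hmem u), res_natCast,
        res_sum V _ _ fun u _ ↦ hmem u]
      have hone : ∀ u : (ZMod ℓ)ˣ,
          res V (χ u * ((((ℓ : ℤ) - 2 * ((u : ZMod ℓ).val : ℤ)) : ℤ) : ℂ)) = -2 := by
        intro u
        rw [res_mul V (hχV _) (intCast_mem V _), res_intCast]
        push_cast
        rw [CharP.cast_eq_zero κ ℓ, zero_sub]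
        linear_combination (-2 : κ) * hχ u
      rw [Finset.sum_congr rfl fun u _ ↦ hone u, Finset.sum_const, Finset.card_univ,
        ZMod.card_units_eq_totient, Nat.totient_prime hℓ, nsmul_eq_mul,
        Nat.cast_sub hℓ.one_le, CharP.cast_eq_zero κ ℓ, Nat.cast_one]
      have h2m : (2 : κ) * m = 1 := by
        have := congrArg (Nat.cast : ℕ → κ) hm
        push_cast at this
        rw [CharP.cast_eq_zero κ ℓ, zero_add] at this
        exact this.symm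
      linear_combination h2m
    · have hmem : ∀ u : (ZMod ℓ)ˣ, χ u * (divFormCoeff ℓ (u : ZMod ℓ).val n : ℂ) ∈ V := fun u ↦
        mul_mem (hχV _) (intCast_mem V _)
      refine ⟨mul_mem (natCast_mem V _) (sum_mem fun u _ ↦ hmem u), ?_⟩
      rw [res_mul V (natCast_mem V _) (sum_mem fun u _ ↦ hmem u), res_natCast]
      simp
  refine ⟨χ, E, hχV, hE, fun γ hγ ↦ ?_, fun n ↦ (hres n).1, fun n ↦ (hres n).2, fun p hp ↦ ?_⟩
  · have h00 : ((γ 0 0 : ℤ) : ZMod ℓ) * ((γ 1 1 : ℤ) : ZMod ℓ) = 1 := by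
      have := congrArg (Int.cast : ℤ → ZMod ℓ) ((Matrix.det_fin_two γ.1).symm.trans γ.2)
      push_cast at this
      rwa [Gamma0_mem.mp hγ, mul_zero, sub_zero] at this
    let v : (ZMod ℓ)ˣ := Units.mkOfMulEqOne _ _ h00
    have hv : (v : ZMod ℓ) = (γ 0 0 : ℤ) := rfl
    have hshift : ∀ u : (ZMod ℓ)ˣ, term u ∣[(1 : ℤ)] γ =
        χ ((γ 1 1 : ℤ) : ZMod ℓ) • term (u * v) := by
      intro u
      simp only [term, ModularForm.SL_smul_slash, divForm_slash_Gamma0 (hnd u) hγ, smul_smul]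
      rw [divForm_congr (hnd (u * v))]
      · congr 1
        rw [← map_mul, Units.val_mul, hv]
        congr 1
        linear_combination (-(u : ZMod ℓ)) * h00
      · rw [← ZMod.intCast_zmod_eq_zero_iff_dvd]
        push_cast
        rw [ZMod.natCast_zmod_val, ZMod.natCast_zmod_val]
        simp [hv]
    simp only [E, ModularForm.SL_smul_slash, SlashAction.sum_slash, hshift, ← Finset.smul_sum]
    rw [smul_comm, Fintype.sum_equiv (Equiv.mulRight v) (fun u ↦ term (u * v)) term fun u ↦ rfl]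
  · have : NeZero ℓ := ⟨hℓ.ne_zero⟩
    let u : (ZMod ℓ)ˣ := ZMod.unitOfCoprime p ((hℓ.coprime_iff_not_dvd.mpr hp).symm)
    have h := hχ u
    rw [show ((u : (ZMod ℓ)ˣ) : ZMod ℓ) = (p : ZMod ℓ) from ZMod.coe_unitOfCoprime _ _] at h
    convert h using 2
    rw [ZMod.natCast_val, ← ZMod.castHom_apply (h := dvd_rfl), map_natCast]

/-- The residual representation attached to a weight one eigen-sequence with integral
coefficients at `V`. -/
theorem exists_residual_of_weightOne (hin : ResidualInput) {N : ℕ} [NeZero N]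
    {ε : DirichletCharacter ℂ N} {b : ℕ → ℂ} (hb : b ∈ cfSpace N) (hb1 : b 1 = 1)
    (hrel : HeckeRel N ε b) (hℓ : ℓ.Prime) (hℓ5 : 5 ≤ ℓ)
    (hV : (ℓ : ℂ) ∈ V.nonunits) (hint : ∀ n, b n ∈ V) [IsAlgClosed κ] :
    ∃ ρ : Γℚ →* GL (Fin 2) κ, GaloisFactorsThroughFiniteLevel ρ ∧
      ∀ p : ℕ, p.Prime → ¬ p ∣ N → p ≠ ℓ →
        ∀ A : ValuationSubring (AlgebraicClosure ℚ), A.LiesOverPrime p →
          (∀ σ ∈ A.inertiaSubgroupIn ℚ, ρ σ = 1) ∧
          ∀ σ, A.IsFrobeniusAt σ p → (ρ σ).val.trace = res V (b p) ∧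
            (ρ σ).val.det = res V (ε (p : ZMod N)) := by
  have := Fact.mk hℓ
  have := charP_residueField V hℓ hV
  have : NeZero (N * ℓ) := ⟨mul_ne_zero (NeZero.ne N) hℓ.ne_zero⟩
  obtain ⟨g, hg, hgb⟩ := hb
  obtain ⟨χ, E, hχV, hE, hEchar, hEV, hEres, hχp⟩ := exists_eisenstein_congr_one V hℓ5 hV
  have hle1 : Gamma1 (N * ℓ) ≤ Gamma1 N := fun γ hγ ↦ by
    rw [Gamma1_mem] at hγ ⊢
    have hd : N ∣ N * ℓ := dvd_mul_right N ℓ
    have hc := fun z : ℤ ↦ (map_intCast (ZMod.castHom hd (ZMod N)) z).symm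
    simp only [hc, hγ.1, hγ.2.1, hγ.2.2, map_one, map_zero, and_self]
  have hle2 : Gamma1 (N * ℓ) ≤ Gamma1 ℓ := fun γ hγ ↦ by
    rw [Gamma1_mem] at hγ ⊢
    have hd : ℓ ∣ N * ℓ := dvd_mul_left ℓ N
    have hc := fun z : ℤ ↦ (map_intCast (ZMod.castHom hd (ZMod ℓ)) z).symm
    simp only [hc, hγ.1, hγ.2.1, hγ.2.2, map_one, map_zero, and_self]
  have hFmf : IsMF 2 (Gamma1 (N * ℓ)) (g * E) :=
    ((hg.1.mono hle1).mul (hE.mono hle2)).cast (by norm_num)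
  have hFcf : IsCF 2 (Gamma1 (N * ℓ)) (g * E) := by
    refine ⟨hFmf, fun γ ↦ ?_⟩
    rw [show (2 : ℤ) = 1 + 1 by norm_num, ModularForm.mul_slash_SL2]
    exact (hg.2 γ).mul_boundedAtFilter (hE.bdd γ)
  let F := hFcf.toCF
  have hco : ∀ n, ModularFormClass.qCoeff F n = ∑ ij ∈ Finset.HasAntidiagonal.antidiagonal n,
      b ij.1 * PowerSeries.coeff ij.2 (qE E) := by
    intro n
    show PowerSeries.coeff n (qE (g * E)) = _
    rw [qE_mul (hg.1.mem_PB T_mem_Gamma1) (hE.mem_PB T_mem_Gamma1), PowerSeries.coeff_mul]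
    simp only [hgb]
  have hR : ∀ n, ModularFormClass.qCoeff F n ∈ V.toSubring := fun n ↦ by
    rw [hco]
    exact sum_mem fun ij _ ↦ mul_mem (hint _) (hEV _)
  have hresF : ∀ n, res V (ModularFormClass.qCoeff F n) = res V (b n) := by
    intro n
    rw [hco, res_sum V _ _ fun ij _ ↦ mul_mem (hint _) (hEV _),
      Finset.sum_eq_single (n, 0) ?_ (fun h ↦ absurd (by simp) h)]
    · rw [res_mul V (hint _) (hEV _), hEres, if_pos rfl, mul_one]
    · rintro ⟨i, j⟩ hij hne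
      rw [res_mul V (hint _) (hEV _), hEres, if_neg, mul_zero]
      rintro rfl
      refine hne ?_
      simp only [Finset.HasAntidiagonal.mem_antidiagonal, add_zero] at hij
      rw [hij]
  let χM : DirichletCharacter ℂ (N * ℓ) :=
    DirichletCharacter.changeLevel (dvd_mul_right N ℓ) ε
      * DirichletCharacter.changeLevel (dvd_mul_left ℓ N) χ
  have hχMV : ∀ x, χM x ∈ V.toSubring := fun x ↦ mem_of_isIntegralInt V (isIntegral_char χM x)
  have hεV : ∀ x, ε x ∈ V := fun x ↦ mem_of_isIntegralInt V (isIntegral_char ε x)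
  have hχM : ∀ z : ℤ, IsCoprime z ((N * ℓ : ℕ) : ℤ) →
      χM (z : ZMod (N * ℓ)) = ε (z : ZMod N) * χ (z : ZMod ℓ) := fun z hz ↦ by
    simp only [χM, MulChar.mul_apply]
    rw [DirichletCharacter.changeLevel_eq_cast_of_dvd' _ _ hz,
      DirichletCharacter.changeLevel_eq_cast_of_dvd' _ _ hz]
  have hgchar := fun (γ : SL(2, ℤ)) (hγ : γ ∈ Gamma0 N) ↦
    slash_eq_char_of_relations ε (a := b) hg (fun q hq hqN n ↦ by
      have := hrel q hq hqN n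
      rw [show ModularFormClass.qCoeff g = b from funext hgb]
      exact this) hγ
  have hchar : ∀ γ : SL(2, ℤ), γ ∈ Gamma0 (N * ℓ) →
      (F : ℍ → ℂ) ∣[(2 : ℤ)] γ = χM ((γ 1 1 : ℤ) : ZMod (N * ℓ)) • (F : ℍ → ℂ) := by
    intro γ hγ
    rw [Gamma0_mem, ZMod.intCast_zmod_eq_zero_iff_dvd] at hγ
    have hcop : IsCoprime (γ 1 1 : ℤ) ((N * ℓ : ℕ) : ℤ) := by
      obtain ⟨r, hr⟩ := hγ
      have hdet : γ 0 0 * γ 1 1 - γ 0 1 * γ 1 0 = 1 := (Matrix.det_fin_two γ.1).symm.trans γ.2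
      exact ⟨γ 0 0, -γ 0 1 * r, by linear_combination hdet + γ 0 1 * hr⟩
    have hN0 : γ ∈ Gamma0 N := by
      rw [Gamma0_mem, ZMod.intCast_zmod_eq_zero_iff_dvd]
      exact dvd_trans (Int.natCast_dvd_natCast.mpr (dvd_mul_right N ℓ)) hγ
    have hℓ0 : γ ∈ Gamma0 ℓ := by
      rw [Gamma0_mem, ZMod.intCast_zmod_eq_zero_iff_dvd]
      exact dvd_trans (Int.natCast_dvd_natCast.mpr (dvd_mul_left ℓ N)) hγ
    have hmul : (g * E) ∣[(2 : ℤ)] γ = g ∣[(1 : ℤ)] γ * E ∣[(1 : ℤ)] γ :=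
      ModularForm.mul_slash_SL2 1 1 γ g E
    show (g * E) ∣[(2 : ℤ)] γ = _
    rw [hχM _ hcop, hmul, hgchar γ hN0,
      hEchar γ hℓ0, smul_mul_smul_comm]
    rfl
  let φ : V.toSubring →+* κ := IsLocalRing.residue V
  have hφ : ∀ x (hx : x ∈ V.toSubring), φ ⟨x, hx⟩ = res V x := fun x hx ↦ (res_eq V hx).symm
  have hdet : ∀ p : ℕ, p.Prime → ¬ p ∣ N * ℓ →
      (p : κ) * φ ⟨χM (p : ZMod (N * ℓ)), hχMV _⟩ = res V (ε (p : ZMod N)) := by
    intro p hp hpM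
    have hcop : IsCoprime (p : ℤ) ((N * ℓ : ℕ) : ℤ) :=
      Nat.isCoprime_iff_coprime.mpr (hp.coprime_iff_not_dvd.mpr hpM)
    have h := hχM p hcop
    rw [Int.cast_natCast, Int.cast_natCast, Int.cast_natCast] at h
    rw [hφ, h, res_mul V (hεV _) (hχV _), mul_left_comm,
      mul_comm (p : κ), hχp p fun hd ↦ hpM (Dvd.dvd.mul_left
        (((Nat.prime_dvd_prime_iff_eq hℓ hp).mp hd) ▸ dvd_rfl) N), mul_one]
  have h1 : φ ⟨_, hR 1⟩ = 1 := by
    rw [hφ, hresF, hb1, res_eq V (one_mem V)]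
    exact map_one _
  have heig : ∀ p : ℕ, p.Prime → ¬ p ∣ N * ℓ → ∀ n, φ ⟨_, hR (p * n)⟩
      + (p : κ) * φ ⟨χM (p : ZMod (N * ℓ)), hχMV _⟩ * (if p ∣ n then φ ⟨_, hR (n / p)⟩ else 0)
        = φ ⟨_, hR p⟩ * φ ⟨_, hR n⟩ := by
    intro p hp hpM n
    rw [hdet p hp hpM]
    simp only [hφ, hresF]
    have h := congrArg (res V) (hrel p hp (fun hd ↦ hpM (hd.mul_right ℓ)) n)
    split_ifs with hpn
    · rw [if_pos hpn, res_add V (hint _) (mul_mem (hεV _) (hint _)), res_mul V (hεV _) (hint _),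
        res_mul V (hint _) (hint _)] at h
      exact h
    · rw [if_neg hpn, mul_zero, add_zero, res_mul V (hint _) (hint _)] at h
      rw [mul_zero, add_zero]
      exact h
  obtain ⟨ρ, hρ, hρp⟩ := hin (N * ℓ) ℓ hℓ hℓ5 (dvd_mul_left ℓ N) χM F hchar V.toSubring hR hχMV
    φ h1 heig
  refine ⟨ρ, hρ, fun p hp hpN hpℓ A hA ↦ ?_⟩
  have hpM : ¬ p ∣ N * ℓ := fun h ↦ (hp.dvd_mul.mp h).elim hpN
    fun h' ↦ hpℓ ((Nat.prime_dvd_prime_iff_eq hp hℓ).mp h')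
  obtain ⟨hI, hF⟩ := hρp p hp hpM A hA
  refine ⟨hI, fun σ hσ ↦ ?_⟩
  obtain ⟨ht, hd⟩ := hF σ hσ
  exact ⟨by rw [ht, hφ, hresF], by rw [hd, hdet p hp hpM]⟩

end FLTAgent.DeligneSerre
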