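import Mathlib
import Fermat.Agent.DeligneSerre.PrimeDensity
import Fermat.Agent.DeligneSerre.WeightTwo
import Fermat.Agent.DeligneSerre.Semisimple
import Fermat.Agent.DeligneSerre.GroupModular
import Fermat.Agent.DeligneSerre.LiftIrreducible
import Fermat.Agent.CongruenceRel.Coeff
import Fermat.Agent.Density.Inertia

set_option autoImplicit false

/-!
# The theorem of Deligne and Serre, given residual representations in weight two

Given residual representations in weight two (`ResidualInput`), a weight one eigen-system has, at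
arbitrarily large primes, representations of bounded finite image congruent to it (`exists_lifts`);
finiteness of the possible traces then gives an irreducible representation with exactly the
prescribed traces and determinants (`exists_galoisRep`), used in `Final`.
-/

noncomputable section

open Filter Topology Matrix UpperHalfPlane CongruenceSubgroup
open scoped MatrixGroups ModularForm
open scoped Classical

namespace FLTAgent.DeligneSerre

open FLTAgent.MFIntegral FLTAgent.Density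

theorem inv_mem_of_res_ne_zero (V : ValuationSubring ℂ) {x : ℂ} (hx : x ∈ V) (h : res V x ≠ 0) :
    x⁻¹ ∈ V := by
  rw [Ne, res_eq V hx, IsLocalRing.residue_eq_zero_iff, IsLocalRing.mem_maximalIdeal,
    mem_nonunits_iff, not_not, isUnit_iff_exists_inv] at h
  obtain ⟨⟨y, hy⟩, e⟩ := h
  have e' : x * y = 1 := congrArg Subtype.val e
  rwa [inv_eq_of_mul_eq_one_right e']

/-- Congruent elements of a finite set of algebraic integers are equal at large primes. -/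
theorem exists_bound_finset (S : Finset ℂ) (hS : ∀ x ∈ S, IsIntegral ℤ x) :
    ∃ B : ℕ, ∀ ℓ : ℕ, ℓ.Prime → B < ℓ → ∀ V : ValuationSubring ℂ, (ℓ : ℂ) ∈ V.nonunits →
      ∀ x ∈ S, ∀ y ∈ S, res V x = res V y → x = y := by
  have h : ∀ z : S × S, ∃ B : ℕ, ∀ ℓ : ℕ, ℓ.Prime → B < ℓ → ∀ V : ValuationSubring ℂ,
      (ℓ : ℂ) ∈ V.nonunits → res V (z.1 : ℂ) = res V (z.2 : ℂ) → (z.1 : ℂ) = z.2 := by
    intro z
    by_cases hz : (z.1 : ℂ) = z.2
    · exact ⟨0, fun _ _ _ _ _ _ ↦ hz⟩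
    obtain ⟨B, hB⟩ := exists_bound_res_ne_zero ((hS _ z.1.2).sub (hS _ z.2.2)) (sub_ne_zero.mpr hz)
    refine ⟨B, fun ℓ hℓ hlt V hV h ↦ absurd ?_ (hB ℓ hℓ hlt V hV)⟩
    rw [res_sub V (mem_of_isIntegralInt V (hS _ z.1.2)) (mem_of_isIntegralInt V (hS _ z.2.2)), h,
      sub_self]
  choose B hB using h
  exact ⟨Finset.univ.sup B, fun ℓ hℓ hlt V hV x hx y hy e ↦
    hB (⟨x, hx⟩, ⟨y, hy⟩) ℓ hℓ (lt_of_le_of_lt (Finset.le_sup (Finset.mem_univ _)) hlt) V hV e⟩

/-- The possible traces and determinants of matrices of order at most `A`. -/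
def trDetValues (A : ℕ) : Finset (ℂ × ℂ) :=
  let U := (Finset.Icc 1 A).biUnion fun n ↦ (Polynomial.nthRoots n (1 : ℂ)).toFinset
  (U ×ˢ U).image fun z ↦ (z.1 + z.2, z.1 * z.2)

theorem isIntegral_trDetValues {A : ℕ} {z : ℂ × ℂ} (hz : z ∈ trDetValues A) :
    IsIntegral ℤ z.1 ∧ IsIntegral ℤ z.2 := by
  obtain ⟨⟨u, w⟩, hw, rfl⟩ := Finset.mem_image.mp hz
  rw [Finset.mem_product] at hw
  have h : ∀ x ∈ (Finset.Icc 1 A).biUnion fun n ↦ (Polynomial.nthRoots n (1 : ℂ)).toFinset,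
      IsIntegral ℤ x := fun x hx ↦ by
    obtain ⟨n, hn, hxn⟩ := Finset.mem_biUnion.mp hx
    have hn0 : 0 < n := (Finset.mem_Icc.mp hn).1
    rw [Multiset.mem_toFinset, Polynomial.mem_nthRoots hn0] at hxn
    exact IsIntegral.of_pow hn0 (hxn ▸ isIntegral_one)
  exact ⟨(h _ hw.1).add (h _ hw.2), (h _ hw.1).mul (h _ hw.2)⟩

theorem trDet_mem_values {A : ℕ} (g : GL (Fin 2) ℂ) {n : ℕ} (hn : 0 < n) (hnA : n ≤ A)
    (hg : g ^ n = 1) : (g.val.trace, g.val.det) ∈ trDetValues A := by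
  set t := g.val.trace
  set d := g.val.det with hd
  obtain ⟨c, hc⟩ := IsAlgClosed.exists_eq_mul_self (t ^ 2 - 4 * d)
  set lam : ℂ := (t + c) / 2 with hlam
  have hroot : lam * lam - t * lam + d = 0 := by
    rw [hlam]; linear_combination (-(1 : ℂ) / 4) * hc
  have hdet : (g.val - lam • 1).det = 0 := by
    rw [Matrix.det_fin_two]
    simp only [Matrix.sub_apply, Matrix.smul_apply, Matrix.one_apply_eq, smul_eq_mul,
      Matrix.one_apply_ne (show (0 : Fin 2) ≠ 1 by decide),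
      Matrix.one_apply_ne (show (1 : Fin 2) ≠ 0 by decide)]
    simp only [t, d, Matrix.trace_fin_two, Matrix.det_fin_two] at hroot
    linear_combination hroot
  obtain ⟨v, hv, hgv⟩ := Matrix.exists_mulVec_eq_zero_iff.mpr hdet
  rw [Matrix.sub_mulVec, sub_eq_zero, Matrix.smul_mulVec, Matrix.one_mulVec] at hgv
  have hpow : ∀ j : ℕ, (g.val ^ j) *ᵥ v = lam ^ j • v := by
    intro j
    induction j with
    | zero => simp
    | succ j ih => rw [pow_succ, ← Matrix.mulVec_mulVec, hgv, Matrix.mulVec_smul, ih, smul_smul,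
        pow_succ, mul_comm]
  have h1 : lam ^ n = 1 := by
    have h := hpow n
    rw [← Units.val_pow_eq_pow_val, hg, Units.val_one, Matrix.one_mulVec] at h
    exact (smul_left_injective ℂ hv ((one_smul ℂ v).trans h)).symm
  have hlam0 : lam ≠ 0 := fun h ↦ by simp [h, zero_pow hn.ne'] at h1
  have h2 : (d / lam) ^ n = 1 := by
    rw [div_pow, h1, div_one, hd, ← Matrix.det_pow, ← Units.val_pow_eq_pow_val, hg, Units.val_one,
      Matrix.det_one]
  have hU : ∀ x : ℂ, x ^ n = 1 →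
      x ∈ (Finset.Icc 1 A).biUnion fun n ↦ (Polynomial.nthRoots n (1 : ℂ)).toFinset := fun x hx ↦
    Finset.mem_biUnion.mpr ⟨n, Finset.mem_Icc.mpr ⟨hn, hnA⟩,
      Multiset.mem_toFinset.mpr ((Polynomial.mem_nthRoots hn).mpr hx)⟩
  refine Finset.mem_image.mpr ⟨(lam, d / lam), Finset.mem_product.mpr ⟨hU _ h1, hU _ h2⟩, ?_⟩
  refine Prod.ext ?_ ?_
  · show lam + d / lam = t
    field_simp
    linear_combination hroot
  · show lam * (d / lam) = d
    field_simp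

/-- The prime divisors of `m`, as primes. -/
def badPrimes (m : ℕ) : Finset Nat.Primes :=
  (m.primeFactors).subtype Nat.Prime

theorem not_dvd_of_notMem_badPrimes {m : ℕ} (hm : m ≠ 0) {q : Nat.Primes} (h : q ∉ badPrimes m) :
    ¬ (q : ℕ) ∣ m := fun hd ↦ h (Finset.mem_subtype.mpr (Nat.mem_primeFactors.mpr ⟨q.2, hd, hm⟩))

variable {N : ℕ}

/-- At arbitrarily large primes there are representations of bounded image congruent to the
eigen-system. -/
theorem exists_lifts (hin : ResidualInput) [NeZero N] {ε : DirichletCharacter ℂ N} {a : ℕ → ℂ}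
    (ha : a ∈ cfSpace N) (h1 : a 1 = 1) (hrel : HeckeRel N ε a) :
    ∃ A : ℕ, ∀ B : ℕ, ∃ ℓ : ℕ, ℓ.Prime ∧ B < ℓ ∧ ∃ V : ValuationSubring ℂ,
      (ℓ : ℂ) ∈ V.nonunits ∧ ∃ R : GalQ →* GL (Fin 2) ℂ, GaloisFactorsThroughFiniteLevel R ∧
      (∀ σ, ∃ n, 0 < n ∧ n ≤ A ∧ R σ ^ n = 1) ∧
      ∀ p : ℕ, p.Prime → ¬ p ∣ N → p ≠ ℓ → ∀ P : ValuationSubring Qbar, P.LiesOverPrime p →
        (∀ σ ∈ P.inertiaSubgroupIn ℚ, R σ = 1) ∧ ∀ σ, P.IsFrobeniusAt σ p →
          res V (R σ).val.trace = res V (a p) ∧ res V (R σ).val.det = res V (ε (p : ZMod N)) := by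
  obtain ⟨hint, b, hb, hb1, hbrel, hbq, D, hD, hDb⟩ := exists_algebraic_eigen ha h1 hrel
  obtain ⟨Y, C, hY⟩ := exists_finite_values ha h1 hrel (by norm_num : (0 : ℝ) < 1 / 8)
  set M := Y.card
  refine ⟨16 * M * (32 * M) ^ 3 + 2 * M, fun B ↦ ?_⟩
  obtain ⟨ℓ, hℓ, hlt, V, hV, hprime⟩ := exists_place_primeField (sysVal (ε : ZMod N → ℂ) a)
    (finite_range_sys ha h1 hrel) hint (max B (max 5 (max N (max D.natAbs (3 * M + 2)))))
  simp only [max_lt_iff] at hlt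
  obtain ⟨hltB, hlt5, hltN, hltD, hltM⟩ := hlt
  have := Fact.mk hℓ
  have := charP_residueField V hℓ hV
  have hℓN : ¬ ℓ ∣ N := fun h ↦ by
    have := Nat.le_of_dvd (NeZero.pos N) h
    omega
  have hDres : res V (D : ℂ) ≠ 0 := by
    rw [res_intCast, Ne, CharP.intCast_eq_zero_iff _ ℓ, Int.natCast_dvd]
    intro h
    have := Nat.le_of_dvd (Int.natAbs_pos.mpr hD) h
    omega
  have hbV : ∀ n, b n ∈ V := fun n ↦ by
    have := mul_mem (inv_mem_of_res_ne_zero V (intCast_mem V D) hDres)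
      (mem_of_isIntegralInt V (hDb n))
    rwa [inv_mul_cancel_left₀ (Int.cast_ne_zero.mpr hD)] at this
  obtain ⟨ρ, hρ, hρp⟩ := exists_residual_of_weightOne V hin hb hb1 hbrel hℓ hlt5.le hV hbV
  obtain ⟨G, _, _, π, r, hπ, hs, hr, hss, htd, hone⟩ := exists_semisimple_image ρ hρ
  have hm : N * ℓ ≠ 0 := mul_ne_zero (NeZero.ne N) hℓ.ne_zero
  -- the values at unramified primes
  have hval : ∀ (p : ℕ) (hp : p.Prime) (hpN : ¬ p ∣ N), p ≠ ℓ → ∀ P : ValuationSubring Qbar,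
      P.LiesOverPrime p → ∀ σ, P.IsFrobeniusAt σ p →
        trDet (r (π σ)) = (res V (a p), res V (ε (p : ZMod N))) := by
    intro p hp hpN hpℓ P hP σ hσ
    obtain ⟨ht, hd⟩ := (hρp p hp hpN hpℓ P hP).2 σ hσ
    rw [hbq ⟨p, hp, hpN⟩] at ht
    simp only [trDet]
    rw [(htd σ).1, (htd σ).2, ht, hd]
  let S : Finset (IsLocalRing.ResidueField V × IsLocalRing.ResidueField V) :=
    Y.image fun y ↦ (res V y.1, res V y.2)
  let H : Finset G := Finset.univ.filter fun g ↦ trDet (r g) ∈ S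
  let c : G → ℝ := fun g ↦ if trDet (r g) ∈ S then 0 else 1
  have hclass : ∀ g y : G, trDet (r (y⁻¹ * g * y)) = trDet (r g) := by
    intro g y
    simp only [trDet, map_mul, map_inv, Units.val_mul, Matrix.trace_units_conj',
      Matrix.det_units_conj']
  have hH : 8 * (Finset.univ \ H).card ≤ Fintype.card G := by
    have h := sum_classFun_le hπ hs c (fun g ↦ by simp only [c]; split_ifs <;> norm_num)
      (fun g y ↦ by simp only [c, hclass]) (δ := 1 / 8) (C := C) (badPrimes (N * ℓ)) ?_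
    · have hc : ∑ g : G, c g = ((Finset.univ \ H).card : ℝ) := by
        simp only [c, Finset.sum_ite, Finset.sum_const_zero, zero_add, Finset.sum_const,
          nsmul_eq_mul, mul_one, H]
        rw [Finset.filter_not]
      rw [hc] at h
      have : ((8 * (Finset.univ \ H).card : ℕ) : ℝ) ≤ (Fintype.card G : ℝ) := by
        push_cast; linarith
      exact_mod_cast this
    · filter_upwards [hY] with s hs' P hP
      let P' : Finset Nat.Primes := P.filter fun q ↦ trDet (r (π (frob q))) ∉ S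
      have he : ∑ q ∈ P, c (π (frob q)) * ((q : ℕ) : ℝ) ^ (-s)
          = ∑ p ∈ P'.map ⟨fun q : Nat.Primes ↦ (q : ℕ), Subtype.val_injective⟩, (p : ℝ) ^ (-s) := by
        rw [Finset.sum_map, Finset.sum_filter]
        refine Finset.sum_congr rfl fun q _ ↦ ?_
        simp only [c]
        split_ifs <;> simp
      rw [he]
      refine hs' _ fun p hp ↦ ?_
      obtain ⟨q, hq, rfl⟩ := Finset.mem_map.mp hp
      obtain ⟨hqP, hqS⟩ := Finset.mem_filter.mp hq
      have hnd := not_dvd_of_notMem_badPrimes hm (Finset.disjoint_left.mp hP hqP)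
      have hqN : ¬ (q : ℕ) ∣ N := fun h ↦ hnd (h.mul_right ℓ)
      have hqℓ : (q : ℕ) ≠ ℓ := fun h ↦ hnd (h ▸ dvd_mul_left _ N)
      refine ⟨q.2, hqN, fun hy ↦ hqS ?_⟩
      rw [hval q q.2 hqN hqℓ _ (frobPlace_liesOverPrime q) _ (isFrobeniusAt_frob q)]
      exact Finset.mem_image.mpr ⟨_, hy, rfl⟩
  have htr : ∀ g, (r g : Matrix (Fin 2) (Fin 2) (IsLocalRing.ResidueField V)).trace ∈
      (ZMod.castHom dvd_rfl (IsLocalRing.ResidueField V) :
        ZMod ℓ →+* IsLocalRing.ResidueField V).fieldRange := by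
    intro g
    obtain ⟨γ, rfl⟩ := hs g
    obtain ⟨q, hq, hqS, P, hP, -, φ, hφ, he⟩ := (chebotarev π hπ γ (N * ℓ).primeFactors).nonempty
    have hnd : ¬ q ∣ N * ℓ := fun h ↦ hqS (Nat.mem_primeFactors.mpr ⟨hq, h, hm⟩)
    have hqN : ¬ q ∣ N := fun h ↦ hnd (h.mul_right ℓ)
    have hqℓ : q ≠ ℓ := fun h ↦ hnd (h ▸ dvd_mul_left _ N)
    rw [← he]
    have h := congrArg Prod.fst (hval q hq hqN hqℓ P hP φ hφ)
    simp only [trDet] at h
    rw [h]
    obtain ⟨n, hn⟩ := hprime (Sum.inr ⟨q, hq, hqN⟩)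
    exact ⟨(n : ZMod ℓ), by rw [map_intCast]; exact hn.symm⟩
  obtain ⟨hne, hcard⟩ := card_le_of_semisimple r hr hss htr H hH S
    (fun h hh ↦ (Finset.mem_filter.mp hh).2) M Finset.card_image_le hltM
  obtain ⟨R₀, hR₀⟩ := exists_lift V r hss hne
  refine ⟨ℓ, hℓ, hltB, V, hV, R₀.comp π, ?_, fun σ ↦ ?_, fun p hp hpN hpℓ P hP ↦ ⟨?_, ?_⟩⟩
  · obtain ⟨L, hL, h⟩ := hπ
    exact ⟨L, hL, fun σ hσ ↦ by simp [h σ hσ]⟩
  · refine ⟨Fintype.card G, Fintype.card_pos, hcard, ?_⟩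
    rw [MonoidHom.comp_apply, ← map_pow, pow_card_eq_one, map_one]
  · intro σ hσ
    simp [hone σ ((hρp p hp hpN hpℓ P hP).1 σ hσ)]
  · intro σ hσ
    obtain ⟨t, d, ht, hd, hrt, hrd⟩ := hR₀ (π σ)
    have h := hval p hp hpN hpℓ P hP σ hσ
    simp only [trDet, Prod.mk.injEq] at h
    rw [MonoidHom.comp_apply, ht, hd, res_eq V t.2, res_eq V d.2]
    exact ⟨hrt.trans h.1, hrd.trans h.2⟩

/-- Two representations with the given congruences at large primes give the theorem. -/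
theorem exists_galoisRep (hin : ResidualInput) [NeZero N] {ε : DirichletCharacter ℂ N} {a : ℕ → ℂ}
    (ha : a ∈ cfSpace N) (h1 : a 1 = 1) (hrel : HeckeRel N ε a) :
    ∃ ρ : GalQ →* GL (Fin 2) ℂ, GaloisFactorsThroughFiniteLevel ρ ∧
      (Deformation.matrixRepresentation ρ).IsIrreducible ∧
      ∀ p : ℕ, p.Prime → ¬ p ∣ N → ∀ P : ValuationSubring Qbar, P.LiesOverPrime p →
        (∀ σ ∈ P.inertiaSubgroupIn ℚ, ρ σ = 1) ∧ ∀ σ, P.IsFrobeniusAt σ p →
          (ρ σ).val.trace = a p ∧ (ρ σ).val.det = ε (p : ZMod N) := by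
  obtain ⟨A, hA⟩ := exists_lifts hin ha h1 hrel
  obtain ⟨hint, -⟩ := exists_algebraic_eigen ha h1 hrel
  set S₀ := (trDetValues A).image Prod.fst ∪ (trDetValues A).image Prod.snd with hS₀
  have hS₀int : ∀ x ∈ S₀, IsIntegral ℤ x := fun x hx ↦ by
    rcases Finset.mem_union.mp hx with h | h <;> obtain ⟨z, hz, rfl⟩ := Finset.mem_image.mp h
    exacts [(isIntegral_trDetValues hz).1, (isIntegral_trDetValues hz).2]
  have hRvals : ∀ (R : GalQ →* GL (Fin 2) ℂ), (∀ σ, ∃ n, 0 < n ∧ n ≤ A ∧ R σ ^ n = 1) →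
      ∀ σ, (R σ).val.trace ∈ S₀ ∧ (R σ).val.det ∈ S₀ ∧
        ((R σ).val.trace, (R σ).val.det) ∈ trDetValues A := by
    intro R hR σ
    obtain ⟨n, hn, hnA, h⟩ := hR σ
    have hm := trDet_mem_values (R σ) hn hnA h
    exact ⟨Finset.mem_union_left _ (Finset.mem_image.mpr ⟨_, hm, rfl⟩),
      Finset.mem_union_right _ (Finset.mem_image.mpr ⟨_, hm, rfl⟩), hm⟩
  -- every pair of eigenvalues lies in the finite set
  have hmem : ∀ p : ℕ, p.Prime → ¬ p ∣ N → a p ∈ S₀ ∧ ε (p : ZMod N) ∈ S₀ := by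
    intro p hp hpN
    set S₁ := insert (a p) (insert (ε (p : ZMod N)) S₀)
    obtain ⟨B, hB⟩ := exists_bound_finset S₁ fun x hx ↦ by
      simp only [S₁, Finset.mem_insert] at hx
      rcases hx with rfl | rfl | h
      exacts [hint (Sum.inr ⟨p, hp, hpN⟩), isIntegral_char ε _, hS₀int x h]
    obtain ⟨ℓ, hℓ, hlt, V, hV, R, hR, hord, hRp⟩ := hA (max B p)
    simp only [max_lt_iff] at hlt
    obtain ⟨hI, hF⟩ := hRp p hp hpN (by omega) (frobPlace ⟨p, hp⟩) (frobPlace_liesOverPrime ⟨p, hp⟩)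
    obtain ⟨ht, hd⟩ := hF _ (isFrobeniusAt_frob ⟨p, hp⟩)
    obtain ⟨hm1, hm2, -⟩ := hRvals R hord (frob ⟨p, hp⟩)
    constructor
    · rw [← hB ℓ hℓ hlt.1 V hV _ (by simp [S₁, hm1]) _ (by simp [S₁]) ht]
      exact hm1
    · rw [← hB ℓ hℓ hlt.1 V hV _ (by simp [S₁, hm2]) _ (by simp [S₁]) hd]
      exact hm2
  obtain ⟨B₀, hB₀⟩ := exists_bound_finset S₀ hS₀int
  -- exact representation away from one large prime
  have hexact : ∀ B : ℕ, ∃ ℓ : ℕ, B < ℓ ∧ ∃ R : GalQ →* GL (Fin 2) ℂ,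
      GaloisFactorsThroughFiniteLevel R ∧ (∀ σ, ∃ n, 0 < n ∧ n ≤ A ∧ R σ ^ n = 1) ∧
      ∀ p : ℕ, p.Prime → ¬ p ∣ N → p ≠ ℓ → ∀ P : ValuationSubring Qbar, P.LiesOverPrime p →
        (∀ σ ∈ P.inertiaSubgroupIn ℚ, R σ = 1) ∧ ∀ σ, P.IsFrobeniusAt σ p →
          (R σ).val.trace = a p ∧ (R σ).val.det = ε (p : ZMod N) := by
    intro B
    obtain ⟨ℓ, hℓ, hlt, V, hV, R, hR, hord, hRp⟩ := hA (max B B₀)
    simp only [max_lt_iff] at hlt
    refine ⟨ℓ, hlt.1, R, hR, hord, fun p hp hpN hpℓ P hP ↦ ?_⟩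
    obtain ⟨hI, hF⟩ := hRp p hp hpN hpℓ P hP
    refine ⟨hI, fun σ hσ ↦ ?_⟩
    obtain ⟨hm1, hm2, -⟩ := hRvals R hord σ
    obtain ⟨ht, hd⟩ := hF σ hσ
    exact ⟨hB₀ ℓ hℓ hlt.2 V hV _ hm1 _ (hmem p hp hpN).1 ht,
      hB₀ ℓ hℓ hlt.2 V hV _ hm2 _ (hmem p hp hpN).2 hd⟩
  obtain ⟨ℓ₁, -, ρ, hρ, hord, hρp⟩ := hexact 0
  obtain ⟨ℓ₂, hlt₂, ρ', hρ', hord', hρp'⟩ := hexact ℓ₁
  -- the two representations have the same traces and determinants
  have hsame : ∀ γ : GalQ, (ρ γ).val.trace = (ρ' γ).val.trace ∧ (ρ γ).val.det = (ρ' γ).val.det := by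
    intro γ
    have hπ : GaloisFactorsThroughFiniteLevel (ρ.prod ρ') := by
      obtain ⟨L, hL, h⟩ := hρ
      obtain ⟨L', hL', h'⟩ := hρ'
      have := hL; have := hL'
      refine ⟨L ⊔ L', inferInstance, fun σ hσ ↦ ?_⟩
      have e1 := h σ fun x hx ↦ hσ x ((le_sup_left : L ≤ L ⊔ L') hx)
      have e2 := h' σ fun x hx ↦ hσ x ((le_sup_right : L' ≤ L ⊔ L') hx)
      simp [MonoidHom.prod_apply, e1, e2]
    obtain ⟨q, hq, hqS, P, hP, -, φ, hφ, he⟩ :=
      (chebotarev _ hπ γ (insert ℓ₁ (insert ℓ₂ N.primeFactors))).nonempty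
    simp only [Finset.mem_insert, not_or, Nat.mem_primeFactors] at hqS
    have hqN : ¬ q ∣ N := fun h ↦ hqS.2.2 ⟨hq, h, NeZero.ne N⟩
    simp only [MonoidHom.prod_apply, Prod.mk.injEq] at he
    obtain ⟨ht, hd⟩ := (hρp q hq hqN hqS.1 P hP).2 φ hφ
    obtain ⟨ht', hd'⟩ := (hρp' q hq hqN hqS.2.1 P hP).2 φ hφ
    rw [← he.1, ← he.2, ht, hd, ht', hd']
    exact ⟨rfl, rfl⟩
  have hall : ∀ p : ℕ, p.Prime → ¬ p ∣ N → ∀ P : ValuationSubring Qbar, P.LiesOverPrime p →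
      (∀ σ ∈ P.inertiaSubgroupIn ℚ, ρ σ = 1) ∧ ∀ σ, P.IsFrobeniusAt σ p →
        (ρ σ).val.trace = a p ∧ (ρ σ).val.det = ε (p : ZMod N) := by
    intro p hp hpN P hP
    by_cases hpℓ : p = ℓ₁
    · obtain ⟨hI, hF⟩ := hρp' p hp hpN (by omega) P hP
      refine ⟨fun σ hσ ↦ ?_, fun σ hσ ↦ ?_⟩
      · obtain ⟨n, hn, -, hpow⟩ := hord σ
        obtain ⟨ht, hd⟩ := hsame σ
        rw [hI σ hσ] at ht hd
        exact eq_one_of_finite_order (ρ σ) hn.ne' hpow (by simpa using ht) (by simpa using hd)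
      · rw [(hsame σ).1, (hsame σ).2]
        exact hF σ hσ
    · exact hρp p hp hpN hpℓ P hP
  refine ⟨ρ, hρ, ?_, hall⟩
  by_contra hirr
  have hnc := not_noCommonEigenvector_of_not_irreducible ρ hirr
  have := finite_range_of_factorsThroughFiniteLevel hρ
  have : Fintype ρ.range := Fintype.ofFinite _
  have hπ : GaloisFactorsThroughFiniteLevel ρ.rangeRestrict := by
    obtain ⟨L, hL, h⟩ := hρ
    exact ⟨L, hL, fun σ hσ ↦ Subtype.ext (h σ hσ)⟩
  have hnc' : ¬ NoCommonEigenvector ρ.range.subtype := fun h ↦ hnc fun v hv ↦ by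
    obtain ⟨⟨_, σ, rfl⟩, hσ⟩ := h v hv
    exact ⟨σ, hσ⟩
  obtain ⟨χ₁, χ₂, htr, -, -⟩ := exists_eigen_chars ρ.range.subtype hnc'
  have hnorm : ∀ (χ : ρ.range →* ℂˣ) (g : ρ.range), ‖(χ g : ℂ)‖ = 1 := fun χ g ↦ by
    refine Complex.norm_eq_one_of_pow_eq_one (n := Fintype.card ρ.range) ?_ Fintype.card_ne_zero
    rw [← Units.val_pow_eq_pow_val, ← map_pow, pow_card_eq_one, map_one, Units.val_one]
  let c : ρ.range → ℝ := fun g ↦ ‖(g : GL (Fin 2) ℂ).val.trace‖ ^ 2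
  obtain ⟨Ae, hAe0, hAe⟩ := exists_euler_bound ha h1 hrel
  have hle : ∑ g : ρ.range, c g ≤ 1 * Fintype.card ρ.range := by
    refine sum_classFun_le hπ ρ.rangeRestrict_surjective c (fun g ↦ by positivity) (fun g y ↦ ?_)
      (δ := 1) (C := Real.log (2 * Ae) + 2 * (4 : ℝ) ^ 2) (badPrimes N) ?_
    · simp only [c, Subgroup.coe_mul, Subgroup.coe_inv, Units.val_mul, Matrix.trace_units_conj']
    · filter_upwards [eventually_near_one] with s hs P hP
      have hgood : ∀ q ∈ P, ¬ (q : ℕ) ∣ N := fun q hq ↦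
        not_dvd_of_notMem_badPrimes (NeZero.ne N) (Finset.disjoint_left.mp hP hq)
      have hcq : ∀ q ∈ P, c (ρ.rangeRestrict (frob q)) = ‖a q‖ ^ 2 := fun q hq ↦ by
        simp only [c, MonoidHom.coe_rangeRestrict]
        rw [((hall q q.2 (hgood q hq) _ (frobPlace_liesOverPrime q)).2 _ (isFrobeniusAt_frob q)).1]
      rw [Finset.sum_congr rfl fun q hq ↦ by rw [hcq q hq]]
      set P' := P.map ⟨fun q : Nat.Primes ↦ (q : ℕ), Subtype.val_injective⟩ with hP'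
      have he : ∑ q ∈ P, ‖a q‖ ^ 2 * ((q : ℕ) : ℝ) ^ (-s)
          = ∑ p ∈ P', ‖a p‖ ^ 2 * (p : ℝ) ^ (-s) := by
        rw [hP', Finset.sum_map]; rfl
      have hP'good : ∀ p ∈ P', p.Prime ∧ ¬ p ∣ N := fun p hp ↦ by
        obtain ⟨q, hq, rfl⟩ := Finset.mem_map.mp hp
        exact ⟨q.2, hgood q hq⟩
      have hbd : ∀ p ∈ P', ‖a p‖ ^ 2 ≤ 4 := fun p hp ↦ by
        obtain ⟨q, hq, rfl⟩ := Finset.mem_map.mp hp
        show ‖a q‖ ^ 2 ≤ 4
        rw [← hcq q hq]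
        simp only [c]
        have htr' := htr (ρ.rangeRestrict (frob q))
        simp only [Subgroup.coe_subtype] at htr'
        rw [htr']
        have := norm_add_le (χ₁ (ρ.rangeRestrict (frob q)) : ℂ) (χ₂ (ρ.rangeRestrict (frob q)) : ℂ)
        rw [hnorm, hnorm] at this
        nlinarith [norm_nonneg ((χ₁ (ρ.rangeRestrict (frob q)) : ℂ) +
          χ₂ (ρ.rangeRestrict (frob q)))]
      rw [he, one_mul]
      refine (sum_mul_rpow_le_log_add (fun p hp ↦ (hP'good p hp).1) (fun p _ ↦ by positivity) hbd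
        hs.1 (hAe P' hP'good s hs.1)).trans ?_
      linarith [log_bound hAe0 hs.1 hs.2]
  let ψ : ρ.range →* ℂˣ := χ₁ * χ₂⁻¹
  have hcg : ∀ g, c g = 2 + 2 * (ψ g : ℂ).re := by
    intro g
    have htr' := htr g
    simp only [Subgroup.coe_subtype] at htr'
    simp only [c]
    rw [htr', ← Complex.normSq_eq_norm_sq, Complex.normSq_add, Complex.normSq_eq_norm_sq,
      Complex.normSq_eq_norm_sq, hnorm, hnorm]
    have e : (ψ g : ℂ) = (χ₁ g : ℂ) * (starRingEnd ℂ) (χ₂ g : ℂ) := by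
      rw [← Complex.inv_eq_conj (hnorm χ₂ g)]
      simp [ψ]
    rw [e]
    norm_num
  have hsum : 0 ≤ (∑ g : ρ.range, (ψ g : ℂ)).re := by
    rw [sum_hom_units ((Units.coeHom ℂ).comp ψ) |> fun h ↦
      (show ∑ g : ρ.range, (ψ g : ℂ) = _ from h)]
    split_ifs <;> simp
  have hGpos : (0 : ℝ) < Fintype.card ρ.range := by exact_mod_cast Fintype.card_pos
  rw [Finset.sum_congr rfl fun g _ ↦ hcg g, Finset.sum_add_distrib, ← Finset.mul_sum,
    ← Complex.re_sum, Finset.sum_const, Finset.card_univ, nsmul_eq_mul] at hle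
  linarith

end FLTAgent.DeligneSerre
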