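import Mathlib
import Fermat.Agent.DeligneSerre.Assemble
import Fermat.Agent.GammaH.Main
import Fermat.Prelude.Def_GaloisRep_Residual
import Fermat.Prelude.Def_Deformations_MatrixRepresentation

set_option autoImplicit false

/-!
# The theorem of Deligne and Serre

The residual representations in weight two come from `GammaH` (`residualInput`);
`exists_galoisRep_weightOne` is the theorem for a normalised weight one cusp form on `Γ₁(N)` with
the Hecke relations away from the level.
-/

open CongruenceSubgroup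
open scoped MatrixGroups

local notation "Γℚ" => (AlgebraicClosure ℚ ≃ₐ[ℚ] AlgebraicClosure ℚ)

namespace FLTAgent.DeligneSerre

/-- Residual representations in weight two exist. -/
theorem residualInput : ResidualInput := by
  intro M _ ℓ hℓp hℓ hℓM χ F hchar R hR hχ k _ _ _ φ h1 heig
  exact GammaH.exists_residualRep M ℓ hℓp hℓ hℓM χ F hchar R hR hχ φ h1 heig

/-- The weight one theorem. -/
theorem exists_galoisRep_weightOne (N : ℕ) [NeZero N] (ε : DirichletCharacter ℂ N)
    (f : CuspForm (Gamma1 N) 1)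
    (hf₁ : ModularFormClass.qCoeff f 1 = 1)
    (hT : ∀ p : ℕ, p.Prime → ¬ p ∣ N → ∀ n : ℕ,
        ModularFormClass.qCoeff f (p * n) +
            ε (p : ZMod N) * (if p ∣ n then ModularFormClass.qCoeff f (n / p) else 0) =
          ModularFormClass.qCoeff f p * ModularFormClass.qCoeff f n) :
    ∃ ρ : Γℚ →* GL (Fin 2) ℂ, GaloisFactorsThroughFiniteLevel ρ ∧
      (Deformation.matrixRepresentation ρ).IsIrreducible ∧
      ∀ p : ℕ, p.Prime → ¬ p ∣ N →
        ∀ A : ValuationSubring (AlgebraicClosure ℚ), A.LiesOverPrime p →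
          (∀ σ ∈ A.inertiaSubgroupIn ℚ, ρ σ = 1) ∧
          ∀ σ : Γℚ, A.IsFrobeniusAt σ p →
            ((ρ σ : GL (Fin 2) ℂ) : Matrix (Fin 2) (Fin 2) ℂ).trace = ModularFormClass.qCoeff f p ∧
            ((ρ σ : GL (Fin 2) ℂ) : Matrix (Fin 2) (Fin 2) ℂ).det = ε (p : ZMod N) :=
  exists_galoisRep residualInput (mem_cfSpace_of_cuspForm f) hf₁ hT

end FLTAgent.DeligneSerre
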